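import Fermat.Agent.TW.Euler.Shapiro

/-!
# Classes of degree two of a level of `G_T` as functions of sum zero on the places

The local invariants at the places over `T` identify the classes of degree two with coefficients
`μ_p` of a normal level with the functions of sum zero, equivariantly. Used for the Euler
characteristic formula.
-/

noncomputable section

namespace Fermat.Agent.TW.Euler

open Fermat.Agent.PT Fermat.Agent.PT.Lv Module

local notation "Qb" => AlgebraicClosure ℚ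

variable {p : ℕ} [Fact p.Prime]

/-! ### Independence of the conjugate -/

section Local

variable {q : ℕ} [Fact q.Prime] {V V' : Subgroup (GamQ q)} {τ : GamQ q}
  (hτ : ∀ v, v ∈ V' ↔ τ⁻¹ * v * τ ∈ V)

theorem cores_cjHom {k : Type*} [CommRing k] {G : Type*} [Group G] {L : Lv G} {M : Type*}
    [AddCommGroup M] [Module k M] {ρ : Representation k G M} (hρ : Smooth L ρ)
    {V V' : Subgroup G} {τ : G} (hτ : ∀ v, v ∈ V' ↔ τ⁻¹ * v * τ ∈ V)
    [Fintype (G ⧸ V)] [Fintype (G ⧸ V')] (hV : V ∈ L) (hV' : V' ∈ L)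
    (x : H2 (L.comap V.subtype) (ρ.comp V.subtype)) :
    cores hV' hρ (H2map (compat_cjHom hτ L) (cj_equiv ρ hτ) x) = cores hV hρ x := by
  obtain ⟨B, rfl⟩ := sh_surjective hV x
  rw [← sh_rtMap hτ, cores_sh, cores_sh, H2push_comp]
  refine H2push_eq_of_eq _ _ (LinearMap.ext fun F => ?_) B
  show ∑ y, F (rtQ hτ y) = ∑ y, F y
  exact Fintype.sum_bijective _ (rtQ_bijective hτ) _ _ fun _ => rfl

/-- Conjugate local classes have the same corestriction. -/
theorem coresTriv_eq_of_conj [Fintype (GamQ q ⧸ V)] [Fintype (GamQ q ⧸ V')] (hV : V ∈ LQ q)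
    (hV' : V' ∈ LQ q) (hμ : (cycLoc q p).MuFix V) (hμ' : (cycLoc q p).MuFix V')
    (f : ↥(Z2 ((LQ q).comap V.subtype) (triv (ZMod p) ↥V)))
    (f' : ↥(Z2 ((LQ q).comap V'.subtype) (triv (ZMod p) ↥V')))
    {y : ↥V' → ZMod p} (hy : Con1 ((LQ q).comap V'.subtype) y)
    (h : ∀ a b : ↥V', (f' : ↥V' × ↥V' → ZMod p) (a, b) =
      ((cyc p).ω (localGaloisToGlobal q τ) : ZMod p) *
        (f : ↥V × ↥V → ZMod p) (cjHom hτ a, cjHom hτ b) + d1 (triv (ZMod p) ↥V') y (a, b)) :
    coresTriv hV' hμ' (mk2 ((LQ q).comap V'.subtype) (triv (ZMod p) ↥V') f') =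
      coresTriv hV hμ (mk2 ((LQ q).comap V.subtype) (triv (ZMod p) ↥V) f) := by
  simp only [coresTriv, LinearMap.comp_apply, LinearEquiv.coe_coe, H2eq_symm_mk2]
  rw [← cores_cjHom (smooth_muQ p q) hτ hV hV', H2map_mk2]
  refine congrArg _ (mk2_eq_mk2.2 ⟨y, hy, funext fun ⟨a, b⟩ => ?_⟩)
  have hω : muQ p q (a : GamQ q) (y b) = y b := by
    show (muG p) _ (y b) = y b
    rw [Cyc.rep_apply]
    exact (congrArg (fun z : (ZMod p)ˣ => (z : ZMod p) * y b) (hμ' a a.2)).trans (one_mul _)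
  show muQ p q (a : GamQ q) (y b) - y (a * b) + y a =
    (f' : ↥V' × ↥V' → ZMod p) (a, b) -
      muQ p q τ ((f : ↥V × ↥V → ZMod p) (cjHom hτ a, cjHom hτ b))
  rw [h, hω, d1_apply, Representation.trivial_apply]
  show _ = _ - (muG p) (localGaloisToGlobal q τ) _
  rw [Cyc.rep_apply]
  ring

end Local

variable (lam : ∀ q : Nat.Primes, H2 (LQ (q : ℕ)) (muQ p (q : ℕ)) →ₗ[ZMod p] ZMod p)

/-- The invariant only depends on the place. -/
theorem invP_samePlace {H : Subgroup Gam} (hH : H ∈ LG) (hμ : (cyc p).MuFix H) (r : Nat.Primes)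
    {g g' : Gam} (hs : SamePlace (r : ℕ) H g g') (a : H2 (LGH H) (triv (ZMod p) ↥H)) :
    invP lam hH hμ r g' a = invP lam hH hμ r g a := by
  obtain ⟨τ, c, hc, hg'⟩ := hs
  obtain ⟨⟨f, hf⟩, rfl⟩ := mk2_surjective a
  obtain ⟨w, hw, hwe⟩ := mem_B2.1 (conj_sub_mem_B2 hf (⟨c, hc⟩ : ↥H))
  have hτ : ∀ σ : GamQ (r : ℕ), σ ∈ stab (r : ℕ) H g' ↔ τ⁻¹ * σ * τ ∈ stab (r : ℕ) H g := by
    intro σ
    rw [mem_stab, cj_apply, mem_stab, cj_apply, map_mul, map_mul, map_inv, hg']
    rw [show (localGaloisToGlobal (r : ℕ) τ * g * c)⁻¹ * localGaloisToGlobal (r : ℕ) σ *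
        (localGaloisToGlobal (r : ℕ) τ * g * c) = c⁻¹ * (g⁻¹ * ((localGaloisToGlobal (r : ℕ) τ)⁻¹ *
          localGaloisToGlobal (r : ℕ) σ * localGaloisToGlobal (r : ℕ) τ) * g) * c by group]
    exact ⟨fun h => by simpa [mul_assoc] using H.mul_mem (H.mul_mem hc h) (H.inv_mem hc),
      fun h => H.mul_mem (H.mul_mem (H.inv_mem hc) h) hc⟩
  have hloc : ∀ σ : ↥(stab (r : ℕ) H g'), locHom (r : ℕ) H g' σ =
      (⟨c, hc⟩ : ↥H)⁻¹ * locHom (r : ℕ) H g (cjHom hτ σ) * ⟨c, hc⟩ := fun σ => Subtype.ext (by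
    rw [Subgroup.coe_mul, Subgroup.coe_mul, Subgroup.coe_inv, coe_locHom, coe_locHom, cj_apply,
      cj_apply, coe_cjHom, map_mul, map_mul, map_inv]
    generalize localGaloisToGlobal (r : ℕ) (σ : GamQ (r : ℕ)) = t
    rw [hg']
    group)
  set u : ZMod p := (((cyc p).ω g' : (ZMod p)ˣ) : ZMod p)
  have hu : u = ((cyc p).ω (localGaloisToGlobal (r : ℕ) τ) : ZMod p) * ((cyc p).ω g : ZMod p) := by
    simp only [u, hg', map_mul, hμ c hc, mul_one, Units.val_mul]
  have := (LQ (r : ℕ)).finiteIndex (stab_mem (r : ℕ) g hH)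
  have := (LQ (r : ℕ)).finiteIndex (stab_mem (r : ℕ) g' hH)
  let _ : Fintype (GamQ (r : ℕ) ⧸ stab (r : ℕ) H g) := Fintype.ofFinite _
  let _ : Fintype (GamQ (r : ℕ) ⧸ stab (r : ℕ) H g') := Fintype.ofFinite _
  show lam r _ = lam r _
  refine congrArg (lam r) ?_
  rw [LinearMap.comp_apply, LinearMap.comp_apply, locH2_mk2, locH2_mk2]
  refine coresTriv_eq_of_conj hτ _ _ _ _ _ _ (y := fun σ => u * w (locHom (r : ℕ) H g (cjHom hτ σ)))
    ((hw.precomp ((compat_locHom (r : ℕ) H g).comp (compat_cjHom hτ (LQ (r : ℕ))))).comp (u * ·))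
    fun σ σ' => ?_
  have e1 := congrFun hwe (locHom (r : ℕ) H g (cjHom hτ σ), locHom (r : ℕ) H g (cjHom hτ σ'))
  simp only [d1_apply, Representation.trivial_apply, Pi.sub_apply, pp2_apply, twist_apply, map_mul]
    at e1 ⊢
  rw [hloc, hloc]
  linear_combination (-u) * e1 + f (locHom (r : ℕ) H g (cjHom hτ σ),
    locHom (r : ℕ) H g (cjHom hτ σ')) * hu

section Conj

variable (T : Finset Nat.Primes) (K : Subgroup Gam) [hKn : K.Normal]

/-- Conjugation of classes of degree two, twisted by the cyclotomic character. -/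
def conjT (h : Gam) : H2 (LSH T K) (triv (ZMod p) ↥K) →ₗ[ZMod p] H2 (LSH T K) (triv (ZMod p) ↥K) :=
  H2map (compat_cjHom (conj_iff (K := K) h) (LS T)) (φ := twist p h) (fun _ _ => rfl)

variable {T K}

/-- The invariants of a conjugated class are those at the translated places. -/
theorem invP_conjT (hK : K ∈ LG) (hμ : (cyc p).MuFix K) (r : Nat.Primes) (g h : Gam)
    (a : H2 (LSH T K) (triv (ZMod p) ↥K)) :
    invP lam hK hμ r g (infS p T K (conjT T K h a)) =
      invP lam hK hμ r (g * h) (infS p T K a) := by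
  obtain ⟨⟨f, hf⟩, rfl⟩ := mk2_surjective a
  have hτ : ∀ σ : GamQ (r : ℕ), σ ∈ stab (r : ℕ) K g ↔
      (1 : GamQ (r : ℕ))⁻¹ * σ * 1 ∈ stab (r : ℕ) K (g * h) := fun σ => by
    rw [inv_one, one_mul, mul_one, mem_stab, mem_stab, cj_apply, cj_apply]
    generalize localGaloisToGlobal (r : ℕ) σ = t
    rw [show (g * h)⁻¹ * t * (g * h) = h⁻¹ * (g⁻¹ * t * g) * h by group]
    exact conj_iff h _
  have := (LQ (r : ℕ)).finiteIndex (stab_mem (r : ℕ) g hK)
  have := (LQ (r : ℕ)).finiteIndex (stab_mem (r : ℕ) (g * h) hK)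
  let _ : Fintype (GamQ (r : ℕ) ⧸ stab (r : ℕ) K g) := Fintype.ofFinite _
  let _ : Fintype (GamQ (r : ℕ) ⧸ stab (r : ℕ) K (g * h)) := Fintype.ofFinite _
  show lam r _ = lam r _
  refine congrArg (lam r) ?_
  rw [LinearMap.comp_apply, LinearMap.comp_apply, conjT, H2map_mk2, infS_mk2, infS_mk2,
    locH2_mk2, locH2_mk2]
  refine coresTriv_eq_of_conj hτ _ _ _ _ _ _ (y := 0) (con1_const 0) fun σ σ' => ?_
  have hl : ∀ s : ↥(stab (r : ℕ) K g),
      cjHom (conj_iff (K := K) h) (locHom (r : ℕ) K g s) = locHom (r : ℕ) K (g * h) (cjHom hτ s) :=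
    fun s => Subtype.ext (by
      simp only [coe_cjHom, coe_locHom, cj_apply, inv_one, one_mul, mul_one]
      group)
  simp only [pp2_apply, twist_apply, MonoidHom.id_apply, LinearMap.id_apply, d1_apply,
    Representation.trivial_apply, Pi.zero_apply, map_mul, map_one, Units.val_one, Units.val_mul, hl]
  ring

end Conj

section Bij

variable {T : Finset Nat.Primes} {K : Subgroup Gam}

variable (T) in
/-- The invariants at the places over `T`. -/
def invT (hK : K ∈ LG) (hμ : (cyc p).MuFix K) :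
    H2 (LSH T K) (triv (ZMod p) ↥K) →ₗ[ZMod p] (PlS T K → ZMod p) :=
  LinearMap.pi fun v => invP lam hK hμ v.1 v.2.rep ∘ₗ infS p T K

theorem invT_apply (hK : K ∈ LG) (hμ : (cyc p).MuFix K) (a : H2 (LSH T K) (triv (ZMod p) ↥K))
    (v : PlS T K) : invT lam T hK hμ a v = invP lam hK hμ v.1 v.2.rep (infS p T K a) := rfl

variable (hodd : p ≠ 2) (hpT : pP p ∈ T) (hK : K ∈ LS T) (hμ : (cyc p).MuFix K)
include hodd hpT hK hμ

/-- With enough places a class of `G_T` trivial in the absolute group is trivial. -/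
theorem infS_injective (hfull : SFull K (placesOver K T)) : Function.Injective (infS p T K) := by
  classical
  rw [injective_iff_map_eq_zero]
  intro a ha
  obtain ⟨⟨f, hf⟩, rfl⟩ := mk2_surjective a
  rw [infS_mk2, mk2_eq_zero] at ha
  obtain ⟨y, hy, hye⟩ := ha
  have e : d1 (triv (ZMod p) ↥K) y = f := hye
  have hyS : y ∈ preS (p := p) T K := mem_preS.2 ⟨hy, by rw [e]; exact hf⟩
  have hKG := LS_le_LG hK
  set ord := ordL (S := T) hodd hK hμ
  let incl : ↥(Z1 (LGH K) (triv (ZMod p) ↥K)) →ₗ[ZMod p] ↥(preS (p := p) T K) :=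
    Submodule.inclusion Z1_le_preS
  obtain ⟨U, ⟨W, hW, hWU⟩, hcon⟩ := hy
  obtain ⟨M, hM, hMW, hMn⟩ := LG.exists_normal (LG.inf_mem hW hKG)
  obtain ⟨S₁, hMS₁⟩ := exists_mem_LS hM
  have hzero : ∀ v : PlO T K, v.1.1 ∉ S₁ → ord ⟨y, hyS⟩ v = 0 := fun v hv =>
    ordL_eq hodd hK hμ (isOrdAt_of_const v.1.2.rep hM (InN_of_mem_LS hMS₁ hv)
      (hMW.trans inf_le_right) fun x s hs => hcon x s (hWU (hMW hs).1))
  have hFfin : {v : PlO T K | v.1.1 ∈ S₁}.Finite := by
    have := finite_PlS (S := S₁) hKG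
    exact (Set.finite_range fun w : PlS S₁ K => PlS.val w).preimage
      Subtype.val_injective.injOn |>.subset fun v hv => ⟨⟨⟨v.1.1, hv⟩, v.1.2⟩, rfl⟩
  have hc : ∀ v : PlO T K, ∃ f₁ : ↥(Z1 (LGH K) (triv (ZMod p) ↥K)),
      ∀ w : PlO T K, ord (incl f₁) w = if w = v then -1 else 0 := fun v => by
    obtain ⟨c, hc, hcv, hc'⟩ := hfull v.1 v.2
    obtain ⟨ρ, hρ⟩ := exists_rootU_of_fixU (p := p) hc
    refine ⟨⟨_, kum_mem_Z1_triv hμ ρ⟩, fun w => ?_⟩
    rw [ordL_eq hodd hK hμ (y := incl ⟨_, kum_mem_Z1_triv hμ ρ⟩)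
      (isOrdAt_kum hK w.2 ρ w.1.2.rep), hρ]
    split_ifs with hwv
    · subst hwv
      rw [lv_eq (k := -1) (by rw [zpow_neg_one]; exact hcv), Int.cast_neg, Int.cast_one]
    · rw [lv_eq (k := 0) (by
        rw [zpow_zero]
        exact hc' w.1 w.2 fun e => hwv (Subtype.ext e)), Int.cast_zero]
  choose cf hcf using hc
  set F := hFfin.toFinset
  let y' : ↥(preS (p := p) T K) := ⟨y, hyS⟩ + ∑ v ∈ F, ord ⟨y, hyS⟩ v • incl (cf v)
  have hy' : ord y' = 0 := funext fun w => by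
    simp only [y', map_add, map_sum, map_smul, Pi.add_apply, Finset.sum_apply, Pi.smul_apply,
      smul_eq_mul, hcf, Pi.zero_apply]
    by_cases hw : w ∈ F
    · rw [Finset.sum_eq_single w (fun v _ hne => by rw [if_neg (Ne.symm hne), mul_zero])
        (fun h => absurd hw h), if_pos rfl]
      ring
    · rw [Finset.sum_eq_zero
          (fun v hv => by rw [if_neg (fun e : w = v => hw (e.symm ▸ hv)), mul_zero]), add_zero,
        hzero w fun h => hw (hFfin.mem_toFinset.2 h)]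
  refine (mk2_eq_zero (L := LSH T K) (ρ := triv (ZMod p) ↥K)).2 ⟨(y' : ↥K → ZMod p),
    con1_LS_of_ord_zero hK hpT y'.2 (isOrdAt_all hodd hK hμ hy'), ?_⟩
  simp only [y', Submodule.coe_add, AddSubmonoidClass.coe_finsetSum, SetLike.val_smul, map_add,
    map_sum, map_smul, e]
  rw [Finset.sum_eq_zero fun v _ => by
    rw [show d1 (triv (ZMod p) ↥K) ((incl (cf v) : ↥(preS (p := p) T K)) : ↥K → ZMod p) = 0 from
      LinearMap.mem_ker.1 (cf v).2.2, smul_zero], add_zero]

variable (GI : GlobalInputs p) (hlam : ∀ q, Function.Bijective (lam q))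
  (hrec : ∀ (S : Finset Nat.Primes) (z : H2 LG (muG p)),
    (∀ q, q ∉ S → locQ p (q : ℕ) z = 0) → ∑ q ∈ S, lam q (locQ p (q : ℕ) z) = 0)
include GI hlam hrec

/-- The classes of degree two with coefficients `μ_p` of a normal level are finite, of dimension
at least the number of places over `T` minus one. -/
theorem finite_and_le_finrank_H2 :
    FiniteDimensional (ZMod p) (H2 (LSH T K) (triv (ZMod p) ↥K)) ∧
      Nat.card (PlS T K) ≤ finrank (ZMod p) (H2 (LSH T K) (triv (ZMod p) ↥K)) + 1 := by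
  classical
  have hKG := LS_le_LG hK
  obtain ⟨W₀, -, -, hfd, -⟩ := exists_dim_bound GI hodd lam hlam hrec hpT hK hμ
  refine ⟨hfd, ?_⟩
  have := finite_PlS (S := T) hKG
  let _ : Fintype (PlS T K) := Fintype.ofFinite _
  have := (LS T).finiteIndex hK
  let _ : Fintype (Gam ⧸ K) := Fintype.ofFinite _
  let e : H2 (LS T) (indRep K (muG p)) ≃ₗ[ZMod p] H2 (LSH T K) (triv (ZMod p) ↥K) :=
    (shEquiv hK (muG_smooth_LS hpT)).trans (H2eq (LSH T K) (muG_comp hμ))
  have hfd' : FiniteDimensional (ZMod p) (H2 (LS T) (indRep K (muG p))) := e.symm.finiteDimensional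
  obtain ⟨U, hD, hUK⟩ := exists_deep (p := p) hpT hK
  have := hD.normal
  have := (LS T).finiteIndex hD.mem
  let _ : Fintype (Gam ⧸ U) := Fintype.ofFinite _
  have hρ := indRep_eq_one (H := K) hUK (muG_eq_one hD.muFix)
  have hW : (⊥ : Submodule (ZMod p) (↥K → ZMod p)) ≤ sha1H (p := p) T K := bot_le
  have hU : ∀ (fC : ↥(⊥ : Submodule (ZMod p) (↥K → ZMod p)) × (PlS T K → ZMod p)) g, ∀ u ∈ U,
      (pairW hK ⊥ hW fC).1.1 (g * u) = (pairW hK ⊥ hW fC).1.1 g := fun fC g u hu => by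
    show cMap (fC.1 : ↥K → ZMod p) (g * u) = cMap (fC.1 : ↥K → ZMod p) g
    rw [show (fC.1 : ↥K → ZMod p) = 0 from fC.1.2, map_zero]
    rfl
  let Tm : (↥(⊥ : Submodule (ZMod p) (↥K → ZMod p)) × (PlS T K → ZMod p)) →ₗ[ZMod p]
      H2 (LS T) (indRep U (indRep K (muG p))) →ₗ[ZMod p] ZMod p :=
    { toFun := fun fC => rawF lam (pairW hK ⊥ hW fC) (hU fC)
      map_add' := fun a a' => LinearMap.ext fun B => by
        rw [LinearMap.add_apply, ← rawF_add lam _ _ (hU a) (hU a') (fun g u hu => by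
          rw [← map_add]; exact hU (a + a') g u hu)]
        simp only [← map_add]
      map_smul' := fun c a => LinearMap.ext fun B => by
        rw [RingHom.id_apply, LinearMap.smul_apply, ← rawF_smul lam c _ (hU a) (fun g u hu => by
          rw [← map_smul]; exact hU (c • a) g u hu)]
        simp only [← map_smul] }
  have hker : finrank (ZMod p) ↥(LinearMap.ker Tm) ≤ 1 := by
    refine (Submodule.finrank_mono (t := (ZMod p) ∙
      ((0, fun _ => 1) : ↥(⊥ : Submodule (ZMod p) (↥K → ZMod p)) × (PlS T K → ZMod p)))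
      fun fC hfC => ?_).trans ((finrank_span_le_card _).trans (by simp))
    obtain ⟨m₀, hb, hc⟩ := eq_const_of_rawF_eq_zero GI hodd lam hlam hrec hpT hD hρ _ (hU fC)
      fun B => LinearMap.congr_fun (LinearMap.mem_ker.1 hfC) B
    obtain ⟨z, rfl⟩ := pairW_trivial hpT hK hW hb hc
    exact Submodule.mem_span_singleton.2 ⟨z, Prod.ext (smul_zero z) (funext fun _ => mul_one z)⟩
  set ψ := H2push (LS T) (indRep U (indRep K (muG p))) (indRep K (muG p))
    (indSum (k := ZMod p) U) (indSum_equivariant U _)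
  have hR : LinearMap.range Tm ≤ LinearMap.range ψ.dualMap := by
    rintro _ ⟨fC, rfl⟩
    rw [LinearMap.range_dualMap_eq_dualAnnihilator_ker, Submodule.mem_dualAnnihilator]
    exact fun B hB =>
        rawF_eq_zero_of_push lam hrec hpT hD.mem (smooth_of_le hD.mem hρ) _ (hU fC) B hB
  have h1 := LinearMap.finrank_range_add_finrank_ker Tm
  have h2 := Submodule.finrank_mono hR
  have h3 := LinearMap.finrank_range_le ψ.dualMap
  rw [Subspace.dual_finrank_eq, e.finrank_eq] at h3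
  rw [Module.finrank_prod, finrank_bot, Module.finrank_pi, ← Nat.card_eq_fintype_card,
      zero_add] at h1
  have h4 := le_trans h2 h3
  omega

/-- The invariants identify the classes with the functions of sum zero. -/
theorem invT_bijective (hfull : SFull K (placesOver K T)) [Fintype (PlS T K)] :
    Function.Injective (invT lam T (LS_le_LG hK) hμ) ∧
      ∀ F, F ∈ LinearMap.range (invT lam T (LS_le_LG hK) hμ) ↔ ∑ v, F v = 0 := by
  classical
  have hKG := LS_le_LG hK
  have hfinPl : ∀ r : Nat.Primes, Finite (Pl (r : ℕ) K) := fun r => finite_pl hKG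
  let _ : ∀ r : Nat.Primes, Fintype (Pl (r : ℕ) K) := fun r => Fintype.ofFinite _
  have hinj : Function.Injective (invT lam T hKG hμ) := by
    rw [injective_iff_map_eq_zero]
    intro a ha
    refine infS_injective hodd hpT hK hμ hfull ?_
    rw [map_zero]
    refine eq_zero_of_local GI hKG hμ _ fun v => ?_
    by_cases hv : v.1 ∈ T
    · exact (invP_eq_zero lam hodd hlam hKG hμ v.1 v.2.rep _).1
        (congrFun ha ⟨⟨v.1, hv⟩, v.2⟩)
    · exact locH2_infS_eq_zero hK hv _ _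
  refine ⟨hinj, ?_⟩
  let tot : (PlS T K → ZMod p) →ₗ[ZMod p] ZMod p := ∑ v, LinearMap.proj v
  have htot : ∀ x, tot x = ∑ v, x v := fun x => by simp [tot]
  have hle : LinearMap.range (invT lam T hKG hμ) ≤ LinearMap.ker tot := by
    rintro _ ⟨a, rfl⟩
    rw [LinearMap.mem_ker, htot]
    refine Eq.trans ?_ (sum_invP (S := T) lam hrec hKG hμ (infS p T K a)
      fun r hr g => locH2_infS_eq_zero hK hr g _)
    rw [← Finset.sum_coe_sort T]
    convert Fintype.sum_sigma (fun v : PlS T K => invT lam T hKG hμ a v)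
    rfl
  obtain ⟨hfd, hlow⟩ := finite_and_le_finrank_H2 lam hodd hpT hK hμ GI hlam hrec
  have hsurj : LinearMap.range tot = ⊤ := LinearMap.range_eq_top.2 fun z =>
    ⟨Pi.single (⟨⟨pP p, hpT⟩, Pl.mk 1⟩ : PlS T K) z, by rw [htot]; simp⟩
  have h1 := LinearMap.finrank_range_add_finrank_ker tot
  rw [hsurj, finrank_top, finrank_self, Module.finrank_pi, ← Nat.card_eq_fintype_card] at h1
  have h2 := LinearMap.finrank_range_of_inj hinj
  have heq : LinearMap.range (invT lam T hKG hμ) = LinearMap.ker tot :=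
    Submodule.eq_of_le_of_finrank_le hle (by omega)
  intro F
  rw [heq, LinearMap.mem_ker, htot]

end Bij

end Fermat.Agent.TW.Euler
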