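import Fermat.Agent.TW.Euler.Hom
import Fermat.Agent.TW.Euler.Inv

/-!
# Degree two: the equivariant maps into functions of sum zero on the places

The fixed classes of degree two of a normal level are the equivariant maps from the twisted dual
into the functions of sum zero on the places over `T`. Used for the Euler characteristic
formula.
-/

noncomputable section

namespace Fermat.Agent.TW.Euler

open Fermat.Agent.PT Fermat.Agent.PT.Lv Module

variable {p : ℕ} [Fact p.Prime]

/-! ### The permutation module of the places -/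

section Places

variable (k : Type*) [CommRing k] (T : Finset Nat.Primes) (K : Subgroup Gam) [hKn : K.Normal]

variable {K} in
/-- Right translation of places. -/
def plMul {q : ℕ} [Fact q.Prime] (g : Gam) : Pl q K → Pl q K :=
  Quotient.map (· * g) fun x y => by
    rintro ⟨τ, h, hh, rfl⟩
    exact ⟨τ, g⁻¹ * h * g, by simpa using hKn.conj_mem h hh g⁻¹, by group⟩

variable {K} in
theorem plMul_mk {q : ℕ} [Fact q.Prime] (x g : Gam) :
    plMul (q := q) g (Pl.mk x : Pl q K) = Pl.mk (x * g) := rfl

variable {T K} in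
/-- Right translation of places over `T`. -/
def vmul (g : Gam) (v : PlS T K) : PlS T K := ⟨v.1, plMul g v.2⟩

/-- The permutation module of the places over `T`. -/
def plRep : Representation k Gam (PlS T K → k) where
  toFun g := LinearMap.funLeft k k (vmul g)
  map_one' := LinearMap.ext fun F => funext fun v => by
    obtain ⟨r, w⟩ := v
    induction w using Quotient.inductionOn with | _ x => ?_
    show F ⟨r, Pl.mk (x * 1)⟩ = F ⟨r, Pl.mk x⟩
    rw [mul_one]
  map_mul' g h := LinearMap.ext fun F => funext fun v => by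
    obtain ⟨r, w⟩ := v
    induction w using Quotient.inductionOn with | _ x => ?_
    show F ⟨r, Pl.mk (x * (g * h))⟩ = F ⟨r, Pl.mk (x * g * h)⟩
    rw [mul_assoc]

theorem plRep_apply (g : Gam) (F : PlS T K → k) (v : PlS T K) :
    plRep k T K g F v = F (vmul g v) := rfl

theorem plRep_eq_one : ∀ g ∈ K, plRep k T K g = 1 := fun g hg =>
  LinearMap.ext fun F => funext fun v => by
    obtain ⟨r, w⟩ := v
    induction w using Quotient.inductionOn with | _ x => ?_
    show F ⟨r, Pl.mk (x * g)⟩ = F ⟨r, Pl.mk x⟩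
    refine congrArg (fun w => F ⟨r, w⟩) (Pl.mk_eq.2 ?_).symm
    exact ⟨1, g, hg, by simp⟩

variable [Fintype (PlS T K)]

/-- The sum over the places. -/
def plTot : (PlS T K → k) →ₗ[k] k := ∑ v, LinearMap.proj v

omit hKn in
theorem plTot_apply (F : PlS T K → k) : plTot k T K F = ∑ v, F v := by
  simp [plTot]

theorem plTot_plRep (g : Gam) (F : PlS T K → k) :
    plTot k T K (plRep k T K g F) = plTot k T K F := by
  rw [plTot_apply, plTot_apply]
  have hinv : ∀ a (v : PlS T K), vmul a⁻¹ (vmul a v) = v := fun a ⟨r, w⟩ => by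
    induction w using Quotient.inductionOn with | _ x => ?_
    show (⟨r, Pl.mk (x * a * a⁻¹)⟩ : PlS T K) = ⟨r, Pl.mk x⟩
    rw [mul_inv_cancel_right]
  exact Fintype.sum_bijective (vmul g) (Function.bijective_iff_has_inverse.2
    ⟨vmul g⁻¹, hinv g, fun v => by simpa using hinv g⁻¹ v⟩) _ _ fun v => rfl

/-- The functions of sum zero. -/
def zeroRep : Representation k Gam ↥(LinearMap.ker (plTot k T K)) where
  toFun g := (plRep k T K g).restrict fun F hF => LinearMap.mem_ker.2
    ((plTot_plRep k T K g F).trans (LinearMap.mem_ker.1 hF))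
  map_one' := LinearMap.ext fun F => Subtype.ext (by simp)
  map_mul' g h := LinearMap.ext fun F => Subtype.ext (by simp)

theorem zeroRep_eq_one : ∀ g ∈ K, zeroRep k T K g = 1 := fun g hg =>
  LinearMap.ext fun F => Subtype.ext (LinearMap.congr_fun (plRep_eq_one k T K g hg) F.1)

end Places

/-! ### Classes of degree two with coefficients -/

section Coef

variable {T : Finset Nat.Primes} {K : Subgroup Gam} {M : Type} [AddCommGroup M] [Module (ZMod p) M]
  {π : Representation (ZMod p) Gam M} (hπ : ∀ g ∈ K, π g = 1)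
include hπ

/-- A functional applied to the coefficients. -/
def coefMap (l : M →ₗ[ZMod p] ZMod p) :
    H2 (LSH T K) (π.comp K.subtype) →ₗ[ZMod p] H2 (LSH T K) (triv (ZMod p) ↥K) :=
  H2map (f := MonoidHom.id ↥K) (compat_id fun _ h => h) (φ := l) fun g m => by
    show l (π (g : Gam) m) = l m
    rw [hπ _ g.2]
    rfl

/-- A vector as coefficient. -/
def coefInc (m : M) : H2 (LSH T K) (triv (ZMod p) ↥K) →ₗ[ZMod p] H2 (LSH T K) (π.comp K.subtype) :=
  H2map (f := MonoidHom.id ↥K) (compat_id fun _ h => h)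
      (φ := LinearMap.toSpanSingleton (ZMod p) M m)
    fun g z => by
      show z • m = π (g : Gam) (z • m)
      rw [hπ _ g.2]
      rfl

theorem coefMap_add (l l' : M →ₗ[ZMod p] ZMod p) (a : H2 (LSH T K) (π.comp K.subtype)) :
    coefMap hπ (l + l') a = coefMap hπ l a + coefMap hπ l' a := by
  obtain ⟨f, rfl⟩ := mk2_surjective a
  simp only [coefMap, H2map_mk2, ← map_add]
  rfl

theorem coefMap_smul (c : ZMod p) (l : M →ₗ[ZMod p] ZMod p)
    (a : H2 (LSH T K) (π.comp K.subtype)) : coefMap hπ (c • l) a = c • coefMap hπ l a := by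
  obtain ⟨f, rfl⟩ := mk2_surjective a
  simp only [coefMap, H2map_mk2, ← map_smul]
  rfl

theorem coefMap_coefInc (l : M →ₗ[ZMod p] ZMod p) (m : M)
    (c : H2 (LSH T K) (triv (ZMod p) ↥K)) : coefMap hπ l (coefInc hπ m c) = l m • c := by
  obtain ⟨f, rfl⟩ := mk2_surjective c
  simp only [coefMap, coefInc, H2map_mk2, ← map_smul]
  refine congrArg _ (Subtype.ext (funext fun g => ?_))
  show l ((f : ↥K × ↥K → ZMod p) g • m) = l m * (f : ↥K × ↥K → ZMod p) g
  rw [map_smul, smul_eq_mul, mul_comm]

theorem sum_coefInc_coefMap {ι : Type*} [Fintype ι] (b : Basis ι (ZMod p) M)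
    (a : H2 (LSH T K) (π.comp K.subtype)) :
    ∑ j, coefInc hπ (b j) (coefMap hπ (b.coord j) a) = a := by
  obtain ⟨f, rfl⟩ := mk2_surjective a
  simp only [coefMap, coefInc, H2map_mk2, ← map_sum]
  refine congrArg _ (Subtype.ext (funext fun g => ?_))
  rw [AddSubmonoidClass.coe_finsetSum, Finset.sum_apply]
  exact b.sum_repr _

/-- Translation on the coefficients. -/
theorem coefMap_cjHom [K.Normal] (h : Gam) (l : M →ₗ[ZMod p] ZMod p)
    (a : H2 (LSH T K) (π.comp K.subtype)) :
    coefMap hπ l (H2map (compat_cjHom (conj_iff (K := K) h) (LS T)) (cj_equiv π _) a) =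
      conjT T K h (coefMap hπ (dualR (muG p) π h⁻¹ l) a) := by
  obtain ⟨f, rfl⟩ := mk2_surjective a
  simp only [coefMap, conjT, H2map_mk2]
  refine congrArg _ (Subtype.ext (funext fun ⟨x, y⟩ => ?_))
  show l (π h _) = ((cyc p).ω h : ZMod p) * dualR (muG p) π h⁻¹ l _
  rw [dualR_apply, inv_inv, muG, Cyc.rep_apply, ← mul_assoc, ← Units.val_mul, ← map_mul,
    mul_inv_cancel, map_one, Units.val_one, one_mul]
  rfl

end Coef

/-! ### The identification -/

section Main

variable {T : Finset Nat.Primes} {K H : Subgroup Gam} [K.Normal] {M : Type} [AddCommGroup M]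
  [Module (ZMod p) M] [Finite M] {π : Representation (ZMod p) Gam M} [Fintype (Gam ⧸ K)]
  (lam : ∀ q : Nat.Primes, H2 (LQ (q : ℕ)) (muQ p (q : ℕ)) →ₗ[ZMod p] ZMod p) (hodd : p ≠ 2)
  (hpT : pP p ∈ T) (hK : K ∈ LS T) (hμ : (cyc p).MuFix K) (hπ : ∀ g ∈ K, π g = 1)
  (GI : GlobalInputs p) (hlam : ∀ q, Function.Bijective (lam q))
  (hrec : ∀ (S : Finset Nat.Primes) (z : H2 LG (muG p)),
    (∀ q, q ∉ S → locQ p (q : ℕ) z = 0) → ∑ q ∈ S, lam q (locQ p (q : ℕ) z) = 0)
  (hfull : SFull K (placesOver K T)) [Fintype (PlS T K)]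

/-- A class as a map from the dual to functions on the places. -/
def theta : H2 (LS T) (indRep K π) →ₗ[ZMod p] (M →ₗ[ZMod p] ZMod p) →ₗ[ZMod p] (PlS T K → ZMod p) :=
  LinearMap.mk₂ (ZMod p) (fun a l => invT lam T (LS_le_LG hK) hμ (coefMap hπ l (sh K π (LS T) a)))
    (fun a a' l => by simp only [map_add]) (fun c a l => by simp only [map_smul])
    (fun a l l' => by simp only [coefMap_add, map_add])
    (fun c a l => by simp only [coefMap_smul, map_smul])

omit [Finite M] [Fintype (Gam ⧸ K)] [Fintype (PlS T K)] in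
theorem theta_transl (h : Gam) (a : H2 (LS T) (indRep K π)) (l : M →ₗ[ZMod p] ZMod p) :
    theta lam hK hμ hπ (transl (LS T) π h a) l =
      plRep (ZMod p) T K h (theta lam hK hμ hπ a (dualR (muG p) π h⁻¹ l)) := by
  show invT lam T (LS_le_LG hK) hμ (coefMap hπ l (sh K π (LS T) (transl (LS T) π h a))) = _
  rw [transl, sh_rtMap, coefMap_cjHom]
  funext v
  rw [invT_apply, invP_conjT, plRep_apply]
  show _ = invP lam (LS_le_LG hK) hμ v.1 (plMul h v.2).rep _
  have e : (Pl.mk (v.2.rep * h) : Pl ((v.1 : Nat.Primes) : ℕ) K) = plMul h v.2 := by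
    rw [← plMul_mk, Pl.mk_rep]
  rw [← e]
  exact (invP_samePlace lam (LS_le_LG hK) hμ _ (Pl.samePlace_rep _) _).symm

include hodd hpT hK hμ hπ GI hlam hrec hfull

omit [Fintype (Gam ⧸ K)] in
/-- Fixed classes are the equivariant maps into the functions of sum zero. -/
theorem finrank_fixedH2 :
    FiniteDimensional (ZMod p) (H2 (LS T) (indRep K π)) ∧
      finrank (ZMod p) ↥(fixedH2 (K := K) (LS T) π H) =
        finrank (ZMod p) (homD π H (zeroRep (ZMod p) T K)) := by
  have hKG := LS_le_LG hK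
  obtain ⟨hinj, hrange⟩ := invT_bijective lam hodd hpT hK hμ GI hlam hrec hfull
  let b := Module.finBasis (ZMod p) M
  have hρ : Smooth (LS T) π := smooth_of_le hK hπ
  have hθinj : Function.Injective (theta lam hK hμ hπ (π := π)) := by
    refine (injective_iff_map_eq_zero _).2 fun a ha => ?_
    refine sh_injective hK hρ ?_
    rw [map_zero, ← sum_coefInc_coefMap hπ b (sh K π (LS T) a)]
    refine Finset.sum_eq_zero fun j _ => ?_
    rw [show coefMap hπ (b.coord j) (sh K π (LS T) a) = 0 from hinj (by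
      rw [map_zero]
      exact LinearMap.congr_fun ha (b.coord j)), map_zero]
  have := finite_hom p M (ZMod p)
  have : Finite (PlS T K → ZMod p) := Pi.finite
  have := finite_hom p (M →ₗ[ZMod p] ZMod p) (PlS T K → ZMod p)
  have : Finite (H2 (LS T) (indRep K π)) := Finite.of_injective _ hθinj
  refine ⟨Module.Finite.of_finite, ?_⟩
  have hmem : ∀ a, ∀ l, plTot (ZMod p) T K (theta lam hK hμ hπ a l) = 0 := fun a l => by
    rw [plTot_apply]
    exact (hrange _).1 ⟨_, rfl⟩
  have hfix : ∀ a ∈ fixedH2 (K := K) (LS T) π H, ∀ h ∈ H, ∀ l,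
      theta lam hK hμ hπ a (dualR (muG p) π h l) =
        plRep (ZMod p) T K h (theta lam hK hμ hπ a l) := fun a ha h hh l => by
    conv_lhs => rw [← (mem_fixedH2 _ _).1 ha h hh]
    rw [theta_transl, ← Module.End.mul_apply (dualR (muG p) π h⁻¹), ← map_mul, inv_mul_cancel,
      map_one, Module.End.one_apply]
  let f : ↥(fixedH2 (K := K) (LS T) π H) →ₗ[ZMod p] ↥(homD π H (zeroRep (ZMod p) T K)) :=
    { toFun := fun a => ⟨(theta lam hK hμ hπ a.1).codRestrict _ fun l =>
          LinearMap.mem_ker.2 (hmem a.1 l),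
        mem_homD.2 fun h hh l => Subtype.ext (hfix a.1 a.2 h hh l)⟩
      map_add' := fun a a' => Subtype.ext (LinearMap.ext fun l => Subtype.ext
        (LinearMap.congr_fun (map_add (theta lam hK hμ hπ) a.1 a'.1) l))
      map_smul' := fun c a => Subtype.ext (LinearMap.ext fun l => Subtype.ext
        (LinearMap.congr_fun (map_smul (theta lam hK hμ hπ) c a.1) l)) }
  refine (LinearEquiv.ofBijective f ⟨fun a a' e => Subtype.ext (hθinj (LinearMap.ext fun l =>
    congrArg Subtype.val (LinearMap.congr_fun (congrArg Subtype.val e) l))),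
      fun Ψ => ?_⟩).finrank_eq
  choose c hc using fun j => (hrange (Ψ.1 (b.coord j)).1).2
    ((plTot_apply _ _ _ _).symm.trans (Ψ.1 (b.coord j)).2)
  obtain ⟨a, ha⟩ := sh_surjective hK (∑ j, coefInc hπ (b j) (c j))
  have hθa : ∀ l, theta lam hK hμ hπ a l = (Ψ.1 l : PlS T K → ZMod p) := fun l => by
    show invT lam T hKG hμ (coefMap hπ l (sh K π (LS T) a)) = _
    rw [ha, map_sum, map_sum, ← dual_apply_eq b Ψ.1 l, AddSubmonoidClass.coe_finsetSum]
    exact Finset.sum_congr rfl fun j _ => by rw [coefMap_coefInc, map_smul, hc]; rfl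
  refine ⟨⟨a, (mem_fixedH2 _ _).2 fun h hh => hθinj (LinearMap.ext fun l => ?_)⟩,
    Subtype.ext (LinearMap.ext fun l => Subtype.ext (hθa l))⟩
  rw [theta_transl, hθa, hθa]
  have h1 := congrArg Subtype.val (mem_homD.1 Ψ.2 h hh (dualR (muG p) π h⁻¹ l))
  rw [← Module.End.mul_apply, ← map_mul, mul_inv_cancel, map_one, Module.End.one_apply] at h1
  exact h1.symm

end Main

/-! ### The functions of sum zero inside all functions -/

omit [Fact p.Prime] in
theorem plTot_surjective {T : Finset Nat.Primes} {K : Subgroup Gam}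
    [Fintype (PlS T K)] {r : Nat.Primes} (hr : r ∈ T) :
    Function.Surjective (plTot (ZMod p) T K) := fun z => by
  classical
  exact ⟨Pi.single (⟨⟨r, hr⟩, Pl.mk 1⟩ : PlS T K) z, by rw [plTot_apply]; simp⟩

/-- The functions of sum zero miss the trivial representation. -/
theorem finrank_homD_zeroRep {T : Finset Nat.Primes} {K H : Subgroup Gam} [K.Normal] {M : Type}
    [AddCommGroup M] [Module (ZMod p) M] [Finite M] {π : Representation (ZMod p) Gam M}
    [Fintype (↥H ⧸ K.subgroupOf H)] (hD : (Fintype.card (↥H ⧸ K.subgroupOf H) : ZMod p) ≠ 0)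
    (hπ : ∀ g ∈ K, π g = 1) (hμ : (cyc p).MuFix K) (hpT : pP p ∈ T) [Fintype (PlS T K)] :
    (finrank (ZMod p) (homD π H (zeroRep (ZMod p) T K)) : ℤ) +
        finrank (ZMod p) (homD π H (Representation.trivial (ZMod p) Gam (ZMod p))) =
      finrank (ZMod p) (homD π H (plRep (ZMod p) T K)) := by
  have := finite_hom p M (ZMod p)
  rw [← homAdd_dRep hD hπ hμ _ (zeroRep_eq_one _ T K),
    ← homAdd_dRep hD hπ hμ (Representation.trivial (ZMod p) Gam (ZMod p)) (fun _ _ => rfl),
    ← homAdd_dRep hD hπ hμ _ (plRep_eq_one _ T K)]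
  refine ((homAdd hD _).map_exact _ _ _ (LinearMap.ker (plTot (ZMod p) T K)).subtype
    (plTot (ZMod p) T K) (fun d F => ?_) (fun d F => ?_) Subtype.val_injective
    (Submodule.range_subtype _) (plTot_surjective hpT)).symm
  · induction d using QuotientGroup.induction_on with | _ x => ?_
    rfl
  · induction d using QuotientGroup.induction_on with | _ x => ?_
    exact plTot_plRep _ T K _ F

end Fermat.Agent.TW.Euler
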