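import Mathlib.Algebra.Field.ZMod
import Mathlib.Algebra.Module.ZMod
import Mathlib.LinearAlgebra.Dimension.Constructions
import Mathlib.LinearAlgebra.Dimension.LinearMap
import Mathlib.LinearAlgebra.FreeModule.Finite.Basic
import Mathlib.LinearAlgebra.FreeModule.PID
import Mathlib.LinearAlgebra.TensorProduct.Basis
import Mathlib.RepresentationTheory.Basic
import Mathlib.RingTheory.TensorProduct.Finite
import Mathlib.RingTheory.TensorProduct.Free

/-!
# Additive functions on finite representations and reductions of lattices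

An integer valued function of finite `ZMod p`-representations which is additive on short exact
sequences takes the same value on the reductions of two commensurable lattices.
Used to compute with virtual modules in the Euler characteristic formula.
-/

noncomputable section

namespace Fermat.Agent.TW.Euler

open TensorProduct Module

variable {p : ℕ} {G : Type*} [Group G]

variable (p G) in
/-- A function of finite representations, additive on short exact sequences. -/
structure AddFun where
  /-- The value on a representation. -/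
  toFun : ∀ {V : Type} [AddCommGroup V] [Module (ZMod p) V],
    Representation (ZMod p) G V → ℤ
  map_exact : ∀ {A B C : Type} [AddCommGroup A] [Module (ZMod p) A] [AddCommGroup B]
    [Module (ZMod p) B] [AddCommGroup C] [Module (ZMod p) C] [Finite A] [Finite B] [Finite C]
    (α : Representation (ZMod p) G A) (β : Representation (ZMod p) G B)
    (γ : Representation (ZMod p) G C) (i : A →ₗ[ZMod p] B) (π : B →ₗ[ZMod p] C),
    (∀ g a, i (α g a) = β g (i a)) → (∀ g b, π (β g b) = γ g (π b)) →
    Function.Injective i → LinearMap.range i = LinearMap.ker π → Function.Surjective π →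
    toFun β = toFun α + toFun γ

namespace AddFun

variable (f : AddFun p G)

theorem map_subsingleton {V : Type} [AddCommGroup V] [Module (ZMod p) V] [Subsingleton V]
    (ρ : Representation (ZMod p) G V) : f.toFun ρ = 0 := by
  have : Finite V := Finite.of_subsingleton
  have h := f.map_exact ρ ρ ρ LinearMap.id LinearMap.id (fun _ _ => rfl) (fun _ _ => rfl)
    Function.injective_id (Subsingleton.elim _ _) Function.surjective_id
  omega

theorem map_equiv {A B : Type} [AddCommGroup A] [Module (ZMod p) A] [AddCommGroup B]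
    [Module (ZMod p) B] [Finite A] [Finite B] {α : Representation (ZMod p) G A}
    {β : Representation (ZMod p) G B} (e : A ≃ₗ[ZMod p] B) (he : ∀ g a, e (α g a) = β g (e a)) :
    f.toFun β = f.toFun α := by
  let γ : Representation (ZMod p) G (Fin 0 → ZMod p) := 1
  have h := f.map_exact α β γ e.toLinearMap 0 he (fun _ _ => Subsingleton.elim _ _)
    e.injective (by rw [LinearMap.ker_zero, LinearEquiv.range])
    (fun x => ⟨0, Subsingleton.elim _ _⟩)
  rw [f.map_subsingleton γ, add_zero] at h
  exact h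

/-- A four term exact sequence with isomorphic ends. -/
theorem map_four {Q A B : Type} [AddCommGroup Q] [Module (ZMod p) Q] [AddCommGroup A]
    [Module (ZMod p) A] [AddCommGroup B] [Module (ZMod p) B] [Finite Q] [Finite A] [Finite B]
    {η : Representation (ZMod p) G Q} {α : Representation (ZMod p) G A}
    {β : Representation (ZMod p) G B} (i : Q →ₗ[ZMod p] A) (m : A →ₗ[ZMod p] B)
    (π : B →ₗ[ZMod p] Q) (hi : ∀ g a, i (η g a) = α g (i a)) (hm : ∀ g a, m (α g a) = β g (m a))
    (hπ : ∀ g a, π (β g a) = η g (π a)) (hinj : Function.Injective i)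
    (hex1 : LinearMap.range i = LinearMap.ker m) (hex2 : LinearMap.range m = LinearMap.ker π)
    (hsurj : Function.Surjective π) : f.toFun α = f.toFun β := by
  let γ : Representation (ZMod p) G (LinearMap.range m) :=
    { toFun := fun g => (β g).restrict (fun x ⟨a, ha⟩ => ⟨α g a, by rw [hm, ha]⟩)
      map_one' := by ext; simp
      map_mul' := fun g h => by ext; simp }
  have : Finite (LinearMap.range m) := Subtype.finite
  have h1 := f.map_exact η α γ i m.rangeRestrict hi (fun g a => Subtype.ext (hm g a)) hinj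
    (by rw [hex1, LinearMap.ker_rangeRestrict]) m.surjective_rangeRestrict
  have h2 := f.map_exact γ β η (LinearMap.range m).subtype π (fun g a => rfl) hπ
    Subtype.val_injective (by rw [Submodule.range_subtype, hex2]) hsurj
  omega

end AddFun

section Lattice

variable {L : Type} [AddCommGroup L]

/-- The reduction of a lattice with an action. -/
def redRep (p : ℕ) (ρ : Representation ℤ G L) : Representation (ZMod p) G (ZMod p ⊗[ℤ] L) where
  toFun g := (ρ g).baseChange (ZMod p)
  map_one' := by simp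
  map_mul' g h := by rw [map_mul, LinearMap.baseChange_mul]

theorem redRep_tmul (ρ : Representation ℤ G L) (g : G) (a : ZMod p) (x : L) :
    redRep p ρ g (a ⊗ₜ[ℤ] x) = a ⊗ₜ[ℤ] ρ g x := rfl

theorem exists_one_tmul (y : ZMod p ⊗[ℤ] L) : ∃ x : L, (1 : ZMod p) ⊗ₜ[ℤ] x = y := by
  induction y using TensorProduct.induction_on with
  | zero => exact ⟨0, by simp⟩
  | tmul a x =>
    obtain ⟨n, rfl⟩ := ZMod.intCast_surjective a
    exact ⟨n • x, by rw [tmul_smul, smul_tmul', zsmul_one]⟩
  | add a b ha hb =>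
    obtain ⟨u, rfl⟩ := ha
    obtain ⟨v, rfl⟩ := hb
    exact ⟨u + v, by rw [tmul_add]⟩

theorem one_tmul_smul_self (x : L) : (1 : ZMod p) ⊗ₜ[ℤ] ((p : ℤ) • x) = 0 := by
  rw [tmul_smul, smul_tmul', zsmul_one, Int.cast_natCast, ZMod.natCast_self, zero_tmul]

variable [Module.Free ℤ L] [Module.Finite ℤ L]

theorem one_tmul_eq_zero_iff (x : L) :
    (1 : ZMod p) ⊗ₜ[ℤ] x = 0 ↔ ∃ y : L, (p : ℤ) • y = x := by
  refine ⟨fun h => ?_, fun ⟨y, hy⟩ => hy ▸ one_tmul_smul_self y⟩
  let b := Module.Free.chooseBasis ℤ L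
  have hdvd : ∀ j, (p : ℤ) ∣ b.repr x j := fun j => by
    have h' := congrArg (fun z => (Algebra.TensorProduct.basis (ZMod p) b).repr z j) h
    simp only [Algebra.TensorProduct.basis_repr_tmul, map_zero, Finsupp.zero_apply] at h'
    simp [ZMod.intCast_zmod_eq_zero_iff_dvd] at h'
    exact h'
  choose y hy using hdvd
  refine ⟨b.equivFun.symm y, b.equivFun.injective (funext fun j => ?_)⟩
  rw [map_smul, LinearEquiv.apply_symm_apply, Pi.smul_apply, Basis.equivFun_apply, hy j,
    smul_eq_mul]

variable [Fact p.Prime]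

instance : Finite (ZMod p ⊗[ℤ] L) :=
  Module.finite_of_finite (ZMod p)

omit [Module.Finite ℤ L] in
theorem finrank_red : finrank (ZMod p) (ZMod p ⊗[ℤ] L) = finrank ℤ L := finrank_baseChange

/-- An additive function takes the same value on the reductions of a lattice and of a stable
sublattice containing `p` times it. -/
theorem map_red_of_dvd (f : AddFun p G) {M : Type} [AddCommGroup M] [Module.Free ℤ M]
    [Module.Finite ℤ M] (μ : Representation ℤ G M) (ρ : Representation ℤ G L) (i : M →ₗ[ℤ] L)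
    (hi : ∀ g m, i (μ g m) = ρ g (i m)) (hinj : Function.Injective i)
    (hp : ∀ x, (p : ℤ) • x ∈ LinearMap.range i) :
    f.toFun (redRep p μ) = f.toFun (redRep p ρ) := by
  let m := i.baseChange (ZMod p)
  let Q := (ZMod p ⊗[ℤ] L) ⧸ LinearMap.range m
  let η : Representation (ZMod p) G Q :=
    { toFun := fun g => Submodule.mapQ _ _ (redRep p ρ g) (by
        rintro _ ⟨y, rfl⟩
        obtain ⟨x, rfl⟩ := exists_one_tmul y
        exact ⟨(1 : ZMod p) ⊗ₜ[ℤ] μ g x, by simp [m, redRep_tmul, hi]⟩)
      map_one' := by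
        refine Submodule.linearMap_qext _ (LinearMap.ext fun x => ?_)
        simp
      map_mul' := fun g h => by
        refine Submodule.linearMap_qext _ (LinearMap.ext fun x => ?_)
        simp }
  have : Finite Q := Finite.of_surjective _ (Submodule.mkQ_surjective _)
  choose d hd using hp
  have hd_add : ∀ x y, d (x + y) = d x + d y := fun x y => hinj (by
    rw [map_add, hd, hd, hd, smul_add])
  let δ₀ : L →+ ZMod p ⊗[ℤ] M :=
    { toFun := fun x => (1 : ZMod p) ⊗ₜ[ℤ] d x
      map_zero' := by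
        have : d 0 = 0 := hinj (by rw [hd, map_zero, smul_zero])
        rw [this, tmul_zero]
      map_add' := fun x y => by rw [hd_add, tmul_add] }
  have hδi : ∀ y, δ₀ (i y) = 0 := fun y => by
    have : d (i y) = (p : ℤ) • y := hinj (by rw [hd, map_zsmul])
    show (1 : ZMod p) ⊗ₜ[ℤ] d (i y) = 0
    rw [this, one_tmul_smul_self]
  have hδp : ∀ x, δ₀ ((p : ℤ) • x) = 0 := fun x => by
    obtain ⟨y, hy⟩ : ∃ y, i y = (p : ℤ) • x := ⟨d x, hd x⟩
    rw [← hy, hδi]
  have hker : ∀ x, δ₀ x = 0 ↔ x ∈ LinearMap.range i := fun x => by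
    refine ⟨fun h => ?_, fun ⟨y, hy⟩ => hy ▸ hδi y⟩
    obtain ⟨y, hy⟩ := (one_tmul_eq_zero_iff (d x)).1 h
    refine ⟨y, smul_right_injective L (Int.natCast_ne_zero.2 (Fact.out : p.Prime).ne_zero) ?_⟩
    show (p : ℤ) • i y = (p : ℤ) • x
    rw [← map_zsmul, hy, hd]
  -- descend to the cokernel
  have hwd : ∀ x x' : L, (1 : ZMod p) ⊗ₜ[ℤ] x - (1 : ZMod p) ⊗ₜ[ℤ] x' ∈ LinearMap.range m →
      δ₀ x = δ₀ x' := fun x x' ⟨y, hy⟩ => by
    obtain ⟨z, rfl⟩ := exists_one_tmul y
    rw [LinearMap.baseChange_tmul, ← tmul_sub, eq_comm, ← sub_eq_zero, ← tmul_sub,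
      one_tmul_eq_zero_iff] at hy
    obtain ⟨w, hw⟩ := hy
    rw [← sub_eq_zero, ← map_sub, show x - x' = (p : ℤ) • w + i z by rw [hw]; abel, map_add, hδp,
      hδi, add_zero]
  choose sec hsec using fun q : Q => (Submodule.Quotient.mk_surjective _ q)
  choose lft hlft using fun y : ZMod p ⊗[ℤ] L => exists_one_tmul y
  let α : Q → ZMod p ⊗[ℤ] M := fun q => δ₀ (lft (sec q))
  have hα : ∀ x, α (Submodule.Quotient.mk ((1 : ZMod p) ⊗ₜ[ℤ] x)) = δ₀ x := fun x => hwd _ _ (by
    rw [hlft]
    exact (Submodule.Quotient.eq _).1 (hsec _))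
  have hrep : ∀ q : Q, ∃ x, Submodule.Quotient.mk ((1 : ZMod p) ⊗ₜ[ℤ] x) = q := fun q => by
    obtain ⟨y, rfl⟩ := Submodule.Quotient.mk_surjective _ q
    obtain ⟨x, rfl⟩ := exists_one_tmul y
    exact ⟨x, rfl⟩
  let αl : Q →ₗ[ZMod p] ZMod p ⊗[ℤ] M := AddMonoidHom.toZModLinearMap p (AddMonoidHom.mk' α
    fun a b => by
      obtain ⟨x, rfl⟩ := hrep a
      obtain ⟨x', rfl⟩ := hrep b
      rw [← Submodule.Quotient.mk_add, ← tmul_add, hα, hα, hα, map_add])
  refine f.map_four (η := η) αl m (LinearMap.range m).mkQ ?_ ?_ (fun g a => rfl) ?_ ?_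
    (Submodule.ker_mkQ _).symm (Submodule.mkQ_surjective _)
  · intro g a
    obtain ⟨x, rfl⟩ := hrep a
    show α (Submodule.Quotient.mk (redRep p ρ g ((1 : ZMod p) ⊗ₜ[ℤ] x))) = _
    rw [redRep_tmul, hα]
    show _ = redRep p μ g (α _)
    rw [hα]
    show (1 : ZMod p) ⊗ₜ[ℤ] d (ρ g x) = (1 : ZMod p) ⊗ₜ[ℤ] μ g (d x)
    congr 1
    exact hinj (by rw [hd, hi, hd, map_zsmul])
  · intro g a
    obtain ⟨x, rfl⟩ := exists_one_tmul a
    simp [m, redRep_tmul, hi]
  · refine LinearMap.ker_eq_bot.1 ((Submodule.eq_bot_iff _).2 fun q hq => ?_)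
    obtain ⟨x, rfl⟩ := hrep q
    have h0 : δ₀ x = 0 := (hα x).symm.trans hq
    obtain ⟨y, rfl⟩ := (hker x).1 h0
    exact (Submodule.Quotient.mk_eq_zero _).2 ⟨(1 : ZMod p) ⊗ₜ[ℤ] y, LinearMap.baseChange_tmul ..⟩
  · ext y
    constructor
    · rintro ⟨q, rfl⟩
      obtain ⟨x, rfl⟩ := hrep q
      show m (α _) = 0
      rw [hα]
      show m ((1 : ZMod p) ⊗ₜ[ℤ] d x) = 0
      rw [LinearMap.baseChange_tmul, hd, one_tmul_smul_self]
    · intro hy
      obtain ⟨z, rfl⟩ := exists_one_tmul y
      rw [LinearMap.mem_ker, LinearMap.baseChange_tmul, one_tmul_eq_zero_iff] at hy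
      obtain ⟨w, hw⟩ := hy
      refine ⟨Submodule.Quotient.mk ((1 : ZMod p) ⊗ₜ[ℤ] w), ?_⟩
      show α _ = _
      rw [hα]
      show (1 : ZMod p) ⊗ₜ[ℤ] d w = _
      rw [show d w = z from hinj (by rw [hd, hw])]

/-- Commensurable lattices have reductions with the same value. -/
theorem map_red_of_finite_index (f : AddFun p G) {M : Type} [AddCommGroup M] [Module.Free ℤ M]
    [Module.Finite ℤ M] (μ : Representation ℤ G M) (ρ : Representation ℤ G L) (i : M →ₗ[ℤ] L)
    (hi : ∀ g m, i (μ g m) = ρ g (i m)) (hinj : Function.Injective i)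
    [Finite (L ⧸ LinearMap.range i)] :
    f.toFun (redRep p μ) = f.toFun (redRep p ρ) := by
  obtain ⟨n, hn⟩ : ∃ n, Nat.card (L ⧸ LinearMap.range i) = n := ⟨_, rfl⟩
  induction n using Nat.strong_induction_on generalizing L with
  | _ n ih =>
    let N : Submodule ℤ L := LinearMap.range i ⊔ LinearMap.range ((p : ℤ) • LinearMap.id)
    have hNst : ∀ g, N ≤ N.comap (ρ g) := fun g => by
      refine sup_le ?_ ?_
      · rintro _ ⟨m, rfl⟩
        exact Submodule.mem_sup_left ⟨μ g m, hi g m⟩
      · rintro _ ⟨x, rfl⟩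
        exact Submodule.mem_sup_right ⟨ρ g x, by simp⟩
    by_cases htop : N = ⊤
    · have hsurj : Function.Surjective (i.baseChange (ZMod p)) := fun y => by
        obtain ⟨x, rfl⟩ := exists_one_tmul y
        obtain ⟨_, ⟨m, rfl⟩, _, ⟨w, rfl⟩, e⟩ := Submodule.mem_sup.1 (show x ∈ N by
          rw [htop]; exact Submodule.mem_top)
        refine ⟨(1 : ZMod p) ⊗ₜ[ℤ] m, ?_⟩
        rw [LinearMap.baseChange_tmul, ← e, tmul_add]
        simp only [LinearMap.smul_apply, LinearMap.id_apply, one_tmul_smul_self, add_zero]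
      have hrk : finrank ℤ M = finrank ℤ L := by
        refine le_antisymm (LinearMap.finrank_le_finrank_of_injective hinj) ?_
        rw [← finrank_red (p := p) (L := L), ← finrank_red (p := p) (L := M)]
        exact LinearMap.finrank_le_finrank_of_surjective hsurj
      have hbij : Function.Bijective (i.baseChange (ZMod p)) := ⟨by
        refine (LinearMap.injective_iff_surjective_of_finrank_eq_finrank ?_).2 hsurj
        rw [finrank_red, finrank_red, hrk], hsurj⟩
      refine (f.map_equiv (LinearEquiv.ofBijective _ hbij) fun g a => ?_).symm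
      obtain ⟨x, rfl⟩ := exists_one_tmul a
      simp [redRep_tmul, hi]
    let j : M →ₗ[ℤ] N := i.codRestrict N fun m => Submodule.mem_sup_left ⟨m, rfl⟩
    let ν : Representation ℤ G N :=
      { toFun := fun g => (ρ g).restrict fun x hx => hNst g hx
        map_one' := by ext; simp
        map_mul' := fun g h => by ext; simp }
    let incl : N ⧸ LinearMap.range j →ₗ[ℤ] L ⧸ LinearMap.range i :=
      Submodule.mapQ _ _ N.subtype (by rintro _ ⟨m, rfl⟩; exact ⟨m, rfl⟩)
    have hincl : Function.Injective incl := by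
      refine LinearMap.ker_eq_bot.1 ((Submodule.eq_bot_iff _).2 fun q hq => ?_)
      obtain ⟨x, rfl⟩ := Submodule.Quotient.mk_surjective _ q
      obtain ⟨m, hm⟩ := (Submodule.Quotient.mk_eq_zero _).1 hq
      exact (Submodule.Quotient.mk_eq_zero _).2 ⟨m, Subtype.ext hm⟩
    have : Finite (N ⧸ LinearMap.range j) := Finite.of_injective incl hincl
    have hlt : Nat.card (N ⧸ LinearMap.range j) < n := by
      rw [← hn]
      refine lt_of_le_of_ne (Nat.card_le_card_of_injective incl hincl) fun he => htop ?_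
      have hs := (hincl.bijective_of_nat_card_le he.ge).2
      refine eq_top_iff.2 fun x _ => ?_
      obtain ⟨q, hq⟩ := hs (Submodule.Quotient.mk x)
      obtain ⟨y, rfl⟩ := Submodule.Quotient.mk_surjective _ q
      obtain ⟨m, hm⟩ := (Submodule.Quotient.eq _).1 hq
      have : x = (y : L) - i m := by rw [hm]; simp
      rw [this]
      exact N.sub_mem y.2 (Submodule.mem_sup_left ⟨m, rfl⟩)
    rw [ih _ hlt (L := N) ν j (fun g m => Subtype.ext (hi g m))
      (fun a b h => hinj (congrArg Subtype.val h)) rfl]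
    exact map_red_of_dvd f ν ρ N.subtype (fun g m => rfl) Subtype.val_injective
      fun x => ⟨⟨_, Submodule.mem_sup_right ⟨x, rfl⟩⟩, by simp⟩

end Lattice

end Fermat.Agent.TW.Euler
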