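import Mathlib.LinearAlgebra.FreeModule.Finite.Quotient
import Mathlib.LinearAlgebra.Trace
import Mathlib.RepresentationTheory.Character
import Mathlib.RingTheory.Localization.FractionRing
import Fermat.Agent.TW.Euler.Additive

/-!
# Lattices with the same character are commensurable

Two lattices over a finite group with equal characters admit an equivariant injection with finite
cokernel, so additive functions agree on their reductions.
-/

noncomputable section

namespace Fermat.Agent.TW.Euler

open TensorProduct Module Representation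

variable {k : Type} [Field k] [CharZero k] {G : Type} [Group G] [Finite G]

omit [CharZero k] in
/-- The restriction of a representation to a stable submodule. -/
def subRep {V : Type} [AddCommGroup V] [Module k V] (ρ : Representation k G V) (S : Submodule k V)
    (hS : ∀ g, ∀ v ∈ S, ρ g v ∈ S) : Representation k G S where
  toFun g := (ρ g).restrict (hS g)
  map_one' := by ext; simp
  map_mul' g h := by ext; simp

/-- Maschke: an equivariant injection has an equivariant retraction. -/
theorem exists_retraction {S V : Type} [AddCommGroup S] [Module k S] [AddCommGroup V] [Module k V]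
    (σ : Representation k G S) (ρ : Representation k G V) (i : S →ₗ[k] V)
    (hi : ∀ g s, i (σ g s) = ρ g (i s)) (hinj : Function.Injective i) :
    ∃ r : V →ₗ[k] S, (∀ g v, r (ρ g v) = σ g (r v)) ∧ ∀ s, r (i s) = s := by
  have : Fintype G := Fintype.ofFinite G
  obtain ⟨r₀, hr₀⟩ := i.exists_leftInverse_of_injective (LinearMap.ker_eq_bot.2 hinj)
  refine ⟨(Fintype.card G : k)⁻¹ • ∑ g, σ g ∘ₗ r₀ ∘ₗ ρ g⁻¹, fun h v => ?_, fun s => ?_⟩
  · simp only [LinearMap.smul_apply, LinearMap.sum_apply, LinearMap.comp_apply, map_smul, map_sum]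
    congr 1
    refine Fintype.sum_bijective (fun g => h⁻¹ * g) (Group.mulLeft_bijective h⁻¹) _ _ fun g => ?_
    rw [← Module.End.mul_apply, ← Module.End.mul_apply, ← map_mul, ← map_mul,
      mul_inv_cancel_left, _root_.mul_inv_rev, inv_inv]
  · have h0 : ∀ g, σ g (r₀ (ρ g⁻¹ (i s))) = s := fun g => by
      have hr₀' : r₀ (i (σ g⁻¹ s)) = σ g⁻¹ s := LinearMap.congr_fun hr₀ _
      rw [← hi, hr₀', ← Module.End.mul_apply, ← map_mul, mul_inv_cancel, map_one,
        Module.End.one_apply]
    simp only [LinearMap.smul_apply, LinearMap.sum_apply, LinearMap.comp_apply, h0,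
      Finset.sum_const, Finset.card_univ]
    rw [← Nat.cast_smul_eq_nsmul k, smul_smul,
      inv_mul_cancel₀ (Nat.cast_ne_zero.2 Fintype.card_ne_zero), one_smul]

omit [CharZero k] [Finite G] in
/-- The character is additive along a split injection. -/
theorem character_split {S V : Type} [AddCommGroup S] [Module k S] [FiniteDimensional k S]
    [AddCommGroup V] [Module k V] [FiniteDimensional k V] (σ : Representation k G S)
    (ρ : Representation k G V) (i : S →ₗ[k] V) (hi : ∀ g s, i (σ g s) = ρ g (i s))
    (r : V →ₗ[k] S) (hr : ∀ g v, r (ρ g v) = σ g (r v)) (hri : ∀ s, r (i s) = s) (g : G) :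
    ρ.character g = σ.character g + (subRep ρ (LinearMap.ker r) (fun g v hv => by
      rw [LinearMap.mem_ker, hr, LinearMap.mem_ker.1 hv, map_zero])).character g := by
  let e : (S × LinearMap.ker r) ≃ₗ[k] V :=
    LinearEquiv.ofBijective (i.coprod (LinearMap.ker r).subtype) ⟨by
      refine LinearMap.ker_eq_bot.1 ((Submodule.eq_bot_iff _).2 fun ⟨s, v⟩ h => ?_)
      rw [LinearMap.mem_ker, LinearMap.coprod_apply, Submodule.subtype_apply] at h
      have hs : s = 0 := by
        have := congrArg r h
        rwa [map_add, hri, LinearMap.mem_ker.1 v.2, add_zero, map_zero] at this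
      subst hs
      rw [map_zero, zero_add] at h
      exact Prod.ext rfl (Subtype.ext h), fun v => ⟨(r v, ⟨v - i (r v), by simp [hri]⟩), by simp⟩⟩
  rw [character, character, character, ← LinearMap.trace_prodMap', ← LinearMap.trace_conj' _ e]
  congr 1
  refine LinearMap.ext fun v => ?_
  obtain ⟨⟨s, w⟩, rfl⟩ := e.surjective v
  rw [LinearEquiv.conj_apply_apply, LinearEquiv.symm_apply_apply]
  show ρ g (i s + (w : V)) = i (σ g s) + ρ g (w : V)
  rw [map_add, hi]

/-- Representations in characteristic zero with equal characters admit an equivariant injection. -/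
theorem exists_injective_of_character :
    ∀ (n : ℕ) (V : Type) [AddCommGroup V] [Module k V] [FiniteDimensional k V],
    finrank k V = n → ∀ (W : Type) [AddCommGroup W] [Module k W] [FiniteDimensional k W]
    (ρ : Representation k G V) (σ : Representation k G W), ρ.character = σ.character →
    ∃ j : V →ₗ[k] W, (∀ g v, j (ρ g v) = σ g (j v)) ∧ Function.Injective j := by
  intro n
  induction n using Nat.strong_induction_on with
  | _ n ih =>
    intro V _ _ _ hn W _ _ _ ρ σ hχ
    classical
    have : Fintype G := Fintype.ofFinite G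
    have : Invertible (Nat.card G : k) := invertibleOfNonzero (Nat.cast_ne_zero.2 Nat.card_pos.ne')
    by_cases hV : Subsingleton V
    · exact ⟨0, fun g v => by simp, fun a b _ => Subsingleton.elim a b⟩
    rw [not_subsingleton_iff_nontrivial] at hV
    -- a minimal stable submodule
    let Ss : Set (Submodule k V) := {S | S ≠ ⊥ ∧ ∀ g, ∀ v ∈ S, ρ g v ∈ S}
    obtain ⟨S, ⟨hS0, hS⟩, hmin⟩ := wellFounded_lt.has_min Ss ⟨⊤, top_ne_bot, fun g v _ => trivial⟩
    let τ := subRep ρ S hS
    obtain ⟨u, hu0⟩ : ∃ u : IntertwiningMap τ σ, u ≠ 0 := by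
      by_contra! hall
      have h1 := card_inv_mul_sum_char_mul_char_eq_finrank τ σ
      have h2 := card_inv_mul_sum_char_mul_char_eq_finrank τ ρ
      rw [← hχ, h2, Nat.cast_inj] at h1
      have hz : finrank k (IntertwiningMap τ σ) = 0 :=
        @finrank_zero_of_subsingleton _ _ _ _ _ _ ⟨fun a b => (hall a).trans (hall b).symm⟩
      rw [hz] at h1
      obtain ⟨v, hv, hv0⟩ := Submodule.exists_mem_ne_zero_of_ne_bot hS0
      have hf : (⟨S.subtype, fun g => LinearMap.ext fun x => rfl⟩ : IntertwiningMap τ ρ) ≠ 0 :=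
        fun e => hv0 (congrArg (fun f : IntertwiningMap τ ρ => f ⟨v, hv⟩) e)
      have : Nontrivial (IntertwiningMap τ ρ) := nontrivial_of_ne _ _ hf
      have := (invariantsEquivIntertwiningMap τ ρ).finiteDimensional
      exact Module.finrank_pos.ne h1.symm
    have huinj : Function.Injective u.toLinearMap := by
      refine LinearMap.ker_eq_bot.1 ?_
      by_contra hne
      have hk : (LinearMap.ker u.toLinearMap).map S.subtype ∈ Ss := by
        refine ⟨fun e => hne ?_, ?_⟩
        · exact Submodule.map_injective_of_injective S.injective_subtype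
            (e.trans (Submodule.map_bot _).symm)
        · rintro g _ ⟨x, hx, rfl⟩
          refine ⟨τ g x, ?_, rfl⟩
          have e : u.toLinearMap (τ g x) = σ g (u.toLinearMap x) :=
            LinearMap.congr_fun (u.isIntertwining' g) x
          show _ = _
          rw [e, LinearMap.mem_ker.1 hx, map_zero]
      have hlt : (LinearMap.ker u.toLinearMap).map S.subtype < S := by
        refine lt_of_le_of_ne (by rintro _ ⟨x, -, rfl⟩; exact x.2) fun e => hu0 ?_
        have htop : LinearMap.ker u.toLinearMap = ⊤ := by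
          refine eq_top_iff.2 fun x _ => ?_
          obtain ⟨y, hy, hxy⟩ := e.ge x.2
          rwa [← Subtype.ext hxy]
        ext x
        exact LinearMap.congr_fun (LinearMap.ker_eq_top.1 htop) x
      exact hmin _ hk hlt
    have hu : ∀ g x, u.toLinearMap (τ g x) = σ g (u.toLinearMap x) := fun g x =>
      LinearMap.congr_fun (u.isIntertwining' g) x
    obtain ⟨r, hr, hri⟩ := exists_retraction τ ρ S.subtype (fun g s => rfl) S.injective_subtype
    obtain ⟨r', hr', hri'⟩ := exists_retraction τ σ u.toLinearMap hu huinj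
    have hlt : finrank k (LinearMap.ker r) < n := by
      rw [← hn]
      refine Submodule.finrank_lt fun e => ?_
      obtain ⟨v, hv, hv0⟩ := Submodule.exists_mem_ne_zero_of_ne_bot hS0
      have hrv : r v = 0 := LinearMap.mem_ker.1 (e.symm ▸ Submodule.mem_top : v ∈ LinearMap.ker r)
      exact hv0 (congrArg Subtype.val ((hri ⟨v, hv⟩).symm.trans hrv))
    obtain ⟨j, hj, hjinj⟩ := ih _ hlt (LinearMap.ker r) rfl (LinearMap.ker r')
      (subRep ρ _ (fun g v hv => by rw [LinearMap.mem_ker, hr, LinearMap.mem_ker.1 hv, map_zero]))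
      (subRep σ _ (fun g v hv => by rw [LinearMap.mem_ker, hr', LinearMap.mem_ker.1 hv, map_zero]))
      (funext fun g => by
        have e1 := character_split τ ρ S.subtype (fun g s => rfl) r hr hri g
        have e2 := character_split τ σ u.toLinearMap hu r' hr' hri' g
        rw [← hχ, e1] at e2
        exact add_left_cancel e2)
    let c : V →ₗ[k] LinearMap.ker r :=
      (LinearMap.id - S.subtype ∘ₗ r).codRestrict _ fun v => by
        rw [LinearMap.mem_ker, LinearMap.sub_apply, map_sub, LinearMap.comp_apply, hri,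
          LinearMap.id_apply, sub_self]
    refine ⟨u.toLinearMap ∘ₗ r + (LinearMap.ker r').subtype ∘ₗ j ∘ₗ c, fun g v => ?_, ?_⟩
    · have hc : c (ρ g v) = subRep ρ (LinearMap.ker r)
          (fun g v hv => by rw [LinearMap.mem_ker, hr, LinearMap.mem_ker.1 hv, map_zero])
          g (c v) := by
        ext1
        simp [c, subRep, hr, τ]
      simp only [LinearMap.add_apply, LinearMap.comp_apply, hr, hu, hc, hj, map_add]
      rfl
    · refine LinearMap.ker_eq_bot.1 ((Submodule.eq_bot_iff _).2 fun v hv => ?_)
      simp only [LinearMap.mem_ker, LinearMap.add_apply, LinearMap.comp_apply,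
        Submodule.subtype_apply] at hv
      have hrv : r v = 0 := by
        have := congrArg r' hv
        rwa [map_add, hri', LinearMap.mem_ker.1 (j (c v)).2, add_zero, map_zero] at this
      rw [hrv, map_zero, zero_add] at hv
      have hcv : c v = 0 := hjinj ((Subtype.ext hv : j (c v) = 0).trans (map_zero j).symm)
      simpa [c, hrv] using congrArg Subtype.val hcv

/-- Lattices with equal characters admit an equivariant injection with finite cokernel. -/
theorem exists_commensurable {L M : Type} [AddCommGroup L] [Module.Free ℤ L] [Module.Finite ℤ L]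
    [AddCommGroup M] [Module.Free ℤ M] [Module.Finite ℤ M] (μ : Representation ℤ G M)
    (ρ : Representation ℤ G L)
    (hχ : ∀ g, LinearMap.trace ℤ M (μ g) = LinearMap.trace ℤ L (ρ g)) :
    ∃ i : M →ₗ[ℤ] L, (∀ g m, i (μ g m) = ρ g (i m)) ∧ Function.Injective i ∧
      Finite (L ⧸ LinearMap.range i) := by
  classical
  let μQ : Representation ℚ G (ℚ ⊗[ℤ] M) :=
    { toFun := fun g => (μ g).baseChange ℚ
      map_one' := by simp
      map_mul' := fun g h => by rw [map_mul, LinearMap.baseChange_mul] }
  let ρQ : Representation ℚ G (ℚ ⊗[ℤ] L) :=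
    { toFun := fun g => (ρ g).baseChange ℚ
      map_one' := by simp
      map_mul' := fun g h => by rw [map_mul, LinearMap.baseChange_mul] }
  obtain ⟨j, hj, hjinj⟩ := exists_injective_of_character _ _ rfl _ μQ ρQ (funext fun g => by
    show LinearMap.trace ℚ _ ((μ g).baseChange ℚ) = LinearMap.trace ℚ _ ((ρ g).baseChange ℚ)
    rw [LinearMap.trace_baseChange, LinearMap.trace_baseChange, hχ])
  have hone : ∀ {N : Type} [AddCommGroup N] [Module.Free ℤ N] (x : N),
      (1 : ℚ) ⊗ₜ[ℤ] x = 0 → x = 0 := fun {N} _ _ x h => by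
    let b := Module.Free.chooseBasis ℤ N
    refine b.repr.injective (Finsupp.ext fun i => ?_)
    have h' := congrArg (fun z => (Algebra.TensorProduct.basis ℚ b).repr z i) h
    simp at h'
    simpa using h'
  have hclear : ∀ y : ℚ ⊗[ℤ] L, ∃ d : ℤ, d ≠ 0 ∧ ∃ x : L, d • y = (1 : ℚ) ⊗ₜ[ℤ] x := by
    intro y
    induction y using TensorProduct.induction_on with
    | zero => exact ⟨1, one_ne_zero, 0, by simp⟩
    | tmul a x =>
      refine ⟨a.den, by exact_mod_cast a.den_nz, a.num • x, ?_⟩
      rw [smul_tmul', tmul_smul, smul_tmul', zsmul_eq_mul, zsmul_eq_mul, mul_one]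
      congr 1
      push_cast
      rw [mul_comm, Rat.mul_den_eq_num]
    | add u v hu hv =>
      obtain ⟨d, hd, x, hx⟩ := hu
      obtain ⟨e, he, z, hz⟩ := hv
      refine ⟨d * e, mul_ne_zero hd he, e • x + d • z, ?_⟩
      rw [tmul_add, tmul_smul, tmul_smul, ← hx, ← hz, smul_add, smul_smul, smul_smul, mul_comm e d]
  let b := Module.Free.chooseBasis ℤ M
  choose d hd x hx using fun i => hclear (j ((1 : ℚ) ⊗ₜ[ℤ] b i))
  let D : ℤ := ∏ i, d i
  have hD : D ≠ 0 := Finset.prod_ne_zero_iff.2 fun i _ => hd i
  choose c hc using fun i => Finset.dvd_prod_of_mem d (Finset.mem_univ i)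
  let i : M →ₗ[ℤ] L := b.constr ℤ fun i => c i • x i
  have hkey : ∀ m, (1 : ℚ) ⊗ₜ[ℤ] i m = D • j ((1 : ℚ) ⊗ₜ[ℤ] m) := by
    intro m
    induction (b.mem_span m) using Submodule.span_induction with
    | mem m hm =>
      obtain ⟨a, rfl⟩ := hm
      simp only [i, Basis.constr_basis, D, hc a, tmul_smul, ← hx, smul_smul, mul_comm]
    | zero => simp
    | add u v _ _ hu hv => simp only [map_add, tmul_add, smul_add, hu, hv]
    | smul a u _ hu => simp only [map_smul, tmul_smul, hu, smul_comm a D, map_zsmul]
  have hinj : Function.Injective i := LinearMap.ker_eq_bot.1 <| (Submodule.eq_bot_iff _).2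
    fun m hm => hone m <| hjinj <| by
      have := hkey m
      rw [LinearMap.mem_ker.1 hm, tmul_zero, eq_comm, ← Int.cast_smul_eq_zsmul ℚ, smul_eq_zero]
        at this
      rw [map_zero]
      exact this.resolve_left (Int.cast_ne_zero.2 hD)
  refine ⟨i, fun g m => sub_eq_zero.1 (hone _ ?_), hinj, ?_⟩
  · rw [tmul_sub, sub_eq_zero, hkey]
    show D • j (μQ g ((1 : ℚ) ⊗ₜ[ℤ] m)) = ρQ g ((1 : ℚ) ⊗ₜ[ℤ] i m)
    rw [hj, hkey, map_zsmul]
  · refine Submodule.finiteQuotientOfFreeOfRankEq _ ?_
    rw [← (LinearEquiv.ofInjective i hinj).finrank_eq]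
    have := hχ 1
    rw [μ.map_one, ρ.map_one, LinearMap.trace_one, LinearMap.trace_one] at this
    exact_mod_cast this

end Fermat.Agent.TW.Euler
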