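import Mathlib.GroupTheory.GroupAction.Basic
import Mathlib.GroupTheory.OrderOfElement
import Mathlib.LinearAlgebra.FreeModule.PID
import Mathlib.LinearAlgebra.Matrix.Charpoly.FiniteField
import Mathlib.LinearAlgebra.Trace
import Mathlib.NumberTheory.LSeries.PrimesInAP
import Mathlib.RepresentationTheory.Basic

/-!
# The character of a lattice is determined by the ranks of its fixed sublattices

For a prime `q` congruent to `k` modulo the order of `g` the traces of `g` and of `g ^ k` agree
modulo `q`, so they agree.  Used to compare the unit lattice with the lattices of places.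
-/

noncomputable section

namespace Fermat.Agent.TW.Euler

open Module

variable {G : Type*} [Group G] {L : Type*} [AddCommGroup L]

/-- The sublattice fixed by an element. -/
def fixL (ρ : Representation ℤ G L) (g : G) : Submodule ℤ L := LinearMap.ker (ρ g - 1)

theorem mem_fixL {ρ : Representation ℤ G L} {g : G} {v : L} : v ∈ fixL ρ g ↔ ρ g v = v := by
  simp [fixL, sub_eq_zero]

theorem apply_of_mem_zpowers {ρ : Representation ℤ G L} {g y : G} {v : L} (hv : v ∈ fixL ρ g)
    (hy : y ∈ Subgroup.zpowers g) : ρ y v = v := by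
  let S : Subgroup G :=
    { carrier := {y | ρ y v = v}
      one_mem' := by simp
      mul_mem' := fun {a b} ha hb => by
        show ρ (a * b) v = v
        rw [map_mul, Module.End.mul_apply, hb, ha]
      inv_mem' := fun {a} ha => by
        show ρ a⁻¹ v = v
        conv_lhs => rw [← show ρ a v = v from ha]
        rw [← Module.End.mul_apply, ← map_mul, inv_mul_cancel, map_one, Module.End.one_apply] }
  exact (Subgroup.zpowers_le (H := S)).2 (mem_fixL.1 hv) hy

variable [Module.Free ℤ L] [Module.Finite ℤ L]

theorem trace_pow_prime_dvd (A : L →ₗ[ℤ] L) {q : ℕ} (hq : q.Prime) :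
    (q : ℤ) ∣ LinearMap.trace ℤ L (A ^ q) - LinearMap.trace ℤ L A := by
  classical
  have : Fact q.Prime := ⟨hq⟩
  let b := Module.Free.chooseBasis ℤ L
  rw [← ZMod.intCast_zmod_eq_zero_iff_dvd, Int.cast_sub, sub_eq_zero,
    LinearMap.trace_eq_matrix_trace ℤ b, LinearMap.trace_eq_matrix_trace ℤ b,
    ← LinearMap.toMatrix_pow]
  have hmap : ∀ B : Matrix _ _ ℤ,
      ((Matrix.trace B : ℤ) : ZMod q) =
        Matrix.trace ((Int.castRingHom (ZMod q)).mapMatrix B :
          Matrix (Module.Free.ChooseBasisIndex ℤ L) (Module.Free.ChooseBasisIndex ℤ L) (ZMod q)) :=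
    fun B => AddMonoidHom.map_trace (Int.castAddHom (ZMod q)) B
  rw [hmap, hmap, map_pow, ZMod.trace_pow_card, ZMod.pow_card]

/-- The trace takes the same value on all generators of a finite cyclic group. -/
theorem trace_pow_coprime [Finite G] (ρ : Representation ℤ G L) (g : G) {k : ℕ}
    (hk : k.Coprime (orderOf g)) :
    LinearMap.trace ℤ L (ρ (g ^ k)) = LinearMap.trace ℤ L (ρ g) := by
  set d := LinearMap.trace ℤ L (ρ (g ^ k)) - LinearMap.trace ℤ L (ρ g) with hd
  obtain ⟨q, hqd, hq, hqk⟩ := Nat.forall_exists_prime_gt_and_modEq d.natAbs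
    (orderOf_pos g).ne' hk
  have h1 := trace_pow_prime_dvd (ρ g) hq
  rw [← map_pow, pow_eq_pow_iff_modEq.2 hqk, ← hd] at h1
  have h2 := Int.eq_zero_of_dvd_of_natAbs_lt_natAbs h1 (by simpa using hqd)
  exact sub_eq_zero.1 h2

open scoped Classical in
theorem sum_trace_zpowers [Fintype G] (ρ : Representation ℤ G L) (g : G) :
    ∑ y ∈ Finset.univ.filter (fun y : G => y ∈ Subgroup.zpowers g), LinearMap.trace ℤ L (ρ y) =
      Nat.card (Subgroup.zpowers g) * (finrank ℤ (fixL ρ g) : ℤ) := by
  set S := Finset.univ.filter (fun y : G => y ∈ Subgroup.zpowers g) with hS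
  have hmem : ∀ y, y ∈ S ↔ y ∈ Subgroup.zpowers g := fun y => by simp [S]
  have hcard : Nat.card (Subgroup.zpowers g) = S.card := by
    rw [Nat.card_eq_fintype_card, hS, ← Fintype.card_subtype]
  have hfix : ∀ v, (∑ y ∈ S, ρ y) v ∈ fixL ρ g := fun v => by
    rw [mem_fixL, LinearMap.sum_apply, map_sum]
    refine Finset.sum_nbij' (g * ·) (g⁻¹ * ·) ?_ ?_ ?_ ?_ ?_
    · exact fun y hy => (hmem _).2 (mul_mem (Subgroup.mem_zpowers g) ((hmem y).1 hy))
    · exact fun y hy => (hmem _).2 (mul_mem (inv_mem (Subgroup.mem_zpowers g)) ((hmem y).1 hy))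
    · exact fun y _ => inv_mul_cancel_left g y
    · exact fun y _ => mul_inv_cancel_left g y
    · intro y _
      rw [map_mul, Module.End.mul_apply]

  let P : L →ₗ[ℤ] fixL ρ g := (∑ y ∈ S, ρ y).codRestrict _ hfix
  have hres : P ∘ₗ (fixL ρ g).subtype = (S.card : ℤ) • (1 : fixL ρ g →ₗ[ℤ] fixL ρ g) := by
    refine LinearMap.ext fun v => Subtype.ext ?_
    show (∑ y ∈ S, ρ y) (v : L) = _
    rw [LinearMap.sum_apply,
      Finset.sum_congr rfl fun y hy => apply_of_mem_zpowers v.2 ((hmem y).1 hy)]
    simp
  rw [← map_sum, show (∑ y ∈ S, ρ y) = (fixL ρ g).subtype ∘ₗ P from LinearMap.ext fun _ => rfl,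
    LinearMap.trace_comp_comm', hres, map_smul, LinearMap.trace_one, smul_eq_mul, hcard]

/-- Lattices with fixed sublattices of equal ranks have the same character. -/
theorem trace_eq_of_finrank_fix [Finite G] {M : Type*} [AddCommGroup M] [Module.Free ℤ M]
    [Module.Finite ℤ M] (μ : Representation ℤ G M) (ρ : Representation ℤ G L)
    (h : ∀ g, finrank ℤ (fixL μ g) = finrank ℤ (fixL ρ g)) (g : G) :
    LinearMap.trace ℤ M (μ g) = LinearMap.trace ℤ L (ρ g) := by
  classical
  have : Fintype G := Fintype.ofFinite G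
  obtain ⟨n, hn⟩ : ∃ n, orderOf g = n := ⟨_, rfl⟩
  induction n using Nat.strong_induction_on generalizing g with
  | _ n ih =>
    set S := Finset.univ.filter (fun y : G => y ∈ Subgroup.zpowers g) with hS
    set D := fun y => LinearMap.trace ℤ M (μ y) - LinearMap.trace ℤ L (ρ y) with hD
    have hsum : ∑ y ∈ S, D y = 0 := by
      rw [hD, Finset.sum_sub_distrib, hS, sum_trace_zpowers μ g, sum_trace_zpowers ρ g, h,
        sub_self]
    have hcases : ∀ y ∈ S, D y = if orderOf y = n then D g else 0 := fun y hy => by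
      have hy' : y ∈ Subgroup.zpowers g := (Finset.mem_filter.1 hy).2
      have hdvd : orderOf y ∣ n := hn ▸ orderOf_dvd_of_mem_zpowers hy'
      split_ifs with he
      · obtain ⟨k, rfl⟩ := (isOfFinOrder_of_finite g).mem_powers_iff_mem_zpowers.2 hy'
        have hk : k.Coprime (orderOf g) := by
          rw [orderOf_pow g, ← hn] at he
          have hpos := orderOf_pos g
          have : Nat.gcd (orderOf g) k = 1 := by
            rcases Nat.div_eq_self.1 he with h0 | h0
            · omega
            · exact h0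
          rwa [Nat.Coprime, Nat.gcd_comm]
        simp only [hD, trace_pow_coprime μ g hk, trace_pow_coprime ρ g hk]
      · have hlt : orderOf y < n :=
          lt_of_le_of_ne (Nat.le_of_dvd (hn ▸ orderOf_pos g) hdvd) he
        exact sub_eq_zero.2 (ih _ hlt y rfl)
    rw [Finset.sum_congr rfl hcases, ← Finset.sum_filter, Finset.sum_const, nsmul_eq_mul,
      mul_eq_zero] at hsum
    refine sub_eq_zero.1 (hsum.resolve_left ?_)
    rw [Nat.cast_eq_zero, Finset.card_eq_zero]
    exact Finset.ne_empty_of_mem (a := g)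
      (Finset.mem_filter.2 ⟨Finset.mem_filter.2 ⟨Finset.mem_univ g, Subgroup.mem_zpowers g⟩, hn⟩)

/-! ### Permutation lattices -/

/-- The permutation representation on the functions on a set with an action. -/
def permRep (k : Type*) [CommRing k] (G : Type*) [Group G] (X : Type*) [MulAction G X] :
    Representation k G (X → k) where
  toFun g := LinearMap.funLeft k k fun x => g⁻¹ • x
  map_one' := LinearMap.ext fun F => funext fun x => by simp
  map_mul' g h := LinearMap.ext fun F => funext fun x => by simp [mul_smul]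

theorem permRep_apply {k : Type*} [CommRing k] {X : Type*} [MulAction G X] (g : G) (F : X → k)
    (x : X) : permRep k G X g F x = F (g⁻¹ • x) := rfl

theorem trace_permRep {k : Type*} [CommRing k] {X : Type*} [Finite X] [MulAction G X] (g : G) :
    LinearMap.trace k (X → k) (permRep k G X g) = Nat.card {x : X // g • x = x} := by
  classical
  have : Fintype X := Fintype.ofFinite X
  rw [LinearMap.trace_eq_matrix_trace k (Pi.basisFun k X), Matrix.trace,
    Nat.card_eq_fintype_card, Fintype.card_subtype, Finset.natCast_card_filter]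
  refine Finset.sum_congr rfl fun x _ => ?_
  simp only [Matrix.diag_apply, LinearMap.toMatrix_apply, Pi.basisFun_repr, Pi.basisFun_apply,
    permRep_apply, Pi.single_apply]
  exact if_congr (inv_smul_eq_iff.trans eq_comm) rfl rfl

end Fermat.Agent.TW.Euler
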