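import Mathlib.GroupTheory.FiniteAbelian.Basic
import Mathlib.LinearAlgebra.TensorProduct.Pi
import Fermat.Agent.TW.Euler.HomTwo
import Fermat.Agent.TW.Euler.Iso
import Fermat.Agent.TW.Euler.Trace

/-!
# Homomorphisms of a normal level against the `T`-units and the places

Comparing characters of lattices, the homomorphisms of a normal level have the class of the roots
of unity, the places over `T` and the infinite places. Used for the Euler characteristic
formula.
-/

noncomputable section

-- needed to find the scalar structures on the lattices of units and places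
set_option maxSynthPendingDepth 3

namespace Fermat.Agent.TW.Euler

open Fermat.Agent.PT Fermat.Agent.PT.Lv Module TensorProduct

local notation "Qb" => AlgebraicClosure ℚ

/-! ### Fixed parts of permutation lattices -/

/-- The fixed rank on a product of lattices is the sum of the fixed ranks. -/
theorem finrank_fixL_prod {G A B : Type} [Group G] [AddCommGroup A] [Module.Free ℤ A]
    [Module.Finite ℤ A] [AddCommGroup B] [Module.Free ℤ B] [Module.Finite ℤ B]
    (α : Representation ℤ G A) (β : Representation ℤ G B) (d : G) :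
    finrank ℤ (fixL (α.prod β) d) = finrank ℤ (fixL α d) + finrank ℤ (fixL β d) := by
  rw [← finrank_prod]
  exact LinearEquiv.finrank_eq
    { toFun := fun v => (⟨v.1.1, mem_fixL.2 (congrArg Prod.fst (mem_fixL.1 v.2))⟩,
        ⟨v.1.2, mem_fixL.2 (congrArg Prod.snd (mem_fixL.1 v.2))⟩)
      invFun := fun v => ⟨(v.1.1, v.2.1),
        mem_fixL.2 (Prod.ext (mem_fixL.1 v.1.2) (mem_fixL.1 v.2.2))⟩
      map_add' := fun _ _ => rfl
      map_smul' := fun _ _ => rfl
      left_inv := fun _ => rfl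
      right_inv := fun _ => rfl }

/-- The fixed rank of an element on a permutation lattice is its number of orbits. -/
theorem finrank_fix_perm {G : Type*} [Group G] {X Y : Type*} [Finite Y]
    (ρ : Representation ℤ G (X → ℤ)) (μ : G → X → X) (hρ : ∀ g F x, ρ g F x = F (μ g x)) (h : G)
    (r : X → Y) (hs : Function.Surjective r) (hh : ∀ x, r (μ h x) = r x)
    (hfib : ∀ x x', r x = r x' → ∃ y ∈ Subgroup.zpowers h, μ y x = x') :
    finrank ℤ (fixL ρ h) = Nat.card Y := by
  classical
  have : Fintype Y := Fintype.ofFinite Y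
  let e : (Y → ℤ) →ₗ[ℤ] ↥(fixL ρ h) :=
    (LinearMap.funLeft ℤ ℤ r).codRestrict _ fun F => mem_fixL.2 (funext fun x => by
      rw [hρ]
      exact congrArg F (hh x))
  have hb : Function.Bijective e := by
    refine ⟨fun F F' he => funext fun y => ?_,
      fun F => ⟨fun y => (F : X → ℤ) (Function.surjInv hs y), Subtype.ext (funext fun x => ?_)⟩⟩
    · obtain ⟨x, rfl⟩ := hs y
      exact congrFun (congrArg Subtype.val he) x
    · obtain ⟨y, hy, e'⟩ := hfib x (Function.surjInv hs (r x)) (Function.surjInv_eq hs (r x)).symm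
      show (F : X → ℤ) (Function.surjInv hs (r x)) = _
      conv_rhs => rw [← apply_of_mem_zpowers F.2 hy, hρ, e']
  rw [← (LinearEquiv.ofBijective e hb).finrank_eq, Module.finrank_pi, Nat.card_eq_fintype_card]

/-! ### Reductions -/

section Red

variable {p : ℕ} [Fact p.Prime] {D : Type} [Group D] (f : AddFun p D)

/-- An additive function is additive on reductions of products of lattices. -/
theorem map_red_prod {A B : Type} [AddCommGroup A] [Module.Finite ℤ A]
    [AddCommGroup B] [Module.Finite ℤ B] (α : Representation ℤ D A)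
    (β : Representation ℤ D B) :
    f.toFun (redRep p (α.prod β)) = f.toFun (redRep p α) + f.toFun (redRep p β) := by
  refine f.map_exact _ _ _ ((LinearMap.inl ℤ A B).baseChange (ZMod p))
    ((LinearMap.snd ℤ A B).baseChange (ZMod p)) (fun g a => ?_) (fun g a => ?_) ?_ ?_ ?_
  · obtain ⟨x, rfl⟩ := exists_one_tmul a
    simp [redRep_tmul]
  · obtain ⟨x, rfl⟩ := exists_one_tmul a
    simp [redRep_tmul]
  · refine Function.LeftInverse.injective (g := (LinearMap.fst ℤ A B).baseChange (ZMod p))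
        fun a => ?_
    obtain ⟨x, rfl⟩ := exists_one_tmul a
    simp
  · ext y
    obtain ⟨⟨a, b⟩, rfl⟩ := exists_one_tmul y
    constructor
    · rintro ⟨x, hx⟩
      obtain ⟨x, rfl⟩ := exists_one_tmul x
      rw [LinearMap.mem_ker, ← hx]
      simp
    · intro h
      refine ⟨(1 : ZMod p) ⊗ₜ[ℤ] a, ?_⟩
      have hb : (1 : ZMod p) ⊗ₜ[ℤ] b = 0 := by simpa using h
      have e : (1 : ZMod p) ⊗ₜ[ℤ] ((0 : A), b) = 0 := by
        have := congrArg ((LinearMap.inr ℤ A B).baseChange (ZMod p)) hb
        simpa using this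
      rw [LinearMap.baseChange_tmul, show (a, b) = LinearMap.inl ℤ A B a + ((0 : A), b) by simp,
        tmul_add, e, add_zero]
  · intro b
    obtain ⟨x, rfl⟩ := exists_one_tmul b
    exact ⟨(1 : ZMod p) ⊗ₜ[ℤ] ((0 : A), x), by simp⟩

theorem map_red_perm {X : Type} [Fintype X] (μ : D → X → X) (ρ : Representation ℤ D (X → ℤ))
    (hρ : ∀ d F x, ρ d F x = F (μ d x)) (ρ' : Representation (ZMod p) D (X → ZMod p))
    (hρ' : ∀ d F x, ρ' d F x = F (μ d x)) : f.toFun (redRep p ρ) = f.toFun ρ' := by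
  classical
  refine (f.map_equiv (TensorProduct.piScalarRight ℤ (ZMod p) (ZMod p) X) fun d a => ?_).symm
  obtain ⟨F, rfl⟩ := exists_one_tmul a
  funext x
  rw [hρ', redRep_tmul]
  simp [hρ]

theorem map_red_trivial :
    f.toFun (redRep p (Representation.trivial ℤ D ℤ)) =
      f.toFun (Representation.trivial (ZMod p) D (ZMod p)) := by
  refine (f.map_equiv (TensorProduct.AlgebraTensorModule.rid ℤ (ZMod p) (ZMod p))
    fun d a => ?_).symm
  obtain ⟨n, rfl⟩ := exists_one_tmul a
  simp [redRep_tmul]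

end Red

variable {p : ℕ} [Fact p.Prime] {T : Finset Nat.Primes} {K H : Subgroup Gam} [hKn : K.Normal]

theorem homRep_eq_one (hμ : (cyc p).MuFix K) : ∀ g ∈ K, homRep (p := p) T K g = 1 := fun g hg =>
  LinearMap.ext fun f => Subtype.ext (funext fun a => by
    rw [homRep_apply, hμ g hg, Units.val_one, one_mul, Module.End.one_apply]
    have hm := (mem_Z1.1 f.2).2
    simp only [Representation.trivial_apply] at hm
    have e : cjHom (conj_iff (K := K) g) a = (⟨g, hg⟩ : ↥K)⁻¹ * a * ⟨g, hg⟩ :=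
      Subtype.ext (by rw [coe_cjHom]; rfl)
    have h1 : (f : ↥K → ZMod p) 1 = 0 := by simpa using hm 1 1
    have h2 := hm (⟨g, hg⟩ : ↥K)⁻¹ ⟨g, hg⟩
    rw [inv_mul_cancel, h1] at h2
    rw [e, hm, hm]
    linear_combination -h2)

/-! ### The lattice of the units -/

section Units

variable (T K)

/-- The units modulo torsion. -/
abbrev UnitLat : Type :=
  Additive ↥(eT K (placesOver K T)) ⧸ Submodule.torsion ℤ (Additive ↥(eT K (placesOver K T)))

/-- The action on the units modulo torsion. -/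
def latRep : Representation ℤ Gam (UnitLat T K) where
  toFun g := Submodule.mapQ _ _ (unitRep T K g) fun x ⟨n, hn⟩ => ⟨n, by
    rw [Submonoid.smul_def] at hn ⊢
    rw [← map_smul, hn, map_zero]⟩
  map_one' := by
    refine Submodule.linearMap_qext _ (LinearMap.ext fun x => ?_)
    simp
  map_mul' g h := by
    refine Submodule.linearMap_qext _ (LinearMap.ext fun x => ?_)
    simp

variable {T K}

theorem latRep_mk (g : Gam) (x : Additive ↥(eT K (placesOver K T))) :
    latRep T K g (Submodule.Quotient.mk x) = Submodule.Quotient.mk (unitRep T K g x) := rfl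

theorem unitRep_eq_one : ∀ g ∈ K, unitRep T K g = 1 := fun g hg =>
  LinearMap.ext fun x => Additive.toMul.injective (Subtype.ext ((Additive.toMul x).2.1 ⟨g, hg⟩))

theorem latRep_eq_one : ∀ g ∈ K, latRep T K g = 1 := fun g hg => by
  refine Submodule.linearMap_qext _ (LinearMap.ext fun x => ?_)
  show latRep T K g (Submodule.Quotient.mk x) = _
  rw [latRep_mk, unitRep_eq_one g hg]
  rfl

variable (hK : K ∈ LG)
include hK

omit hKn in
theorem finite_torsion_eT :
    Finite ↥(Submodule.torsion ℤ (Additive ↥(eT K (placesOver K T)))) :=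
  haveI := (finrank_eT hK T).1
  Module.finite_of_fg_torsion _ (Submodule.torsion_isTorsion (R := ℤ))

omit hKn in
/-- The torsion units are generated by one element. -/
theorem exists_torsion_generator :
    ∃ t ∈ Submodule.torsion ℤ (Additive ↥(eT K (placesOver K T))),
      ∀ u ∈ Submodule.torsion ℤ (Additive ↥(eT K (placesOver K T))), ∃ n : ℕ, n • t = u := by
  have := finite_torsion_eT (T := T) hK
  set W := Submodule.torsion ℤ (Additive ↥(eT K (placesOver K T)))
  let φ : Multiplicative ↥W →* Qb :=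
    { toFun := fun u => (((Additive.toMul (Multiplicative.toAdd u).1 : eT K _) : Qbˣ) : Qb)
      map_one' := rfl
      map_mul' := fun _ _ => rfl }
  have : Finite (Multiplicative ↥W) := Finite.of_equiv _ Multiplicative.ofAdd
  have : IsCyclic (Multiplicative ↥W) := isCyclic_of_injective_ringHom φ fun a b h =>
    Multiplicative.toAdd.injective (Subtype.ext (Additive.toMul.injective
      (Subtype.ext (Units.ext h))))
  obtain ⟨t, ht⟩ := IsCyclic.exists_monoid_generator (α := Multiplicative ↥W)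
  refine ⟨(Multiplicative.toAdd t).1, (Multiplicative.toAdd t).2, fun u hu => ?_⟩
  obtain ⟨n, hn⟩ := Submonoid.mem_powers_iff _ _ |>.1 (ht (Multiplicative.ofAdd ⟨u, hu⟩))
  exact ⟨n, congrArg (fun z => (Multiplicative.toAdd z).1) hn⟩

/-- The rank fixed by an element. -/
theorem finrank_fix_latRep (h : Gam) {V : Subgroup Gam} (hV : V = K ⊔ Subgroup.zpowers h) :
    finrank ℤ (fixL (latRep T K) h) + 1 = Nat.card (InfPl V) + Nat.card (PlS T V) := by
  have hVK : K ≤ V := hV ▸ le_sup_left
  have hVG : V ∈ LG := LG.mem_of_le hK hVK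
  obtain ⟨hfV, hrV⟩ := finrank_eT hVG T
  rw [ncard_placesOver] at hrV
  rw [← hrV, add_left_inj]
  have := (finrank_eT hK T).1
  have := finite_torsion_eT (T := T) hK
  set E := Additive ↥(eT K (placesOver K T))
  set W := Submodule.torsion ℤ E
  have hfix : ∀ x : E, x ∈ fixL (unitRep T K) h →
      ((Additive.toMul x : eT K (placesOver K T)) : Qbˣ) ∈ eT V (placesOver V T) := fun x hx => by
    have hx' := congrArg (fun z : E => ((Additive.toMul z : eT K (placesOver K T)) : Qbˣ))
      (mem_fixL.1 hx)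
    refine ⟨fun g => ?_, fun v hv => nq_eq_one_of_mem_eT T K (Additive.toMul x).2 hv _⟩
    have hle : V ≤ MulAction.stabilizer Gam ((Additive.toMul x : eT K (placesOver K T)) : Qbˣ) := by
      rw [hV]
      exact sup_le (fun k hk => (Additive.toMul x).2.1 ⟨k, hk⟩)
        ((Subgroup.zpowers_le).2 hx')
    exact hle g.2
  have hback : ∀ y : ↥(eT V (placesOver V T)), (y : Qbˣ) ∈ eT K (placesOver K T) := fun y =>
    ⟨fun k => y.2.1 ⟨k, hVK k.2⟩, fun v hv => nq_eq_one_of_mem_eT T V y.2 hv _⟩
  let e : ↥(fixL (unitRep T K) h) ≃+ Additive ↥(eT V (placesOver V T)) :=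
    { toFun := fun x => Additive.ofMul ⟨_, hfix x.1 x.2⟩
      invFun := fun y => ⟨Additive.ofMul ⟨_, hback (Additive.toMul y)⟩,
        mem_fixL.2 (Additive.toMul.injective (Subtype.ext ((Additive.toMul y).2.1
          ⟨h, hV ▸ Subgroup.mem_sup_right (Subgroup.mem_zpowers h)⟩)))⟩
      left_inv := fun x => rfl
      right_inv := fun y => rfl
      map_add' := fun x y => rfl }
  rw [← e.toIntLinearEquiv.finrank_eq]
  let q : ↥(fixL (unitRep T K) h) →ₗ[ℤ] ↥(fixL (latRep T K) h) :=
    (W.mkQ ∘ₗ Submodule.subtype _).codRestrict _ fun x => mem_fixL.2 (by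
      show latRep T K h (Submodule.Quotient.mk (x : E)) = Submodule.Quotient.mk (x : E)
      rw [latRep_mk, mem_fixL.1 x.2])
  have hker : finrank ℤ (LinearMap.ker q) = 0 := by
    let i : ↥(LinearMap.ker q) → ↥W := fun x => ⟨(x.1 : E),
      (Submodule.Quotient.mk_eq_zero W).1 (congrArg Subtype.val (LinearMap.mem_ker.1 x.2))⟩
    have : Finite ↥(LinearMap.ker q) := Finite.of_injective i fun a b hab =>
      Subtype.ext (Subtype.ext (congrArg (fun z : ↥W => (z : E)) hab))
    exact Module.finrank_eq_zero_iff_isTorsion.2 fun x =>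
      ⟨⟨Nat.card ↥(LinearMap.ker q), mem_nonZeroDivisors_of_ne_zero (Nat.cast_ne_zero.2
        Nat.card_pos.ne')⟩, by
        show ((Nat.card ↥(LinearMap.ker q) : ℕ) : ℤ) • x = 0
        rw [natCast_zsmul]; exact card_nsmul_eq_zero'⟩
  have h1 := finrank_of_surjective_int q.rangeRestrict q.surjective_rangeRestrict
  rw [LinearMap.ker_rangeRestrict, hker, add_zero] at h1
  have hN : (Nat.card ↥W : ℤ) ≠ 0 := Nat.cast_ne_zero.2 Nat.card_pos.ne'
  have hmem : ∀ y : ↥(fixL (latRep T K) h), (Nat.card ↥W : ℤ) • y ∈ LinearMap.range q := fun y => by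
    obtain ⟨x, hx⟩ := Submodule.Quotient.mk_surjective _ (y : UnitLat T K)
    have hy := mem_fixL.1 y.2
    rw [← hx, latRep_mk, Submodule.Quotient.eq] at hy
    have h0 : (Nat.card ↥W : ℤ) • (unitRep T K h x - x) = 0 := by
      rw [natCast_zsmul]
      exact congrArg Subtype.val (card_nsmul_eq_zero' (x := (⟨_, hy⟩ : ↥W)))
    rw [smul_sub, ← map_smul, sub_eq_zero] at h0
    refine ⟨⟨_, mem_fixL.2 h0⟩, Subtype.ext ?_⟩
    show Submodule.Quotient.mk ((Nat.card ↥W : ℤ) • x) = (Nat.card ↥W : ℤ) • (y : UnitLat T K)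
    rw [Submodule.Quotient.mk_smul, hx]
  rw [h1]
  refine le_antisymm ?_ (Submodule.finrank_le _)
  refine LinearMap.finrank_le_finrank_of_injective
    (f := ((Nat.card ↥W : ℤ) • LinearMap.id).codRestrict _ hmem) fun a b hab => ?_
  exact smul_right_injective _ hN (congrArg Subtype.val hab)

end Units

/-! ### The places fixed by an element -/

omit [Fact p.Prime] in
/-- The fixed rank on the lattice of places over `T` is the number of places of the fixed field. -/
theorem finrank_fix_plRep (hK : K ∈ LG) (h : Gam) {V : Subgroup Gam}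
    (hV : V = K ⊔ Subgroup.zpowers h) :
    finrank ℤ (fixL (plRep ℤ T K) h) = Nat.card (PlS T V) := by
  have hVK : K ≤ V := hV ▸ le_sup_left
  have := finite_PlS (S := T) (LG.mem_of_le hK hVK)
  let r : PlS T K → PlS T V := fun v => ⟨v.1, Quotient.map id (fun x y hxy => by
    obtain ⟨τ, k, hk, e⟩ := hxy
    exact ⟨τ, k, hVK hk, e⟩) v.2⟩
  refine finrank_fix_perm (plRep ℤ T K) vmul (fun g F v => rfl) h r (fun v => ?_) (fun v => ?_)
    fun v v' e => ?_
  · obtain ⟨s, w⟩ := v
    induction w using Quotient.inductionOn with | _ x => ?_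
    exact ⟨⟨s, Pl.mk x⟩, rfl⟩
  · obtain ⟨s, w⟩ := v
    induction w using Quotient.inductionOn with | _ x => ?_
    show (⟨s, Pl.mk (x * h)⟩ : PlS T V) = ⟨s, Pl.mk x⟩
    exact congrArg (fun w => (⟨s, w⟩ : PlS T V)) (Pl.mk_eq.2 ⟨1, h,
      hV ▸ Subgroup.mem_sup_right (Subgroup.mem_zpowers h), by simp⟩).symm
  · obtain ⟨s, w⟩ := v
    obtain ⟨s', w'⟩ := v'
    obtain rfl : s = s' := congrArg Sigma.fst e
    induction w using Quotient.inductionOn with | _ x => ?_
    induction w' using Quotient.inductionOn with | _ x' => ?_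
    obtain ⟨τ, c, hc, hx⟩ := Pl.mk_eq.1 (eq_of_heq (Sigma.mk.inj_iff.1 e).2)
    obtain ⟨k, hk, y, hy, rfl⟩ := Subgroup.mem_sup_of_normal_left.1 (hV ▸ hc)
    refine ⟨y, hy, ?_⟩
    show (⟨s, Pl.mk (x * y)⟩ : PlS T K) = ⟨s, Pl.mk x'⟩
    exact congrArg (fun w => (⟨s, w⟩ : PlS T K)) (Pl.mk_eq.2 ⟨τ, y⁻¹ * k * y,
      by simpa using hKn.conj_mem k hk y⁻¹, by
        rw [show x' = localGaloisToGlobal _ τ * x * (k * y) from hx]; group⟩)

omit [Fact p.Prime] in
/-- The fixed rank on the lattice of infinite places is the number of infinite places of the fixed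
field. -/
theorem finrank_fix_infRep (hK : K ∈ LG) (h : Gam) {V : Subgroup Gam}
    (hV : V = K ⊔ Subgroup.zpowers h) :
    finrank ℤ (fixL (infRep ℤ K) h) = Nat.card (InfPl V) := by
  have hVK : K ≤ V := hV ▸ le_sup_left
  have := finite_infPl (LG.mem_of_le hK hVK)
  let r : InfPl K → InfPl V := Quotient.map id fun x y hxy => by
    obtain ⟨k, hk, e⟩ := hxy
    exact ⟨k, hVK hk, e⟩
  refine finrank_fix_perm (infRep ℤ K) (infMul K) (fun g F w => rfl) h r (fun v => ?_) (fun v => ?_)
    fun v v' e => ?_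
  · obtain ⟨x, rfl⟩ := InfPl.mk_surjective V v
    exact ⟨InfPl.mk K x, rfl⟩
  · obtain ⟨x, rfl⟩ := InfPl.mk_surjective K v
    exact ((InfPl.mk_eq V).2 ⟨h, hV ▸ Subgroup.mem_sup_right (Subgroup.mem_zpowers h),
      Or.inl rfl⟩).symm
  · obtain ⟨x, rfl⟩ := InfPl.mk_surjective K v
    obtain ⟨x', rfl⟩ := InfPl.mk_surjective K v'
    obtain ⟨c, hc, hx⟩ := (InfPl.mk_eq V).1 e
    obtain ⟨k, hk, y, hy, rfl⟩ := Subgroup.mem_sup_of_normal_left.1 (hV ▸ hc)
    refine ⟨y, hy, (InfPl.mk_eq K).2 ⟨y⁻¹ * k * y, by simpa using hKn.conj_mem k hk y⁻¹, ?_⟩⟩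
    rcases hx with hx | hx
    · exact Or.inl (by rw [show x' = x * (k * y) from hx]; group)
    · exact Or.inr (by rw [show x' = complexConjugation * x * (k * y) from hx]; group)

/-! ### The comparison -/

/-- Homomorphisms of a normal level in terms of the roots of unity and the units modulo torsion. -/
theorem map_homRep_eq_add_red (f : AddFun p (↥H ⧸ K.subgroupOf H))
    (hodd : p ≠ 2) (hpT : pP p ∈ T) (hK : K ∈ LS T) (hμ : (cyc p).MuFix K)
    (GI : GlobalInputs p) (hfull : SFull K (placesOver K T)) :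
    f.toFun (dRep H K (homRep (p := p) T K) (homRep_eq_one hμ)) =
      f.toFun (dRep H K (muG p) (muG_eq_one hμ)) +
        f.toFun (redRep p (dRep H K (latRep T K) latRep_eq_one)) := by
  classical
  have hKG := LS_le_LG hK
  have hp : p.Prime := Fact.out
  have := (finrank_eT hKG T).1
  have := finite_homs hodd hpT hK hμ hfull GI
  have := finite_torsion_eT (T := T) hKG
  set E := Additive ↥(eT K (placesOver K T))
  set W := Submodule.torsion ℤ E
  set A := ↥(Z1 (LSH T K) (triv (ZMod p) ↥K))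
  set lamD := dRep H K (latRep T K) latRep_eq_one
  obtain ⟨Φ, hs, hker, heq⟩ := exists_kumE hodd hpT hK hμ hfull
  let g₀ : E →+ ZMod p ⊗[ℤ] UnitLat T K :=
    AddMonoidHom.mk' (fun x => (1 : ZMod p) ⊗ₜ[ℤ] (Submodule.Quotient.mk x : UnitLat T K))
      fun x y => by rw [Submodule.Quotient.mk_add, tmul_add]
  have hle : Φ.ker ≤ g₀.ker := fun x hx => by
    obtain ⟨y, rfl⟩ := (hker x).1 hx
    show (1 : ZMod p) ⊗ₜ[ℤ] (Submodule.Quotient.mk (p • y) : UnitLat T K) = 0
    rw [← natCast_zsmul, Submodule.Quotient.mk_smul, one_tmul_smul_self]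
  let q₀ := Φ.liftOfSurjective hs ⟨g₀, hle⟩
  have hq₀ : ∀ x, q₀ (Φ x) = (1 : ZMod p) ⊗ₜ[ℤ] (Submodule.Quotient.mk x : UnitLat T K) :=
    fun x => Φ.liftOfRightInverse_comp_apply _ (Function.rightInverse_surjInv hs) ⟨g₀, hle⟩ x
  let q : A →ₗ[ZMod p] ZMod p ⊗[ℤ] UnitLat T K := q₀.toZModLinearMap p
  have hq : ∀ x, q (Φ x) = (1 : ZMod p) ⊗ₜ[ℤ] (Submodule.Quotient.mk x : UnitLat T K) := hq₀
  obtain ⟨t, htW, htgen⟩ := exists_torsion_generator (T := T) hKG
  have hζ : (cyc p).ζ ∈ eT K (placesOver K T) := ⟨fun k => by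
    show (k : Gam) • (cyc p).ζ = _
    rw [(cyc p).act, hμ _ k.2, Units.val_one, ZMod.val_one, pow_one], fun v _ => by
      refine (pow_eq_one_iff_of_nonneg (nq_nonneg _ _) hp.ne_zero).1 ?_
      rw [← nq_pow, ← Units.val_pow_eq_pow_val, (cyc p).prim.pow_eq_one, Units.val_one, nq_one]⟩
  let z : E := Additive.ofMul ⟨_, hζ⟩
  have hzp : p • z = 0 := Additive.toMul.injective (Subtype.ext (cyc p).prim.pow_eq_one)
  have hz0 : z ≠ 0 := fun e => (cyc p).prim.ne_one hp.one_lt
    (congrArg (fun u : E => ((Additive.toMul u : eT K (placesOver K T)) : Qbˣ)) e)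
  have hzW : z ∈ W := ⟨⟨(p : ℤ), mem_nonZeroDivisors_of_ne_zero (by exact_mod_cast hp.ne_zero)⟩,
    show (p : ℤ) • z = 0 by rw [natCast_zsmul, hzp]⟩
  obtain ⟨j, hj⟩ := htgen z hzW
  have hpN : p ∣ addOrderOf t := by
    have h2 : addOrderOf z = p := addOrderOf_eq_prime hzp hz0
    have h3 : addOrderOf t • z = 0 := by
      rw [← hj, smul_comm, addOrderOf_nsmul_eq_zero, smul_zero]
    rw [← h2]
    exact addOrderOf_dvd_of_nsmul_eq_zero h3
  have ht0 : Φ t ≠ 0 := fun e => by
    obtain ⟨y, hy⟩ := (hker t).1 e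
    have hyW : y ∈ W := by
      obtain ⟨n, hn⟩ := htW
      refine ⟨n * ⟨(p : ℤ), mem_nonZeroDivisors_of_ne_zero (by exact_mod_cast hp.ne_zero)⟩, ?_⟩
      rw [mul_smul, show ((⟨(p : ℤ), _⟩ : nonZeroDivisors ℤ) • y) = t from
        (natCast_zsmul y p).trans hy]
      exact hn
    obtain ⟨b, hb⟩ := htgen y hyW
    rw [← hb, smul_smul] at hy
    have h4 : ((p * b : ℕ) : ℤ) • t - (1 : ℤ) • t = 0 := by
      rw [natCast_zsmul, hy, one_zsmul, sub_self]
    rw [← sub_smul, ← addOrderOf_dvd_iff_zsmul_eq_zero] at h4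
    have h5 : (p : ℤ) ∣ ((p * b : ℕ) : ℤ) - 1 := (Int.natCast_dvd_natCast.2 hpN).trans h4
    rw [Nat.cast_mul, dvd_sub_right (dvd_mul_right _ _)] at h5
    exact hp.ne_one (Nat.eq_one_of_dvd_one (Int.natCast_dvd_natCast.1 (by exact_mod_cast h5)))
  let i : ZMod p →ₗ[ZMod p] A := LinearMap.toSpanSingleton (ZMod p) A (Φ t)
  refine f.map_exact _ _ _ i q (fun d a => ?_) (fun d a => ?_) (smul_left_injective _ ht0) ?_
    fun y => ?_
  · induction d using QuotientGroup.induction_on with | _ x => ?_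
    show muG p (x : Gam) a • Φ t = homRep T K (x : Gam) (a • Φ t)
    rw [muG, Cyc.rep_apply, map_smul, ← heq, mul_comm, mul_smul]
    congr 1
    obtain ⟨m, hm⟩ := htgen _ (show unitRep T K (x : Gam) t ∈ W by
      obtain ⟨n, hn⟩ := htW
      exact ⟨n, by rw [Submonoid.smul_def] at hn ⊢; rw [← map_smul, hn, map_zero]⟩)
    rw [← hm, map_nsmul, ← Nat.cast_smul_eq_nsmul (ZMod p)]
    congr 1
    apply (cyc p).mu_injective
    rw [← Cyc.zeta_pow_eq, Cyc.mu, ← (cyc p).act]
    have e := congrArg (unitRep T K (x : Gam)) hj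
    rw [map_nsmul, ← hm, smul_comm, hj] at e
    exact (congrArg (fun u : E => ((Additive.toMul u : eT K (placesOver K T)) : Qbˣ)) e).symm
  · induction d using QuotientGroup.induction_on with | _ x => ?_
    obtain ⟨u, rfl⟩ := hs a
    show q (homRep T K (x : Gam) (Φ u)) = redRep p lamD _ (q (Φ u))
    rw [← heq, hq, hq]
    rfl
  · ext a
    constructor
    · rintro ⟨c, rfl⟩
      show q (c • Φ t) = 0
      rw [map_smul, hq, (Submodule.Quotient.mk_eq_zero W).2 htW, tmul_zero, smul_zero]
    · intro ha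
      obtain ⟨u, rfl⟩ := hs a
      rw [LinearMap.mem_ker, hq, one_tmul_eq_zero_iff] at ha
      obtain ⟨y, hy⟩ := ha
      obtain ⟨y, rfl⟩ := Submodule.Quotient.mk_surjective _ y
      rw [← Submodule.Quotient.mk_smul, eq_comm, Submodule.Quotient.eq] at hy
      obtain ⟨n, hn⟩ := htgen _ hy
      refine ⟨(n : ZMod p), ?_⟩
      show (n : ZMod p) • Φ t = Φ u
      have h0 : Φ ((p : ℤ) • y) = 0 := (hker _).2 ⟨y, (natCast_zsmul y p).symm⟩
      rw [Nat.cast_smul_eq_nsmul, ← map_nsmul, hn, map_sub, h0, sub_zero]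
  · obtain ⟨x, rfl⟩ := exists_one_tmul y
    obtain ⟨x, rfl⟩ := Submodule.Quotient.mk_surjective _ x
    exact ⟨Φ x, hq x⟩

/-- Homomorphisms of a normal level in terms of roots of unity and places. -/
theorem map_homRep [Finite (↥H ⧸ K.subgroupOf H)] (f : AddFun p (↥H ⧸ K.subgroupOf H))
    (hodd : p ≠ 2) (hpT : pP p ∈ T) (hK : K ∈ LS T) (hμ : (cyc p).MuFix K)
    (GI : GlobalInputs p) (hfull : SFull K (placesOver K T)) :
    f.toFun (dRep H K (homRep (p := p) T K) (homRep_eq_one hμ)) +
        f.toFun (dRep H K (Representation.trivial (ZMod p) Gam (ZMod p)) fun _ _ => rfl) =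
      f.toFun (dRep H K (muG p) (muG_eq_one hμ)) +
        f.toFun (dRep H K (plRep (ZMod p) T K) (plRep_eq_one _ T K)) +
        f.toFun (dRep H K (infRep (ZMod p) K) (infRep_eq_one _ K)) := by
  classical
  have hKG := LS_le_LG hK
  have := (finrank_eT hKG T).1
  have := finite_PlS (S := T) hKG
  have := finite_infPl hKG
  let _ : Fintype (PlS T K) := Fintype.ofFinite _
  let _ : Fintype (InfPl K) := Fintype.ofFinite _
  have := finite_homs hodd hpT hK hμ hfull GI
  have := finite_torsion_eT (T := T) hKG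
  set lamD := dRep H K (latRep T K) latRep_eq_one
  have h1 := map_homRep_eq_add_red f hodd hpT hK hμ GI hfull
  -- the two lattices
  set plD := dRep H K (plRep ℤ T K) (plRep_eq_one _ T K)
  set infD := dRep H K (infRep ℤ K) (infRep_eq_one _ K)
  set trD := Representation.trivial ℤ (↥H ⧸ K.subgroupOf H) ℤ
  have h2 : f.toFun (redRep p (lamD.prod trD)) = f.toFun (redRep p (plD.prod infD)) := by
    suffices hfr : ∀ d, finrank ℤ (fixL (lamD.prod trD) d) = finrank ℤ (fixL (plD.prod infD) d) by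
      obtain ⟨i, hi, hinj, hfin⟩ := exists_commensurable (lamD.prod trD) (plD.prod infD)
        (trace_eq_of_finrank_fix _ _ hfr)
      exact map_red_of_finite_index f _ _ i hi hinj
    intro d
    · induction d using QuotientGroup.induction_on with | _ x => ?_
      rw [finrank_fixL_prod, finrank_fixL_prod, show fixL trD (x : ↥H ⧸ K.subgroupOf H) = ⊤ from
        eq_top_iff.2 fun v _ => mem_fixL.2 rfl, finrank_top, finrank_self]
      have a1 := finrank_fix_latRep (T := T) hKG (x : Gam) (V := _) rfl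
      have a2 := finrank_fix_plRep (T := T) hKG (x : Gam) (V := _) rfl
      have a3 := finrank_fix_infRep hKG (x : Gam) (V := _) rfl
      show finrank ℤ (fixL (latRep T K) (x : Gam)) + 1 =
        finrank ℤ (fixL (plRep ℤ T K) (x : Gam)) + finrank ℤ (fixL (infRep ℤ K) (x : Gam))
      omega
  rw [map_red_prod, map_red_prod, map_red_trivial] at h2
  let μP : (↥H ⧸ K.subgroupOf H) → PlS T K → PlS T K := fun d => vmul (d.out : Gam)
  let μY : (↥H ⧸ K.subgroupOf H) → InfPl K → InfPl K := fun d => infMul K (d.out : Gam)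
  have hout : ∀ {k V : Type} [CommRing k] [AddCommGroup V] [Module k V]
      (ρ : Representation k Gam V) (hρ : ∀ g ∈ K, ρ g = 1) (d : ↥H ⧸ K.subgroupOf H),
      dRep H K ρ hρ d = ρ (d.out : Gam) := fun {k V} _ _ _ ρ hρ d => by
    conv_lhs => rw [← QuotientGroup.out_eq' d]
    rfl
  rw [map_red_perm f μP plD (fun d F x => by simp only [plD, hout]; rfl)
      (dRep H K (plRep (ZMod p) T K) (plRep_eq_one _ T K)) (fun d F x => by simp only [hout]; rfl),
    map_red_perm f μY infD (fun d F x => by simp only [infD, hout]; rfl)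
      (dRep H K (infRep (ZMod p) K) (infRep_eq_one _ K))
      (fun d F x => by simp only [hout]; rfl)] at h2
  have htr : dRep H K (Representation.trivial (ZMod p) Gam (ZMod p)) (fun _ _ => rfl) =
      Representation.trivial (ZMod p) (↥H ⧸ K.subgroupOf H) (ZMod p) := by
    refine MonoidHom.ext fun d => ?_
    induction d using QuotientGroup.induction_on with | _ x => ?_
    rfl
  rw [h1, htr]
  linarith

end Fermat.Agent.TW.Euler
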