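import Fermat.Agent.TW.Euler.Artin
import Fermat.Agent.TW.Euler.Lattice
import Fermat.Agent.TW.GW.Bound

/-!
# The global Euler characteristic formula

For an odd prime `p` and a finite set `T` of primes containing `p`,
`h¹ + h⁰(complex conjugation) = h⁰ + h² + dim` for finite `ZMod p`-modules unramified outside `T`:
the formula assumed by the Selmer bound.
-/

noncomputable section

namespace Fermat.Agent.TW.Euler

open Fermat.Agent.PT Fermat.Agent.PT.Lv Module

variable {p : ℕ} [Fact p.Prime]

section Finiteness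

variable {T : Finset Nat.Primes} {K : Subgroup Gam} [K.Normal] (hodd : p ≠ 2) (hpT : pP p ∈ T)
  (hK : K ∈ LS T) (hμ : (cyc p).MuFix K) (hfull : SFull K (placesOver K T)) {M : Type}
  [AddCommGroup M] [Module (ZMod p) M] [Finite M] {π : Representation (ZMod p) Gam M}
  (hπ : ∀ g ∈ K, π g = 1)
include hodd hpT hK hμ hfull hπ

/-- The classes of degree one of `G_T` in a finite module are finite. -/
theorem finite_H1 : Finite ↥(H1c (LS T) π) := by
  have hKG := LS_le_LG hK
  have := (LS T).finiteIndex hK
  have : Finite (Gam ⧸ K) := Subgroup.finite_quotient_of_finiteIndex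
  have := finite_homs hodd hpT hK hμ hfull (CFT.Bridge.globalInputs p hodd)
  let b := Module.finBasis (ZMod p) M
  have hmem : ∀ (f : ↥(Z1 (LS T) π)) j,
      pp1 K.subtype (b.coord j) (f : Gam → M) ∈ Z1 (LSH T K) (triv (ZMod p) ↥K) := fun f j =>
    pp1_mem_Z1 (compat_comap (LS T) K.subtype) (φ := b.coord j) (fun g m => by
      show b.coord j (π (g : Gam) m) = b.coord j m
      rw [hπ _ g.2]
      rfl) f.2
  let res : ↥(Z1 (LS T) π) → (Gam ⧸ K → M) × (Fin (finrank (ZMod p) M) →
      ↥(Z1 (LSH T K) (triv (ZMod p) ↥K))) := fun f =>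
    (fun x => (f : Gam → M) x.out, fun j => ⟨_, hmem f j⟩)
  have hinj : Function.Injective res := fun f f' e => Subtype.ext (funext fun g => by
    have ha : ∀ a : ↥K, (f : Gam → M) a = (f' : Gam → M) a := fun a =>
      ext_dual b fun l => by
        rw [← b.sum_dual_apply_smul_coord l]
        simp only [LinearMap.sum_apply, LinearMap.smul_apply]
        exact Finset.sum_congr rfl fun j _ => congrArg _
          (congrFun (congrArg Subtype.val (congrFun (congrArg Prod.snd e) j)) a)
    obtain ⟨a, ha'⟩ : ∃ a : ↥K, g = (g : Gam ⧸ K).out * a :=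
      ⟨⟨(g : Gam ⧸ K).out⁻¹ * g, QuotientGroup.eq.1 (g : Gam ⧸ K).out_eq⟩, by group⟩
    rw [ha', (mem_Z1.1 f.2).2, (mem_Z1.1 f'.2).2, ha,
      show (f : Gam → M) (g : Gam ⧸ K).out = (f' : Gam → M) (g : Gam ⧸ K).out from
        congrFun (congrArg Prod.fst e) _])
  have : Finite ↥(Z1 (LS T) π) := Finite.of_injective res hinj
  exact Finite.of_surjective _ cl1_surjective

/-- The classes of degree two of `G_T` in a finite module are finite. -/
theorem finite_H2 : Finite (H2 (LS T) π) := by
  classical
  obtain ⟨lam, hlam, hrec⟩ := exists_invariants p hodd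
  have GI := CFT.Bridge.globalInputs p hodd
  have hKG := LS_le_LG hK
  have := (LS T).finiteIndex hK
  let _ : Fintype (Gam ⧸ K) := Fintype.ofFinite _
  have := finite_PlS (S := T) hKG
  let _ : Fintype (PlS T K) := Fintype.ofFinite _
  have := (finrank_fixedH2 (H := K) lam hodd hpT hK hμ hπ GI hlam hrec hfull).1
  have : Finite (H2 (LS T) (indRep K π)) := Module.finite_of_finite (ZMod p)
  exact Finite.of_surjective _ (push_indSum_surjective GI hodd lam hlam hrec hpT hK hπ hμ)

end Finiteness

section Additive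

variable {T : Finset Nat.Primes} {K : Subgroup Gam} [K.Normal]

variable (K) in
/-- A representation of the finite quotient as a representation of `Gal(Q̄/Q)`. -/
abbrev infl {V : Type} [AddCommGroup V] [Module (ZMod p) V]
    (π : Representation (ZMod p) (Gam ⧸ K) V) : Representation (ZMod p) Gam V :=
  π.comp (QuotientGroup.mk' K)

theorem infl_eq_one {V : Type} [AddCommGroup V] [Module (ZMod p) V]
    (π : Representation (ZMod p) (Gam ⧸ K) V) : ∀ g ∈ K, infl K π g = 1 := fun g hg => by
  show π (g : Gam ⧸ K) = 1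
  rw [(QuotientGroup.eq_one_iff g).2 hg, map_one]

/-- The defect of the Euler characteristic formula. -/
def eulerFun (hodd : p ≠ 2) (hpT : pP p ∈ T) (hK : K ∈ LS T) (hμ : (cyc p).MuFix K)
    (hfull : SFull K (placesOver K T)) : AddFun p (Gam ⧸ K) where
  toFun {V} _ _ π := eulerN (LS T) (infl K π) + ((finrank (ZMod p) V : ℤ) -
    finrank (ZMod p) (LinearMap.ker (infl K π complexConjugation - 1)))
  map_exact := fun {A B C} _ _ _ _ _ _ _ _ _ α β γ i q hi hq hinj hex hsurj => by
    obtain ⟨s, hs⟩ := q.exists_rightInverse_of_surjective (LinearMap.range_eq_top.2 hsurj)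
    obtain ⟨r₀, hr₀⟩ := i.exists_leftInverse_of_injective (LinearMap.ker_eq_bot.2 hinj)
    have hqs : ∀ c, q (s c) = c := fun c => LinearMap.congr_fun hs c
    have hri : ∀ a, r₀ (i a) = a := fun a => LinearMap.congr_fun hr₀ a
    have hqi : ∀ a, q (i a) = 0 := fun a => LinearMap.mem_ker.1 (hex ▸ LinearMap.mem_range_self i a)
    have hir : ∀ b, q b = 0 → i (r₀ b) = b := fun b hb => by
      obtain ⟨a, rfl⟩ := hex.ge (LinearMap.mem_ker.2 hb)
      rw [hri]
    have E : SES (infl K α) (infl K β) (infl K γ) i q s r₀ :=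
      { hi := fun g a => hi _ a
        hq := fun g b => hq _ b
        hri := hri
        hqs := hqs
        hqi := hqi
        hir := hir }
    have := finite_H1 hodd hpT hK hμ hfull (infl_eq_one α)
    have := finite_H1 hodd hpT hK hμ hfull (infl_eq_one β)
    have := finite_H1 hodd hpT hK hμ hfull (infl_eq_one γ)
    have := finite_H2 hodd hpT hK hμ hfull (infl_eq_one α)
    have := finite_H2 hodd hpT hK hμ hfull (infl_eq_one β)
    have := finite_H2 hodd hpT hK hμ hfull (infl_eq_one γ)
    rw [E.eulerN_eq (smooth_of_le hK (infl_eq_one β))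
      (rightExact_LS hodd hpT hK hμ B C _ _ (infl_eq_one β) (infl_eq_one γ) q E.hq hsurj)]
    have d1 : finrank (ZMod p) B = finrank (ZMod p) A + finrank (ZMod p) C := by
      have h := LinearMap.finrank_range_add_finrank_ker q
      rw [LinearMap.range_eq_top.2 hsurj, finrank_top, ← hex,
          LinearMap.finrank_range_of_inj hinj] at h
      omega
    set c := complexConjugation
    have d2 : finrank (ZMod p) (LinearMap.ker (infl K β c - 1)) =
        finrank (ZMod p) (LinearMap.ker (infl K α c - 1)) +
          finrank (ZMod p) (LinearMap.ker (infl K γ c - 1)) := by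
      have hfix : ∀ {V : Type} [AddCommGroup V] [Module (ZMod p) V]
          (π : Representation (ZMod p) (Gam ⧸ K) V) (v : V),
          v ∈ LinearMap.ker (infl K π c - 1) ↔ infl K π c v = v := fun π v => by
        rw [LinearMap.mem_ker, LinearMap.sub_apply, Module.End.one_apply, sub_eq_zero]
      let q' : ↥(LinearMap.ker (infl K β c - 1)) →ₗ[ZMod p] ↥(LinearMap.ker (infl K γ c - 1)) :=
        q.restrict fun b hb => (hfix _ _).2 (by rw [← E.hq, (hfix _ _).1 hb])
      let i' : ↥(LinearMap.ker (infl K α c - 1)) →ₗ[ZMod p] ↥(LinearMap.ker (infl K β c - 1)) :=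
        i.restrict fun a ha => (hfix _ _).2 (by rw [← E.hi, (hfix _ _).1 ha])
      have h2 : (2 : ZMod p) ≠ 0 := fun h => hodd ((Nat.prime_dvd_prime_iff_eq Fact.out
        Nat.prime_two).1 ((ZMod.natCast_eq_zero_iff 2 p).1 (by exact_mod_cast h)))
      have hs' : Function.Surjective q' := fun x => by
        refine ⟨⟨(2 : ZMod p)⁻¹ • (s x + infl K β c (s x)), (hfix _ _).2 ?_⟩, Subtype.ext ?_⟩
        · rw [map_smul, map_add, ← Module.End.mul_apply, ← map_mul, complexConjugation_mul_self,
            map_one, Module.End.one_apply, add_comm]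
        · show q ((2 : ZMod p)⁻¹ • (s x + infl K β c (s x))) = (x : C)
          rw [map_smul, map_add, E.hq, hqs, (hfix _ _).1 x.2, ← two_smul (ZMod p), smul_smul,
            inv_mul_cancel₀ h2, one_smul]
      have hk : LinearMap.range i' = LinearMap.ker q' := by
        ext b
        constructor
        · rintro ⟨a, rfl⟩
          exact Subtype.ext (hqi a)
        · intro hb
          have h0 : i (r₀ (b : B)) = b := hir _ (congrArg Subtype.val hb)
          exact ⟨⟨r₀ b, (hfix _ _).2 (hinj (by rw [E.hi, h0, (hfix _ _).1 b.2]))⟩, Subtype.ext h0⟩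
      have h := LinearMap.finrank_range_add_finrank_ker q'
      rw [LinearMap.range_eq_top.2 hs', finrank_top, ← hk,
        LinearMap.finrank_range_of_inj fun a a' e =>
            Subtype.ext (hinj (congrArg Subtype.val e))] at h
      omega
    rw [d1, d2]
    push_cast
    ring

/-- The formula for modules induced from a subgroup of index prime to `p` over `K`. -/
theorem eulerFun_twPerm (hodd : p ≠ 2) (hpT : pP p ∈ T) (hK : K ∈ LS T) (hμ : (cyc p).MuFix K)
    (hfull : SFull K (placesOver K T)) {M : Type} [AddCommGroup M] [Module (ZMod p) M] [Finite M]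
    (π' : Representation (ZMod p) (Gam ⧸ K) M) (C : Subgroup (Gam ⧸ K))
    (hC : ¬ p ∣ Nat.card C) :
    (eulerFun hodd hpT hK hμ hfull).toFun (twPerm π' ((Gam ⧸ K) ⧸ C)) = 0 := by
  classical
  obtain ⟨lam, hlam, hrec⟩ := exists_invariants p hodd
  have GI := CFT.Bridge.globalInputs p hodd
  have hKG := LS_le_LG hK
  have := (LS T).finiteIndex hK
  let _ : Fintype (Gam ⧸ K) := Fintype.ofFinite _
  have := finite_PlS (S := T) hKG
  let _ : Fintype (PlS T K) := Fintype.ofFinite _
  set H := C.comap (QuotientGroup.mk' K) with hH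
  have hKH : K ≤ H := fun g hg => by
    show (g : Gam ⧸ K) ∈ C
    rw [(QuotientGroup.eq_one_iff g).2 hg]
    exact C.one_mem
  have := Subgroup.finiteIndex_of_le hKH
  have : Finite (Gam ⧸ H) := Subgroup.finite_quotient_of_finiteIndex
  set π := infl K π'
  have hπ : ∀ g ∈ K, π g = 1 := infl_eq_one π'
  -- the subgroup `H ⧸ K` is `C`
  let j : ↥H ⧸ K.subgroupOf H →* Gam ⧸ K :=
    QuotientGroup.lift _ ((QuotientGroup.mk' K).comp H.subtype) fun h hh =>
      (QuotientGroup.eq_one_iff _).2 hh
  have hjinj : Function.Injective j := (injective_iff_map_eq_one j).2 fun d hd => by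
    induction d using QuotientGroup.induction_on with | _ x => ?_
    exact (QuotientGroup.eq_one_iff _).2 ((QuotientGroup.eq_one_iff (x : Gam)).1 hd)
  have hjC : ∀ y, y ∈ Set.range j ↔ y ∈ C := fun y => by
    constructor
    · rintro ⟨d, rfl⟩
      induction d using QuotientGroup.induction_on with | _ x => ?_
      exact x.2
    · intro hy
      induction y using QuotientGroup.induction_on with | _ g => ?_
      exact ⟨((⟨g, hy⟩ : ↥H) : ↥H ⧸ K.subgroupOf H), rfl⟩
  have : Finite (↥H ⧸ K.subgroupOf H) := Finite.of_injective j hjinj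
  let _ : Fintype (↥H ⧸ K.subgroupOf H) := Fintype.ofFinite _
  have hcard : Nat.card (↥H ⧸ K.subgroupOf H) = Nat.card C :=
    Nat.card_congr ((Equiv.ofInjective j hjinj).trans (Equiv.subtypeEquivRight hjC))
  have hD : (Fintype.card (↥H ⧸ K.subgroupOf H) : ZMod p) ≠ 0 := by
    rw [← Nat.card_eq_fintype_card, hcard, Ne, ZMod.natCast_eq_zero_iff]
    exact hC
  -- the induced module
  let ind : Representation (ZMod p) (Gam ⧸ K) (Gam ⧸ H → M) :=
    QuotientGroup.lift K (indRep H π) (indRep_eq_one hKH hπ)
  let e0 : Gam ⧸ H → (Gam ⧸ K) ⧸ C :=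
    Quotient.lift (fun g : Gam => ((g : Gam ⧸ K) : (Gam ⧸ K) ⧸ C)) fun a b hab =>
      QuotientGroup.eq.2 (show ((a⁻¹ * b : Gam) : Gam ⧸ K) ∈ C from
        QuotientGroup.leftRel_apply.1 hab)
  have he0 : Function.Bijective e0 := by
    refine ⟨fun x y => ?_, fun z => ?_⟩
    · induction x using QuotientGroup.induction_on with | _ a => ?_
      induction y using QuotientGroup.induction_on with | _ b => ?_
      exact fun h => QuotientGroup.eq.2
        (show ((a⁻¹ * b : Gam) : Gam ⧸ K) ∈ C from QuotientGroup.eq.1 h)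
    · induction z using QuotientGroup.induction_on with | _ y => ?_
      induction y using QuotientGroup.induction_on with | _ g => ?_
      exact ⟨(g : Gam ⧸ H), rfl⟩
  rw [← (eulerFun hodd hpT hK hμ hfull).map_equiv (α := twPerm π' ((Gam ⧸ K) ⧸ C)) (β := ind)
    (LinearEquiv.funCongrLeft (ZMod p) M (Equiv.ofBijective e0 he0)) fun y F => funext fun x => by
      induction y using QuotientGroup.induction_on with | _ g => ?_
      induction x using QuotientGroup.induction_on with | _ a => ?_
      rfl]
  suffices key : eulerN (LS T) (indRep H π) + ((finrank (ZMod p) (Gam ⧸ H → M) : ℤ) -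
      finrank (ZMod p) (LinearMap.ker (indRep H π complexConjugation - 1))) = 0 from key
  rw [← finrank_homD_infRep hodd hKG hμ hKH hπ, eulerN, finrank_indRep_invariants]
  have hc : (Fintype.card (↥H ⧸ K.subgroupOf H) : ZMod p)⁻¹ *
      Fintype.card (↥H ⧸ K.subgroupOf H) = 1 := inv_mul_cancel₀ hD
  obtain ⟨e1⟩ := exists_H1_equiv (L := LS T) hKH hπ hc hK
  obtain ⟨e2⟩ := exists_H2_equiv (L := LS T) hKH π hc
  rw [e1.finrank_eq, finrank_eqHom, e2.finrank_eq,
    (finrank_fixedH2 lam hodd hpT hK hμ hπ GI hlam hrec hfull).2]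
  have hz := finrank_homD_zeroRep (H := H) hD hπ hμ hpT
  have := finite_hom p M (ZMod p)
  have hN := map_homRep (homAdd hD (dRep H K (dualR (muG p) π) (dualR_eq_one hπ hμ))) hodd hpT hK hμ
    GI hfull
  simp only [homAdd_dRep hD hπ hμ] at hN
  linarith

end Additive

/-- The global Euler characteristic formula. -/
theorem eulerFormula (hodd : p ≠ 2) : EulerFormula p := by
  intro T hpT K hKn hK hμ hfull M _ _ _ π hπ
  have hKfull := hfull K le_rfl
  refine ⟨finite_H1 hodd hpT hK hμ hKfull hπ, finite_H2 hodd hpT hK hμ hKfull hπ, ?_⟩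
  have := (LS T).finiteIndex hK
  have : Finite (Gam ⧸ K) := Subgroup.finite_quotient_of_finiteIndex
  exact (eulerFun hodd hpT hK hμ hKfull).eq_zero_of_prime_to
    (QuotientGroup.lift K π fun g hg => hπ g hg)
    fun C hC => eulerFun_twPerm hodd hpT hK hμ hKfull _ C hC

end Fermat.Agent.TW.Euler
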