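import Mathlib.Algebra.CharP.Lemmas
import Mathlib.Algebra.Group.Action.Sigma
import Fermat.Agent.TW.Euler.Iso
import Fermat.Agent.TW.Euler.Trace

/-!
# Additive functions on twisted permutation modules

`twPerm π X` is the module of functions `X → M`.  Finite sets with the same numbers of fixed points
give the same value of an additive function.
Used for Artin induction in the Euler characteristic formula.
-/

noncomputable section

namespace Fermat.Agent.TW.Euler

open TensorProduct Module

variable {p : ℕ} {G : Type} [Group G]
theorem finite_hom (p : ℕ) (V M : Type) [AddCommGroup V] [Module (ZMod p) V] [Finite V]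
    [AddCommGroup M] [Module (ZMod p) M] [Finite M] : Finite (V →ₗ[ZMod p] M) :=
  Finite.of_injective (fun φ => (φ : V → M)) DFunLike.coe_injective

variable {M : Type} [AddCommGroup M] [Module (ZMod p) M]

/-- The functions on a set with an action, with values in a representation. -/
def twPerm (π : Representation (ZMod p) G M) (X : Type) [MulAction G X] :
    Representation (ZMod p) G (X → M) where
  toFun g :=
    { toFun := fun F x => π g (F (g⁻¹ • x))
      map_add' := fun a b => funext fun x => by simp
      map_smul' := fun c a => funext fun x => by simp }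
  map_one' := LinearMap.ext fun F => funext fun x => by simp
  map_mul' g h := LinearMap.ext fun F => funext fun x => by simp [map_mul, mul_smul]

theorem twPerm_apply (π : Representation (ZMod p) G M) {X : Type} [MulAction G X] (g : G)
    (F : X → M) (x : X) : twPerm π X g F x = π g (F (g⁻¹ • x)) := rfl

namespace AddFun

variable (f : AddFun p G) (π : Representation (ZMod p) G M)

/-- A singleton contributes the value of the representation. -/
theorem map_twPerm_unique [Finite M] (X : Type) [MulAction G X] [Unique X] :
    f.toFun (twPerm π X) = f.toFun π := by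
  refine (f.map_equiv (LinearEquiv.funUnique X (ZMod p) M) fun g F => ?_).symm
  show π g (F (g⁻¹ • default)) = π g (F default)
  rw [Subsingleton.elim (g⁻¹ • (default : X)) default]

/-- Additivity on a disjoint union of finite sets. -/
theorem map_twPerm_sum [Finite M] {X Y Z : Type} [MulAction G X] [MulAction G Y] [MulAction G Z]
    [Finite X] [Finite Y] [Finite Z] (e : X ⊕ Y ≃ Z)
    (hl : ∀ (g : G) x, e (.inl (g • x)) = g • e (.inl x))
    (hr : ∀ (g : G) y, e (.inr (g • y)) = g • e (.inr y)) :
    f.toFun (twPerm π Z) = f.toFun (twPerm π X) + f.toFun (twPerm π Y) := by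
  let i : (X → M) →ₗ[ZMod p] (Z → M) :=
    { toFun := fun F z => Sum.elim F (fun _ => (0 : M)) (e.symm z)
      map_add' := fun a b => funext fun z => by
        rcases h : e.symm z with x | y <;> simp [h]
      map_smul' := fun c a => funext fun z => by
        rcases h : e.symm z with x | y <;> simp [h] }
  let r : (Z → M) →ₗ[ZMod p] (Y → M) :=
    LinearMap.funLeft (ZMod p) M fun y => e (.inr y)
  refine f.map_exact (twPerm π X) (twPerm π Z) (twPerm π Y) i r (fun g F => funext fun z => ?_)
    (fun g F => funext fun y => ?_) (fun F F' h => funext fun x => ?_) ?_ (fun F => ?_)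
  · show Sum.elim _ (fun _ => (0 : M)) (e.symm z) =
        π g (Sum.elim F (fun _ => (0 : M)) (e.symm (g⁻¹ • z)))
    rcases hz : e.symm z with x | y <;> rw [e.symm_apply_eq] at hz <;> subst hz
    · rw [← hl, e.symm_apply_apply]
      rfl
    · rw [← hr, e.symm_apply_apply]
      simp
  · show π g (F (g⁻¹ • e (.inr y))) = π g (F (e (.inr (g⁻¹ • y))))
    rw [hr]
  · have := congrFun h (e (.inl x))
    simpa [i] using this
  · ext F
    constructor
    · rintro ⟨F, rfl⟩
      funext y
      simp [r, i, LinearMap.funLeft_apply]
    · intro hF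
      refine ⟨fun x => F (e (.inl x)), funext fun z => ?_⟩
      obtain ⟨z | z, rfl⟩ := e.surjective z
      · simp [i]
      · have := congrFun hF z
        simpa [i, r, LinearMap.funLeft_apply, eq_comm] using this
  · exact ⟨fun z => Sum.elim (fun _ => (0 : M)) F (e.symm z),
      funext fun y => by simp [r, LinearMap.funLeft_apply]⟩

/-- Additivity on a finite disjoint union of finite sets. -/
theorem map_twPerm_sigma [Finite M] :
    ∀ (I : Type) [Finite I] (X : I → Type) [∀ i, MulAction G (X i)] [∀ i, Finite (X i)]
    [Fintype I], f.toFun (twPerm π (Σ i, X i)) = ∑ i, f.toFun (twPerm π (X i)) := by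
  intro I
  have : ∀ (n : ℕ) (I : Type) [Fintype I], Fintype.card I = n → ∀ (X : I → Type)
      [∀ i, MulAction G (X i)] [∀ i, Finite (X i)],
      f.toFun (twPerm π (Σ i, X i)) = ∑ i, f.toFun (twPerm π (X i)) := by
    intro n
    induction n with
    | zero =>
      intro I _ hI X _ _
      have : IsEmpty I := Fintype.card_eq_zero_iff.1 hI
      rw [Finset.univ_eq_empty, Finset.sum_empty]
      exact f.map_subsingleton _
    | succ n ih =>
      intro I _ hI X _ _
      classical
      obtain ⟨i⟩ : Nonempty I := Fintype.card_pos_iff.1 (by omega)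
      let J := {j : I // j ≠ i}
      have hJ : Fintype.card J = n := by
        simp [J, Fintype.card_subtype_compl, hI]
      let e : X i ⊕ (Σ j : J, X j) ≃ Σ j, X j :=
        Equiv.ofBijective (Sum.elim (Sigma.mk i) fun y => ⟨y.1, y.2⟩) ⟨by
          rintro (a | ⟨⟨a, ha⟩, u⟩) (b | ⟨⟨b, hb⟩, v⟩) h <;> simp at h
          · rw [h]
          · exact absurd h.1.symm hb
          · exact absurd h.1 ha
          · obtain ⟨rfl, h⟩ := h
            rw [eq_of_heq h], fun ⟨j, x⟩ => by
          by_cases h : j = i
          · subst h
            exact ⟨.inl x, rfl⟩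
          · exact ⟨.inr ⟨⟨j, h⟩, x⟩, rfl⟩⟩
      rw [f.map_twPerm_sum π e (fun g x => rfl) (fun g x => rfl), ih J hJ (fun j => X j),
        Fintype.sum_eq_add_sum_subtype_ne (fun j => f.toFun (twPerm π (X j))) i]
  intro _ X _ _ _
  exact this _ I rfl X

section Hom

variable [Fact p.Prime] [Finite M]

/-- Precomposition with the maps into a fixed representation. -/
def homComp : AddFun p G where
  toFun ρ := -f.toFun (Representation.linHom ρ π)
  map_exact := fun {A B C} _ _ _ _ _ _ _ _ _ α β γ i q hi hq hinj hex hsurj => by
    have := finite_hom p A M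
    have := finite_hom p B M
    have := finite_hom p C M
    have h := f.map_exact (Representation.linHom γ π) (Representation.linHom β π)
      (Representation.linHom α π) (LinearMap.lcomp (ZMod p) M q) (LinearMap.lcomp (ZMod p) M i)
      (fun g φ => LinearMap.ext fun b => by simp [hq])
      (fun g φ => LinearMap.ext fun a => by simp [hi])
      (fun φ φ' h => LinearMap.ext fun c => by
        obtain ⟨b, rfl⟩ := hsurj c
        exact LinearMap.congr_fun h b) ?_ (fun φ => ?_)
    · omega
    · ext φ
      constructor
      · rintro ⟨ψ, rfl⟩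
        refine LinearMap.ext fun a => ?_
        have : q (i a) = 0 := LinearMap.mem_ker.1 (hex ▸ LinearMap.mem_range_self i a)
        simp [this]
      · intro hφ
        have hle : LinearMap.ker q ≤ LinearMap.ker φ := by
          rw [← hex]
          rintro _ ⟨a, rfl⟩
          exact LinearMap.congr_fun hφ a
        refine ⟨(LinearMap.ker q).liftQ φ hle ∘ₗ
          (q.quotKerEquivOfSurjective hsurj).symm.toLinearMap, LinearMap.ext fun b => ?_⟩
        show (LinearMap.ker q).liftQ φ hle ((q.quotKerEquivOfSurjective hsurj).symm (q b)) = φ b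
        rw [show q b = q.quotKerEquivOfSurjective hsurj (Submodule.Quotient.mk b) from rfl,
          LinearEquiv.symm_apply_apply, Submodule.liftQ_apply]
    · obtain ⟨r, hr⟩ := i.exists_leftInverse_of_injective (LinearMap.ker_eq_bot.2 hinj)
      exact ⟨φ ∘ₗ r, LinearMap.ext fun a => by
        simp only [LinearMap.lcomp_apply, LinearMap.comp_apply]
        rw [show r (i a) = a from LinearMap.congr_fun hr a]⟩

/-- The function of twisted homomorphisms at a permutation lattice is minus the value at the twisted
permutation module. -/
theorem homComp_red_permRep (X : Type) [MulAction G X] [Finite X] :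
    (f.homComp π).toFun (redRep p (permRep ℤ G X)) = -f.toFun (twPerm π X) := by
  classical
  have : Fintype X := Fintype.ofFinite X
  let b : Basis X (ZMod p) (ZMod p ⊗[ℤ] (X → ℤ)) :=
    Algebra.TensorProduct.basis (ZMod p) (Pi.basisFun ℤ X)
  have := finite_hom p (ZMod p ⊗[ℤ] (X → ℤ)) M
  show -f.toFun _ = _
  congr 1
  refine f.map_equiv (b.constr (ZMod p)) fun g F => b.ext fun x => ?_
  rw [Basis.constr_basis, Representation.linHom_apply, LinearMap.comp_apply, LinearMap.comp_apply,
    twPerm_apply]
  have e : redRep p (permRep ℤ G X) g⁻¹ (b x) = b (g⁻¹ • x) := by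
    simp only [b, Algebra.TensorProduct.basis_apply, redRep_tmul, Pi.basisFun_apply]
    congr 1
    funext y
    simp [permRep_apply, Pi.single_apply, eq_inv_smul_iff]
  rw [e, Basis.constr_basis]

/-- Sets with the same numbers of fixed points give the same value. -/
theorem map_twPerm_eq [Finite G] {X Y : Type} [MulAction G X] [MulAction G Y] [Finite X] [Finite Y]
    (h : ∀ g : G, Nat.card {x : X // g • x = x} = Nat.card {y : Y // g • y = y}) :
    f.toFun (twPerm π X) = f.toFun (twPerm π Y) := by
  obtain ⟨i, hi, hinj, hfin⟩ := exists_commensurable (permRep ℤ G X) (permRep ℤ G Y) fun g => by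
    rw [trace_permRep, trace_permRep, h]
  have := map_red_of_finite_index (f.homComp π) _ _ i hi hinj
  rw [homComp_red_permRep, homComp_red_permRep, neg_inj] at this
  exact this

end Hom

/-- A nilpotent endomorphism whose layers all have the size of its kernel. -/
theorem map_nilpotent [Fact p.Prime] {V : Type} [AddCommGroup V] [Module (ZMod p) V] [Finite V]
    (ρ : Representation (ZMod p) G V) (N : V →ₗ[ZMod p] V) (hN : ∀ g v, N (ρ g v) = ρ g (N v))
    {q : ℕ} (hq : N ^ q = 0)
    (hdim : finrank (ZMod p) V = q * finrank (ZMod p) (LinearMap.ker N))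
    (hker : ∀ g, ∀ v ∈ LinearMap.ker N, ρ g v ∈ LinearMap.ker N) :
    f.toFun ρ = q * f.toFun (subRep ρ (LinearMap.ker N) hker) := by
  have hcomm : ∀ (i : ℕ) g v, (N ^ i) (ρ g v) = ρ g ((N ^ i) v) := by
    intro i
    induction i with
    | zero => exact fun g v => rfl
    | succ i ih =>
      intro g v
      rw [pow_succ, Module.End.mul_apply, Module.End.mul_apply, hN, ih]
  have hstab : ∀ (i : ℕ) g, ∀ v ∈ LinearMap.ker (N ^ i), ρ g v ∈ LinearMap.ker (N ^ i) :=
    fun i g v hv => by rw [LinearMap.mem_ker, hcomm, LinearMap.mem_ker.1 hv, map_zero]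
  set d := finrank (ZMod p) (LinearMap.ker N) with hd
  let T : ∀ i, ↥(LinearMap.ker (N ^ (i + 1))) →ₗ[ZMod p] ↥(LinearMap.ker N) := fun i =>
    (N ^ i).restrict fun v hv => by
      rw [LinearMap.mem_ker, ← Module.End.mul_apply, ← pow_succ']
      exact hv
  have hTker : ∀ i, LinearMap.ker (T i) =
      (LinearMap.ker (N ^ i)).comap (LinearMap.ker (N ^ (i + 1))).subtype := fun i => by
    ext v
    simp [T, Subtype.ext_iff, LinearMap.restrict_apply]
  have hle : ∀ i, LinearMap.ker (N ^ i) ≤ LinearMap.ker (N ^ (i + 1)) := fun i v hv => by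
    rw [LinearMap.mem_ker, pow_succ', Module.End.mul_apply, LinearMap.mem_ker.1 hv, map_zero]
  have hrn : ∀ i, finrank (ZMod p) (LinearMap.range (T i)) +
      finrank (ZMod p) (LinearMap.ker (N ^ i)) = finrank (ZMod p) (LinearMap.ker (N ^ (i + 1))) :=
    fun i => by
    rw [← LinearMap.finrank_range_add_finrank_ker (T i), hTker,
      (Submodule.comapSubtypeEquivOfLe (hle i)).finrank_eq]
  have hrange : ∀ i, finrank (ZMod p) (LinearMap.range (T i)) ≤ d := fun i => Submodule.finrank_le _
  -- every layer is full
  have hlow : ∀ i, i ≤ q → finrank (ZMod p) (LinearMap.ker (N ^ i)) = i * d := by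
    have hup : ∀ i, finrank (ZMod p) (LinearMap.ker (N ^ i)) ≤ i * d := by
      intro i
      induction i with
      | zero => simp [Submodule.finrank_eq_zero, Module.End.one_eq_id]
      | succ i ih => rw [← hrn, Nat.add_one_mul]; linarith [hrange i]
    have hdown : ∀ j i, i + j = q → q * d ≤ finrank (ZMod p) (LinearMap.ker (N ^ i)) + j * d := by
      intro j
      induction j with
      | zero =>
        intro i hi
        rw [add_zero] at hi
        rw [hi, hq, LinearMap.ker_zero, finrank_top, hdim, zero_mul, add_zero]
      | succ j ih =>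
        intro i hi
        have := ih (i + 1) (by omega)
        rw [← hrn] at this
        rw [Nat.add_one_mul]
        linarith [hrange i]
    intro i hi
    have := hdown (q - i) i (by omega)
    have := hup i
    have e : q * d = i * d + (q - i) * d := by rw [← add_mul, Nat.add_sub_cancel' hi]
    omega
  have hsurj : ∀ i, i < q → Function.Surjective (T i) := fun i hi => by
    rw [← LinearMap.range_eq_top]
    refine Submodule.eq_top_of_finrank_eq ?_
    have := hrn i
    rw [hlow i hi.le, hlow (i + 1) hi, Nat.add_one_mul] at this
    omega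
  have key : ∀ i, i ≤ q → f.toFun (subRep ρ _ (hstab i)) =
      i * f.toFun (subRep ρ (LinearMap.ker N) hker) := by
    intro i
    induction i with
    | zero =>
      intro _
      have : Subsingleton ↥(LinearMap.ker (N ^ 0)) :=
        ⟨fun a b => Subtype.ext (a.2.trans b.2.symm)⟩
      rw [Nat.cast_zero, zero_mul]
      exact f.map_subsingleton _
    | succ i ih =>
      intro hi
      have hex := f.map_exact (subRep ρ _ (hstab i)) (subRep ρ _ (hstab (i + 1)))
        (subRep ρ (LinearMap.ker N) hker) (Submodule.inclusion (hle i)) (T i) (fun g v => rfl)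
        (fun g v => Subtype.ext ?_) (Submodule.inclusion_injective _) ?_ (hsurj i (by omega))
      · rw [hex, ih (by omega), Nat.cast_succ]
        ring
      · exact hcomm i g v
      · rw [Submodule.range_inclusion, hTker]
  rw [← key q le_rfl]
  exact f.map_equiv (LinearEquiv.ofTop _ (by rw [hq, LinearMap.ker_zero])) fun g v => rfl

end AddFun

end Fermat.Agent.TW.Euler
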