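import Mathlib.Algebra.Group.Subgroup.Finite
import Mathlib.Data.Fintype.Sigma
import Mathlib.GroupTheory.Coset.Card
import Mathlib.GroupTheory.Index
import Mathlib.GroupTheory.SpecificGroups.Cyclic
import Fermat.Agent.TW.Euler.Perm

/-!
# Artin induction for additive functions, down to subgroups of order prime to `p`

An additive function of finite `ZMod p`-representations of a finite group which vanishes on the
modules induced from subgroups of order prime to `p` vanishes. This reduces the Euler
characteristic formula to such modules.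
-/

noncomputable section

namespace Fermat.Agent.TW.Euler

open Module

variable {G : Type} [Group G] [Finite G]

/-- The number of fixed cosets. -/
def fixCard (C : Subgroup G) (g : G) : ℕ := Nat.card {x : G ⧸ C // g • x = x}

omit [Finite G] in
theorem smul_mk_eq_iff (C : Subgroup G) (g x : G) :
    g • (x : G ⧸ C) = (x : G ⧸ C) ↔ x⁻¹ * g * x ∈ C := by
  rw [eq_comm, MulAction.Quotient.smul_coe, QuotientGroup.eq, smul_eq_mul, mul_assoc]

omit [Finite G] in
theorem card_conj_mem (C : Subgroup G) (g : G) :
    Nat.card {x : G // x⁻¹ * g * x ∈ C} = Nat.card C * fixCard C g := by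
  rw [fixCard, ← Nat.card_prod]
  refine Nat.card_congr ((Equiv.subtypeEquivRight fun x => ?_).trans
    (QuotientGroup.preimageMkEquivSubgroupProdSet C {x : G ⧸ C | g • x = x}))
  exact (smul_mk_eq_iff C g x).symm

/-- An identity between fixed point numbers on cyclic coset spaces. -/
theorem exists_artin :
    ∃ n : {C : Subgroup G // IsCyclic C} → ℤ, ∀ g, ∑ᶠ C, n C * fixCard C.1 g = Nat.card G := by
  classical
  have : Fintype G := Fintype.ofFinite G
  let I := {C : Subgroup G // IsCyclic C}
  have : Fintype I := Fintype.ofFinite I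
  let φ : Subgroup G → G → ℤ := fun C g =>
    (Finset.univ.filter fun x : G => Subgroup.zpowers (x⁻¹ * g * x) = C).card
  let P : Submodule ℤ (G → ℤ) :=
      Submodule.span ℤ (Set.range fun C : I => fun g => (fixCard C.1 g : ℤ))
  have hφ : ∀ (n : ℕ) (C : I), Nat.card C.1 = n → φ C.1 ∈ P := by
    intro n
    induction n using Nat.strong_induction_on with
    | _ n ih =>
      intro C hC
      let B := (Finset.univ : Finset (Subgroup G)).filter fun B => B ≤ C.1
      have hsum : φ C.1 = (Nat.card C.1 : ℤ) • (fun g => (fixCard C.1 g : ℤ)) -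
          ∑ D ∈ B.erase C.1, φ D := by
        funext g
        rw [Pi.sub_apply, Finset.sum_apply, Pi.smul_apply, smul_eq_mul, eq_sub_iff_add_eq,
          Finset.add_sum_erase B (fun D => φ D g) (by simp [B]), ← Nat.cast_mul, ← card_conj_mem,
          Nat.card_eq_fintype_card, Fintype.card_subtype]
        simp only [φ, ← Nat.cast_sum]
        congr 1
        rw [Finset.card_eq_sum_card_fiberwise (t := B)
          (f := fun x => Subgroup.zpowers (x⁻¹ * g * x))]
        · refine Finset.sum_congr rfl fun D hD => congrArg _ (Finset.ext fun x => ?_)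
          simp only [Finset.mem_filter, Finset.mem_univ, true_and, iff_and_self]
          rintro rfl
          exact (Finset.mem_filter.1 hD).2 (Subgroup.mem_zpowers _)
        · intro x hx
          simpa [B] using hx
      rw [hsum]
      refine P.sub_mem (P.smul_mem _ (Submodule.subset_span ⟨C, rfl⟩)) (P.sum_mem fun D hD => ?_)
      obtain ⟨hne, hD⟩ := Finset.mem_erase.1 hD
      have hDC : D ≤ C.1 := (Finset.mem_filter.1 hD).2
      have := C.2
      have hD' : IsCyclic D :=
        isCyclic_of_injective (Subgroup.inclusion hDC) (Subgroup.inclusion_injective hDC)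
      refine ih _ ?_ ⟨D, hD'⟩ rfl
      rw [← hC]
      exact lt_of_le_of_ne (Subgroup.card_le_of_le hDC) fun e =>
        hne (Subgroup.eq_of_le_of_card_ge hDC e.ge)
  have htot : (fun _ : G => (Nat.card G : ℤ)) ∈ P := by
    have e : (fun _ : G => (Nat.card G : ℤ)) = ∑ C : I, φ C.1 := by
      funext g
      rw [Finset.sum_apply, Nat.card_eq_fintype_card, ← Finset.card_univ]
      simp only [φ, ← Nat.cast_sum]
      congr 1
      rw [Finset.card_eq_sum_card_fiberwise (t := (Finset.univ : Finset I))
        (f := fun x => (⟨Subgroup.zpowers (x⁻¹ * g * x), inferInstance⟩ : I))]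
      · refine Finset.sum_congr rfl fun D _ => congrArg _ (Finset.ext fun x => ?_)
        simp [Subtype.ext_iff]
      · exact fun x _ => Finset.mem_univ _
    rw [e]
    exact P.sum_mem fun C _ => hφ _ C rfl
  obtain ⟨n, hn⟩ := (Submodule.mem_span_range_iff_exists_fun ℤ).1 htot
  refine ⟨n, fun g => ?_⟩
  rw [finsum_eq_sum_of_fintype]
  simpa [Finset.sum_apply] using congrFun hn g

/-- Cosets of a family of subgroups, each with a multiplicity. -/
abbrev CosFam {J : Type} (Hs : J → Subgroup G) : Type := Σ j, G ⧸ Hs j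

omit [Finite G] in
theorem card_fixed_cosFam {J : Type} [Fintype J] (Hs : J → Subgroup G)
    [∀ j, Finite (G ⧸ Hs j)] (g : G) :
    Nat.card {x : CosFam Hs // g • x = x} = ∑ j, fixCard (Hs j) g := by
  rw [Nat.card_congr (α := {x : CosFam Hs // g • x = x})
    (β := Σ j, {x : G ⧸ Hs j // g • x = x})
    { toFun := fun x => ⟨x.1.1, x.1.2, eq_of_heq (Sigma.ext_iff.1 x.2).2⟩
      invFun := fun x => ⟨⟨x.1, x.2.1⟩, Sigma.ext rfl (heq_of_eq x.2.2)⟩
      left_inv := fun x => rfl
      right_inv := fun x => rfl }]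
  exact Nat.card_sigma

variable {p : ℕ} [Fact p.Prime] {M : Type} [AddCommGroup M] [Module (ZMod p) M] [Finite M]

/-- Artin induction. -/
theorem AddFun.eq_zero_of_cyclic (f : AddFun p G) (π : Representation (ZMod p) G M)
    (h : ∀ C : Subgroup G, IsCyclic C → f.toFun (twPerm π (G ⧸ C)) = 0) : f.toFun π = 0 := by
  classical
  obtain ⟨n, hn⟩ := exists_artin (G := G)
  have : Fintype G := Fintype.ofFinite G
  let I := {C : Subgroup G // IsCyclic C}
  have : Fintype I := Fintype.ofFinite I
  simp only [finsum_eq_sum_of_fintype] at hn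
  let JA := Fin (Nat.card G) ⊕ Σ C : I, Fin (-n C).toNat
  let HA : JA → Subgroup G := Sum.elim (fun _ => ⊤) fun C => C.1.1
  let JB := Σ C : I, Fin (n C).toNat
  let HB : JB → Subgroup G := fun C => C.1.1
  have htop : ∀ g, fixCard (⊤ : Subgroup G) g = 1 := fun g => by
    have : Subsingleton (G ⧸ (⊤ : Subgroup G)) := QuotientGroup.subsingleton_quotient_top
    rw [fixCard, Nat.card_eq_one_iff_unique]
    exact ⟨inferInstance, ⟨⟨((1 : G) : G ⧸ _), Subsingleton.elim _ _⟩⟩⟩
  have hfix : ∀ g, Nat.card {x : CosFam HA // g • x = x} =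
      Nat.card {x : CosFam HB // g • x = x} := fun g => by
    rw [card_fixed_cosFam, card_fixed_cosFam, Fintype.sum_sum_type, Fintype.sum_sigma,
      Fintype.sum_sigma]
    simp only [HA, HB, Sum.elim_inl, Sum.elim_inr, htop, Finset.sum_const, Finset.card_univ,
      Fintype.card_fin, smul_eq_mul, mul_one]
    zify
    have key : ∀ C : I, ((n C).toNat : ℤ) * fixCard C.1 g =
        n C * fixCard C.1 g + ((-n C).toNat : ℤ) * fixCard C.1 g := fun C => by
      rw [← add_mul]
      congr 1
      omega
    rw [Finset.sum_congr rfl fun C _ => key C, Finset.sum_add_distrib, hn g]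
  have hA := f.map_twPerm_eq π hfix
  have hB0 : f.toFun (twPerm π (CosFam HB)) = 0 := by
    rw [f.map_twPerm_sigma π JB (fun j => G ⧸ HB j)]
    exact Finset.sum_eq_zero fun j _ => h _ j.1.2
  have hA1 : f.toFun (twPerm π (CosFam HA)) = Nat.card G * f.toFun π := by
    rw [f.map_twPerm_sigma π JA (fun j => G ⧸ HA j), Fintype.sum_sum_type,
      Finset.sum_eq_zero (s := (Finset.univ : Finset (Σ C : I, Fin (-n C).toNat)))
        (f := fun j => f.toFun (twPerm π (G ⧸ HA (.inr j)))) fun j _ => h _ j.1.2, add_zero,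
      Finset.sum_congr rfl fun (j : Fin (Nat.card G)) _ => (by
        have : Subsingleton (G ⧸ HA (.inl j)) := QuotientGroup.subsingleton_quotient_top
        have : Unique (G ⧸ HA (.inl j)) := uniqueOfSubsingleton ((1 : G) : G ⧸ _)
        exact f.map_twPerm_unique π (G ⧸ HA (.inl j)) :
        f.toFun (twPerm π (G ⧸ HA (.inl j))) = f.toFun π), Finset.sum_const, Finset.card_univ,
      Fintype.card_fin, nsmul_eq_mul]
  rw [hA, hB0, eq_comm, mul_eq_zero] at hA1
  exact hA1.resolve_left (Nat.cast_ne_zero.2 Nat.card_pos.ne')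

/-- From a cyclic group to its part of order prime to `p`. -/
theorem AddFun.map_cyclic_eq (f : AddFun p G) (π : Representation (ZMod p) G M) (C : Subgroup G)
    (hC : IsCyclic C) :
    ∃ C' : Subgroup G, ¬ p ∣ Nat.card C' ∧ ∃ q : ℕ, q ≠ 0 ∧
      f.toFun (twPerm π (G ⧸ C')) = q * f.toFun (twPerm π (G ⧸ C)) := by
  classical
  have hp : p.Prime := Fact.out
  obtain ⟨g, hg⟩ := (Subgroup.isCyclic_iff_exists_zpowers_eq_top C).1 hC
  obtain ⟨a, m, hm, hn⟩ := Nat.exists_eq_pow_mul_and_not_dvd (orderOf_pos g).ne' p hp.ne_one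
  set q := p ^ a with hq
  have hq0 : q ≠ 0 := pow_ne_zero _ hp.ne_zero
  set C' := Subgroup.zpowers (g ^ q) with hC'
  have hcard' : Nat.card C' = m := by
    rw [hC', Nat.card_zpowers, orderOf_pow' g hq0, hn, Nat.gcd_eq_right (Dvd.intro m rfl),
      Nat.mul_div_cancel_left _ (Nat.pos_of_ne_zero hq0)]
  have hle : C' ≤ C := by
    rw [hC', Subgroup.zpowers_le, ← hg]
    exact pow_mem (Subgroup.mem_zpowers g) q
  refine ⟨C', by rw [hcard']; exact hm, q, hq0, ?_⟩
  -- translation by `g` on the cosets of `C'`
  have hcomm : ∀ c ∈ C', g⁻¹ * c * g = c := fun c hc => by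
    obtain ⟨i, rfl⟩ := Subgroup.mem_zpowers_iff.1 hc
    have : Commute g ((g ^ q) ^ i) := ((Commute.refl g).pow_right q).zpow_right i
    rw [mul_assoc, ← this.eq, inv_mul_cancel_left]
  let R : G ⧸ C' → G ⧸ C' := Quotient.lift (fun x => ((x * g : G) : G ⧸ C')) fun x y hxy => by
    refine QuotientGroup.eq.2 ?_
    rw [mul_inv_rev, show g⁻¹ * x⁻¹ * (y * g) = g⁻¹ * (x⁻¹ * y) * g by group,
      hcomm _ (QuotientGroup.leftRel_apply.1 hxy)]
    exact QuotientGroup.leftRel_apply.1 hxy
  have hR : ∀ x : G, R (x : G ⧸ C') = ((x * g : G) : G ⧸ C') := fun x => rfl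
  have hRs : ∀ (h : G) y, R (h • y) = h • R y := fun h y => by
    induction y using QuotientGroup.induction_on with | _ x => ?_
    rw [MulAction.Quotient.smul_coe, hR, hR, MulAction.Quotient.smul_coe, smul_eq_mul, smul_eq_mul,
      mul_assoc]
  let T : (G ⧸ C' → M) →ₗ[ZMod p] (G ⧸ C' → M) := LinearMap.funLeft (ZMod p) M R
  have hTpow : ∀ (j : ℕ) F (x : G), (T ^ j) F (x : G ⧸ C') = F ((x * g ^ j : G) : G ⧸ C') := by
    intro j
    induction j with
    | zero => intro F x; simp
    | succ j ih =>
      intro F x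
      rw [pow_succ', Module.End.mul_apply]
      show (T ^ j) F (R (x : G ⧸ C')) = _
      rw [hR, ih, pow_succ' g, mul_assoc]
  let N := T - 1
  have hN : ∀ h F, N (twPerm π (G ⧸ C') h F) = twPerm π (G ⧸ C') h (N F) := fun h F => by
    funext y
    show π h (F (h⁻¹ • R y)) - π h (F (h⁻¹ • y)) = π h (F (R (h⁻¹ • y)) - F (h⁻¹ • y))
    rw [hRs, map_sub]
  have hNq : N ^ q = 0 := by
    rcases subsingleton_or_nontrivial M with hM | hM
    · exact Subsingleton.elim _ _
    have : Nonempty (G ⧸ C') := ⟨((1 : G) : G ⧸ C')⟩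
    have : CharP (Module.End (ZMod p) (G ⧸ C' → M)) p :=
      charP_of_injective_algebraMap (algebraMap (ZMod p) _).injective p
    rw [show N = T - 1 from rfl, hq, sub_pow_char_pow_of_commute _ _ (Commute.one_right T), one_pow,
      sub_eq_zero, ← hq]
    refine LinearMap.ext fun F => funext fun y => ?_
    induction y using QuotientGroup.induction_on with | _ x => ?_
    rw [hTpow, Module.End.one_apply]
    refine congrArg F (QuotientGroup.eq.2 ?_)
    rw [mul_inv_rev, inv_mul_cancel_right]
    exact inv_mem (Subgroup.mem_zpowers _)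
  -- the kernel is the pull back from `G ⧸ C`
  let j : (G ⧸ C → M) →ₗ[ZMod p] (G ⧸ C' → M) :=
    LinearMap.funLeft (ZMod p) M (Quotient.lift (fun x => ((x : G) : G ⧸ C)) fun x y hxy =>
      QuotientGroup.eq.2 (hle (QuotientGroup.leftRel_apply.1 hxy)))
  have hj : ∀ F (x : G), j F (x : G ⧸ C') = F (x : G ⧸ C) := fun F x => rfl
  have hjinj : Function.Injective j := fun F F' h => funext fun y => by
    induction y using QuotientGroup.induction_on with | _ x => ?_
    exact congrFun h (x : G ⧸ C')
  have hjker : LinearMap.range j = LinearMap.ker N := by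
    ext F
    constructor
    · rintro ⟨F, rfl⟩
      refine LinearMap.mem_ker.2 (funext fun y => ?_)
      induction y using QuotientGroup.induction_on with | _ x => ?_
      show j F (R x) - j F (x : G ⧸ C') = 0
      rw [hR, hj, hj, sub_eq_zero]
      exact congrArg F (QuotientGroup.eq.2 (by
        rw [mul_inv_rev, inv_mul_cancel_right]
        exact inv_mem (hg ▸ Subgroup.mem_zpowers g)))
    · intro hF
      have h1 : T F = F := sub_eq_zero.1 (LinearMap.mem_ker.1 hF)
      have hgp : ∀ (i : ℕ) (x : G), F ((x * g ^ i : G) : G ⧸ C') = F (x : G ⧸ C') := fun i x => by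
        have h2 : (T ^ i) F = F := by
          induction i with
          | zero => rfl
          | succ i ih => rw [pow_succ, Module.End.mul_apply, h1, ih]
        rw [← hTpow i F x, h2]
      refine ⟨Quotient.lift (fun x => F ((x : G) : G ⧸ C')) (fun x y hxy => ?_), funext fun y => ?_⟩
      · have hxy' : x⁻¹ * y ∈ Subgroup.zpowers g := hg.symm ▸ QuotientGroup.leftRel_apply.1 hxy
        obtain ⟨i, hi⟩ := (isOfFinOrder_of_finite g).mem_powers_iff_mem_zpowers.2 hxy'
        have hi' : g ^ i = x⁻¹ * y := hi
        rw [← hgp i x, hi', mul_inv_cancel_left]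
      · induction y using QuotientGroup.induction_on with | _ x => ?_
        rfl
  have hdim : finrank (ZMod p) (G ⧸ C' → M) = q * finrank (ZMod p) (LinearMap.ker N) := by
    have : Fintype (G ⧸ C') := Fintype.ofFinite _
    have : Fintype (G ⧸ C) := Fintype.ofFinite _
    rw [← hjker, LinearMap.finrank_range_of_inj hjinj, Module.finrank_pi_fintype,
      Module.finrank_pi_fintype, Finset.sum_const, Finset.sum_const, Finset.card_univ,
      Finset.card_univ, smul_eq_mul, smul_eq_mul, ← mul_assoc]
    congr 1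
    have h1 := C'.card_mul_index
    have h2 := C.card_mul_index
    rw [hcard'] at h1
    have hCn : Nat.card C = q * m := by rw [← hg, Nat.card_zpowers, hn]
    rw [hCn] at h2
    rw [← Nat.card_eq_fintype_card, ← Nat.card_eq_fintype_card, ← Subgroup.index_eq_card,
      ← Subgroup.index_eq_card]
    refine Nat.eq_of_mul_eq_mul_left
      (Nat.pos_of_ne_zero fun h => hm (h ▸ dvd_zero p) : 0 < m) ?_
    rw [h1, ← h2]
    ring
  have hker : ∀ h, ∀ v ∈ LinearMap.ker N, twPerm π (G ⧸ C') h v ∈ LinearMap.ker N := by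
    intro h v hv
    rw [LinearMap.mem_ker, hN, LinearMap.mem_ker.1 hv, map_zero]
  rw [f.map_nilpotent _ N hN hNq hdim hker]
  congr 1
  refine f.map_equiv ((LinearEquiv.ofInjective j hjinj).trans (LinearEquiv.ofEq _ _ hjker))
    fun h F => Subtype.ext (funext fun y => ?_)
  induction y using QuotientGroup.induction_on with | _ x => ?_
  rfl

/-- It suffices to treat the cosets of subgroups of order prime to `p`. -/
theorem AddFun.eq_zero_of_prime_to (f : AddFun p G) (π : Representation (ZMod p) G M)
    (h : ∀ C : Subgroup G, ¬ p ∣ Nat.card C → f.toFun (twPerm π (G ⧸ C)) = 0) : f.toFun π = 0 := by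
  refine f.eq_zero_of_cyclic π fun C hC => ?_
  obtain ⟨C', hC', q, hq, e⟩ := f.map_cyclic_eq π C hC
  rw [h C' hC', eq_comm, mul_eq_zero] at e
  exact e.resolve_left (Nat.cast_ne_zero.2 hq)

end Fermat.Agent.TW.Euler
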