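import Mathlib.Algebra.Field.ZMod
import Mathlib.LinearAlgebra.Dimension.RankNullity
import Mathlib.LinearAlgebra.FiniteDimensional.Basic
import Mathlib.RepresentationTheory.Invariants
import Fermat.Agent.PT.Cores
import Fermat.Agent.TW.Ad

/-!
# The long exact sequence in degrees at most two and its alternating sum

For a short exact sequence of representations the alternating sum of dimensions of `H⁰`, `H¹`,
`H²` is additive when the last map is surjective. This makes the Euler characteristic defect an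
additive function.
-/

noncomputable section

namespace Fermat.Agent.TW.Euler

open Fermat.Agent.PT Fermat.Agent.PT.Lv Module

section Maps

variable {k : Type*} [CommRing k] {G : Type*} [Group G] {L : Lv G}
variable {A : Type*} [AddCommGroup A] [Module k A] {α : Representation k G A}
variable {B : Type*} [AddCommGroup B] [Module k B] {β : Representation k G B}

variable (L α) in
/-- The classes of degree one. -/
abbrev H1c : Submodule k ((G → A) ⧸ TW.B1 α) := (Z1 L α).map (TW.B1 α).mkQ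

variable (L α) in
/-- The class of a cocycle of degree one. -/
def cl1 : ↥(Z1 L α) →ₗ[k] ↥(H1c L α) := (TW.B1 α).mkQ.submoduleMap (Z1 L α)

theorem cl1_surjective : Function.Surjective (cl1 L α) :=
  LinearMap.submoduleMap_surjective _ _

theorem cl1_eq_zero {f : ↥(Z1 L α)} : cl1 L α f = 0 ↔ ∃ m, d0 α m = (f : G → A) := by
  rw [Subtype.ext_iff, ZeroMemClass.coe_zero]
  show (TW.B1 α).mkQ (f : G → A) = 0 ↔ _
  rw [Submodule.mkQ_apply, Submodule.Quotient.mk_eq_zero]
  exact Iff.rfl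

theorem cl1_eq_cl1 {f f' : ↥(Z1 L α)} :
    cl1 L α f = cl1 L α f' ↔ ∃ m, d0 α m = (f : G → A) - (f' : G → A) := by
  rw [← sub_eq_zero, ← map_sub, cl1_eq_zero]
  rfl

variable (i : A →ₗ[k] B) (hi : ∀ g a, i (α g a) = β g (i a))

/-- Postcomposition on cocycles. -/
def push1Z : ↥(Z1 L α) →ₗ[k] ↥(Z1 L β) :=
  (LinearMap.compLeft i G).restrict fun _ hf =>
    pp1_mem_Z1 (f := MonoidHom.id G) (compat_id fun _ h => h) (φ := i) hi hf

theorem push1Z_apply (f : ↥(Z1 L α)) (g : G) :
    (push1Z i hi f : G → B) g = i ((f : G → A) g) := rfl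

/-- The map on classes of degree one. -/
def push1 : ↥(H1c L α) →ₗ[k] ↥(H1c L β) :=
  descend (cl1 L α) cl1_surjective (cl1 L β ∘ₗ push1Z i hi) fun f hf => by
    obtain ⟨m, hm⟩ := cl1_eq_zero.1 (LinearMap.mem_ker.1 hf)
    refine LinearMap.mem_ker.2 (cl1_eq_zero.2 ⟨i m, funext fun g => ?_⟩)
    rw [push1Z_apply, ← hm, d0_apply, d0_apply, map_sub, hi]

theorem push1_cl1 (f : ↥(Z1 L α)) : push1 i hi (cl1 L α f) = cl1 L β (push1Z i hi f) :=
  descend_apply _ _ _ _ f

/-- The map on invariants. -/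
def push0 : ↥α.invariants →ₗ[k] ↥β.invariants :=
  i.restrict fun a ha g => by rw [← hi, ha g]

end Maps

section Sequence

variable {p : ℕ} [Fact p.Prime] {G : Type} [Group G] {L : Lv G}
variable {A B C : Type} [AddCommGroup A] [Module (ZMod p) A] [AddCommGroup B] [Module (ZMod p) B]
  [AddCommGroup C] [Module (ZMod p) C]

variable (L) in
/-- The alternating sum of the dimensions. -/
def eulerN {V : Type} [AddCommGroup V] [Module (ZMod p) V] (ρ : Representation (ZMod p) G V) : ℤ :=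
  (finrank (ZMod p) ρ.invariants : ℤ) - finrank (ZMod p) (H1c L ρ) + finrank (ZMod p) (H2 L ρ)

/-- A short exact sequence of representations with linear splittings. -/
structure SES (α : Representation (ZMod p) G A) (β : Representation (ZMod p) G B)
    (γ : Representation (ZMod p) G C) (i : A →ₗ[ZMod p] B) (q : B →ₗ[ZMod p] C)
    (s : C →ₗ[ZMod p] B) (r : B →ₗ[ZMod p] A) : Prop where
  hi : ∀ g a, i (α g a) = β g (i a)
  hq : ∀ g b, q (β g b) = γ g (q b)
  hri : ∀ a, r (i a) = a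
  hqs : ∀ c, q (s c) = c
  hqi : ∀ a, q (i a) = 0
  hir : ∀ b, q b = 0 → i (r b) = b

variable {α : Representation (ZMod p) G A} {β : Representation (ZMod p) G B}
  {γ : Representation (ZMod p) G C} {i : A →ₗ[ZMod p] B} {q : B →ₗ[ZMod p] C}
  {s : C →ₗ[ZMod p] B} {r : B →ₗ[ZMod p] A} (E : SES α β γ i q s r)
  (hB : Smooth L β)
include E

theorem SES.inj : Function.Injective i := fun a b h => by rw [← E.hri a, h, E.hri]

theorem SES.delta0_mem (c : ↥γ.invariants) :
    (fun g => r (d0 β (s c) g)) ∈ Z1 L α ↔ d0 β (s c) ∈ Z1 L β := by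
  have hz : ∀ g, i (r (d0 β (s c) g)) = d0 β (s c) g := fun g => E.hir _ (by
    rw [d0_apply, map_sub, E.hq, E.hqs, c.2 g, sub_self])
  rw [mem_Z1, mem_Z1]
  constructor
  · rintro ⟨hc, hd⟩
    refine ⟨?_, fun g g' => ?_⟩
    · have := hc.comp i
      rwa [show (fun g => i (r (d0 β (s c) g))) = d0 β (s c) from funext hz] at this
    · have := congrArg i (hd g g')
      simpa only [map_add, E.hi, hz] using this
  · rintro ⟨hc, hd⟩
    exact ⟨hc.comp r, fun g g' => E.inj (by rw [map_add, E.hi, hz, hz, hz]; exact hd g g')⟩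

/-- The connecting map from degree zero. -/
def SES.delta0 : ↥γ.invariants →ₗ[ZMod p] ↥(H1c L α) :=
  cl1 L α ∘ₗ ((LinearMap.compLeft r G) ∘ₗ (d0 β) ∘ₗ s ∘ₗ γ.invariants.subtype).codRestrict _
    fun c => (E.delta0_mem c).2 (d0_mem_Z1_of_smooth β hB _)

theorem SES.lift_eq {f : G → C} (hf : f ∈ Z1 L γ) (gg : G × G) :
    i (r (d1 β (fun g => s (f g)) gg)) = d1 β (fun g => s (f g)) gg := by
  refine E.hir _ ?_
  obtain ⟨g, h⟩ := gg
  rw [d1_apply, map_add, map_sub, E.hq, E.hqs, E.hqs, E.hqs, (mem_Z1.1 hf).2 g h]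
  abel

include hB in
theorem SES.lift_mem {f : G → C} (hf : f ∈ Z1 L γ) :
    (fun gg => r (d1 β (fun g => s (f g)) gg)) ∈ Z2 L α := by
  have hd := d1_mem_Z2 hB ((mem_Z1.1 hf).1.comp s)
  rw [mem_Z2] at hd ⊢
  exact ⟨hd.1.comp r, fun g h j => E.inj (by simp only [map_add, E.hi, E.lift_eq hf, hd.2 g h j])⟩

/-- The connecting map on cocycles of degree one. -/
def SES.delta1Z : ↥(Z1 L γ) →ₗ[ZMod p] H2 L α :=
  mk2 L α ∘ₗ ((LinearMap.compLeft r (G × G)) ∘ₗ d1 β ∘ₗ (LinearMap.compLeft s G) ∘ₗ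
    (Z1 L γ).subtype).codRestrict _ fun f => E.lift_mem hB f.2

/-- The connecting map from degree one. -/
def SES.delta1 : ↥(H1c L γ) →ₗ[ZMod p] H2 L α :=
  descend (cl1 L γ) cl1_surjective (E.delta1Z hB) fun f hf => by
    obtain ⟨m, hm⟩ := cl1_eq_zero.1 (LinearMap.mem_ker.1 hf)
    refine LinearMap.mem_ker.2 (mk2_eq_zero.2 ⟨fun g => r (s ((f : G → C) g) - d0 β (s m) g),
      (((mem_Z1.1 f.2).1.comp s).map₂ (mem_Z1.1 (d0_mem_Z1_of_smooth β hB (s m))).1
        (· - ·)).comp r, ?_⟩)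
    have hz : ∀ g, i (r (s ((f : G → C) g) - d0 β (s m) g)) = s ((f : G → C) g) - d0 β (s m) g :=
      fun g => E.hir _ (by
        rw [map_sub, E.hqs, d0_apply, map_sub, E.hq, E.hqs, ← hm, d0_apply, sub_self])
    funext ⟨g, h⟩
    refine E.inj ?_
    show i (d1 α _ (g, h)) = i (r (d1 β (fun g => s ((f : G → C) g)) (g, h)))
    rw [E.lift_eq f.2, d1_apply, map_add, map_sub, E.hi, hz, hz, hz, d1_apply]
    simp only [d0_apply, map_sub, map_mul, Module.End.mul_apply]
    abel

theorem SES.delta1_cl1 (f : ↥(Z1 L γ)) :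
    E.delta1 hB (cl1 L γ f) = mk2 L α ⟨_, E.lift_mem hB f.2⟩ :=
  descend_apply _ _ _ _ f

theorem SES.exact_A0 : Function.Injective (push0 i E.hi) := fun _a _b h =>
  Subtype.ext (E.inj (congrArg Subtype.val h))

theorem SES.exact_B0 :
    LinearMap.range (push0 i E.hi) = LinearMap.ker (push0 q E.hq) := by
  ext b
  constructor
  · rintro ⟨a, rfl⟩
    exact Subtype.ext (E.hqi a)
  · intro hb
    have h0 : i (r (b : B)) = b := E.hir _ (congrArg Subtype.val hb)
    exact ⟨⟨r b, fun g => E.inj (by rw [E.hi, h0, b.2 g])⟩, Subtype.ext h0⟩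

theorem SES.exact_C0 : LinearMap.range (push0 q E.hq) = LinearMap.ker (E.delta0 hB) := by
  have hz : ∀ (c : ↥γ.invariants) g, i (r (d0 β (s c) g)) = d0 β (s c) g := fun c g => E.hir _ (by
    rw [d0_apply, map_sub, E.hq, E.hqs, c.2 g, sub_self])
  ext c
  constructor
  · rintro ⟨b, rfl⟩
    refine LinearMap.mem_ker.2 (cl1_eq_zero.2 ⟨r (s (q (b : B)) - b), funext fun g => E.inj ?_⟩)
    show i (d0 α _ g) = i (r (d0 β (s (push0 q E.hq b : C)) g))
    rw [hz, d0_apply, map_sub, E.hi, E.hir _ (by rw [map_sub, E.hqs, sub_self])]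
    show _ = d0 β (s (q (b : B))) g
    rw [d0_apply, map_sub, b.2 g]
    abel
  · intro hc
    obtain ⟨m, hm⟩ := cl1_eq_zero.1 (LinearMap.mem_ker.1 hc)
    refine ⟨⟨s c - i m, fun g => ?_⟩, Subtype.ext ?_⟩
    · have e := congrArg i (congrFun hm g)
      rw [d0_apply, map_sub, E.hi] at e
      have e' : β g (i m) - i m = d0 β (s c) g := e.trans (hz c g)
      rw [d0_apply] at e'
      rw [map_sub]
      linear_combination (norm := abel) -e'
    · show q (s c - i m) = c
      rw [map_sub, E.hqi, E.hqs, sub_zero]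

theorem SES.exact_A1 : LinearMap.range (E.delta0 hB) = LinearMap.ker (push1 (L := L) i E.hi) := by
  have hz : ∀ (c : ↥γ.invariants) g, i (r (d0 β (s c) g)) = d0 β (s c) g := fun c g => E.hir _ (by
    rw [d0_apply, map_sub, E.hq, E.hqs, c.2 g, sub_self])
  ext x
  obtain ⟨f, rfl⟩ := cl1_surjective x
  constructor
  · rintro ⟨c, hc⟩
    rw [LinearMap.mem_ker, ← hc]
    show push1 i E.hi (cl1 L α _) = 0
    rw [push1_cl1, cl1_eq_zero]
    exact ⟨s c, funext fun g => (hz c g).symm⟩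
  · intro hf
    rw [LinearMap.mem_ker, push1_cl1, cl1_eq_zero] at hf
    obtain ⟨b, hb⟩ := hf
    have hqb : ∀ g, γ g (q b) = q b := fun g => by
      have := congrArg q (congrFun hb g)
      rw [d0_apply, map_sub, E.hq, push1Z_apply, E.hqi, sub_eq_zero] at this
      exact this
    refine ⟨⟨q b, hqb⟩, cl1_eq_cl1.2 ⟨r (s (q b) - b), funext fun g => E.inj ?_⟩⟩
    show i (d0 α _ g) = i (r (d0 β (s (q b)) g) - (f : G → A) g)
    rw [map_sub i, hz ⟨q b, hqb⟩, d0_apply, map_sub i, E.hi,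
      E.hir _ (by rw [map_sub, E.hqs, sub_self]), ← push1Z_apply i E.hi, ← hb]
    simp only [d0_apply, map_sub]
    abel

include hB in
theorem SES.exact_B1 :
    LinearMap.range (push1 (L := L) i E.hi) = LinearMap.ker (push1 (L := L) q E.hq) := by
  ext x
  obtain ⟨f, rfl⟩ := cl1_surjective x
  constructor
  · rintro ⟨y, hy⟩
    obtain ⟨a, rfl⟩ := cl1_surjective y
    rw [LinearMap.mem_ker, ← hy, push1_cl1, push1_cl1, cl1_eq_zero]
    exact ⟨0, funext fun g => by rw [map_zero, push1Z_apply, push1Z_apply, E.hqi]; rfl⟩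
  · intro hf
    rw [LinearMap.mem_ker, push1_cl1, cl1_eq_zero] at hf
    obtain ⟨m, hm⟩ := hf
    have hz : ∀ g, i (r ((f : G → B) g - d0 β (s m) g)) = (f : G → B) g - d0 β (s m) g := fun g =>
      E.hir _ (by rw [map_sub, d0_apply, map_sub, E.hq, E.hqs, ← push1Z_apply q E.hq, ← hm,
        d0_apply, sub_self])
    have hmem : (fun g => r ((f : G → B) g - d0 β (s m) g)) ∈ Z1 L α := by
      have h := (Z1 L β).sub_mem f.2 (d0_mem_Z1_of_smooth β hB (s m))
      rw [mem_Z1] at h ⊢
      exact ⟨h.1.comp r, fun g g' => E.inj (by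
        rw [map_add, E.hi, hz, hz, hz]
        exact h.2 g g')⟩
    refine ⟨cl1 L α ⟨_, hmem⟩, ?_⟩
    rw [push1_cl1, cl1_eq_cl1]
    refine ⟨-s m, funext fun g => ?_⟩
    show d0 β (-s m) g = i (r ((f : G → B) g - d0 β (s m) g)) - (f : G → B) g
    rw [hz, map_neg, Pi.neg_apply]
    abel

theorem SES.exact_C1 : LinearMap.range (push1 (L := L) q E.hq) = LinearMap.ker (E.delta1 hB) := by
  ext x
  obtain ⟨f, rfl⟩ := cl1_surjective x
  rw [LinearMap.mem_ker, E.delta1_cl1 hB, mk2_eq_zero]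
  constructor
  · rintro ⟨y, hy⟩
    obtain ⟨b, rfl⟩ := cl1_surjective y
    rw [push1_cl1, cl1_eq_cl1] at hy
    obtain ⟨m, hm⟩ := hy
    have hz : ∀ g, i (r (s ((f : G → C) g) - (b : G → B) g + d0 β (s m) g)) =
        s ((f : G → C) g) - (b : G → B) g + d0 β (s m) g := fun g => E.hir _ (by
      have h := congrFun hm g
      rw [Pi.sub_apply, push1Z_apply, d0_apply] at h
      rw [map_add, map_sub, E.hqs, d0_apply, map_sub, E.hq, E.hqs, h]
      abel)
    have hd0 := mem_Z1.1 (d0_mem_Z1_of_smooth β hB (s m))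
    refine ⟨fun g => r (s ((f : G → C) g) - (b : G → B) g + d0 β (s m) g),
      ((((mem_Z1.1 f.2).1.comp s).map₂ (mem_Z1.1 b.2).1 (· - ·)).map₂ hd0.1 (· + ·)).comp r,
      funext fun gh => E.inj ?_⟩
    obtain ⟨g, h⟩ := gh
    show i (d1 α _ (g, h)) = i (r (d1 β (fun g => s ((f : G → C) g)) (g, h)))
    rw [E.lift_eq f.2, d1_apply, map_add, map_sub, E.hi, hz, hz, hz, d1_apply,
      (mem_Z1.1 b.2).2 g h, hd0.2 g h, map_add, map_sub]
    abel
  · rintro ⟨y, hy, hye⟩
    have hb : (fun g => s ((f : G → C) g) - i (y g)) ∈ Z1 L β := by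
      refine mem_Z1.2 ⟨((mem_Z1.1 f.2).1.comp s).map₂ (hy.comp i) (· - ·), fun g h => ?_⟩
      have e := congrArg i (congrFun hye (g, h))
      rw [d1_apply, map_add, map_sub, E.hi] at e
      have e' := e.trans (E.lift_eq f.2 (g, h))
      rw [d1_apply] at e'
      rw [map_sub]
      linear_combination (norm := abel) e'
    refine ⟨cl1 L β ⟨_, hb⟩, ?_⟩
    rw [push1_cl1, cl1_eq_cl1]
    refine ⟨0, funext fun g => ?_⟩
    show d0 γ 0 g = q (s ((f : G → C) g) - i (y g)) - (f : G → C) g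
    rw [map_sub, E.hqs, E.hqi, map_zero, sub_zero, sub_self]
    rfl

theorem SES.exact_A2 :
    LinearMap.range (E.delta1 hB) = LinearMap.ker (H2push L α β i E.hi) := by
  ext x
  constructor
  · rintro ⟨y, rfl⟩
    obtain ⟨f, rfl⟩ := cl1_surjective y
    rw [LinearMap.mem_ker, E.delta1_cl1 hB, H2push_mk2, mk2_eq_zero]
    exact ⟨fun g => s ((f : G → C) g), (mem_Z1.1 f.2).1.comp s,
      funext fun gg => (E.lift_eq f.2 gg).symm⟩
  · intro hx
    obtain ⟨⟨a, ha⟩, rfl⟩ := mk2_surjective x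
    rw [LinearMap.mem_ker, H2push_mk2, mk2_eq_zero] at hx
    obtain ⟨y, hy, hye⟩ := hx
    have hd : ∀ g h, β g (y h) - y (g * h) + y g = i (a (g, h)) := fun g h =>
      congrFun hye (g, h)
    have hf : (fun g => q (y g)) ∈ Z1 L γ := by
      refine mem_Z1.2 ⟨hy.comp q, fun g h => ?_⟩
      have e := congrArg q (hd g h)
      rw [map_add, map_sub, E.hq, E.hqi] at e
      linear_combination (norm := abel) -e
    have hz : ∀ g, i (r (s (q (y g)) - y g)) = s (q (y g)) - y g := fun g =>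
      E.hir _ (by rw [map_sub, E.hqs, sub_self])
    refine ⟨cl1 L γ ⟨_, hf⟩, ?_⟩
    rw [E.delta1_cl1 hB, mk2_eq_mk2]
    refine ⟨fun g => r (s (q (y g)) - y g), ((hy.comp q).comp s |>.map₂ hy (· - ·)).comp r,
      funext fun gh => E.inj ?_⟩
    obtain ⟨g, h⟩ := gh
    show i (d1 α _ (g, h)) = i (r (d1 β (fun g => s (q (y g))) (g, h)) - a (g, h))
    rw [map_sub, E.lift_eq hf, ← hd, d1_apply, map_add, map_sub, E.hi, hz, hz, hz, d1_apply,
      map_sub]
    abel

include hB in
theorem SES.exact_B2 :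
    LinearMap.range (H2push L α β i E.hi) = LinearMap.ker (H2push L β γ q E.hq) := by
  ext x
  constructor
  · rintro ⟨y, rfl⟩
    obtain ⟨⟨a, ha⟩, rfl⟩ := mk2_surjective y
    rw [LinearMap.mem_ker, H2push_mk2, H2push_mk2, mk2_eq_zero]
    exact ⟨0, con1_const 0, funext fun gg => by rw [map_zero]; exact (E.hqi _).symm⟩
  · intro hx
    exact exists_of_push_eq_zero i E.hi q E.hq s E.hqs r E.hri E.hir hB x hx

variable [Finite ↥(H1c L α)] [Finite ↥(H1c L β)] [Finite ↥(H1c L γ)]
  [Finite (H2 L α)] [Finite (H2 L β)] [Finite (H2 L γ)] [Finite A] [Finite B] [Finite C]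

omit [Finite (H2 L γ)] in
include hB in
/-- The alternating sum of dimensions is additive on short exact sequences with surjective last map
in degree two. -/
theorem SES.eulerN_eq (hsurj : Function.Surjective (H2push L β γ q E.hq)) :
    eulerN L β = eulerN L α + eulerN L γ := by
  have r0 := LinearMap.finrank_range_add_finrank_ker (push0 i E.hi)
  have r1 := LinearMap.finrank_range_add_finrank_ker (push0 q E.hq)
  have r2 := LinearMap.finrank_range_add_finrank_ker (E.delta0 hB)
  have r3 := LinearMap.finrank_range_add_finrank_ker (push1 (L := L) i E.hi)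
  have r4 := LinearMap.finrank_range_add_finrank_ker (push1 (L := L) q E.hq)
  have r5 := LinearMap.finrank_range_add_finrank_ker (E.delta1 hB)
  have r6 := LinearMap.finrank_range_add_finrank_ker (H2push L α β i E.hi)
  have r7 := LinearMap.finrank_range_add_finrank_ker (H2push L β γ q E.hq)
  rw [LinearMap.ker_eq_bot.2 E.exact_A0, finrank_bot] at r0
  rw [← E.exact_B0] at r1
  rw [← E.exact_C0 hB] at r2
  rw [← E.exact_A1 hB] at r3
  rw [← E.exact_B1 hB] at r4
  rw [← E.exact_C1 hB] at r5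
  rw [← E.exact_A2 hB] at r6
  rw [← E.exact_B2 hB, LinearMap.range_eq_top.2 hsurj, finrank_top] at r7
  unfold eulerN
  omega

end Sequence

end Fermat.Agent.TW.Euler
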