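import Fermat.Agent.PT.GlobalCoresSurj
import Fermat.Agent.TW.Euler.LongExact

/-!
# Cohomology of an induced module through a normal subgroup of index invertible in the coefficients

`K` is normal, `K ≤ H` and `ρ` is trivial on `K`.  The classes of `indRep H ρ` are the fixed classes
of `K`, in degree one and in degree two.
Used to reduce the Euler characteristic formula to a normal level.
-/

noncomputable section

namespace Fermat.Agent.TW.Euler

open Fermat.Agent.PT Fermat.Agent.PT.Lv Module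

variable {k : Type*} [CommRing k] {G : Type*} [Group G] {M : Type*} [AddCommGroup M] [Module k M]
  {ρ : Representation k G M}

theorem inv_smul_one {H : Subgroup G} (h : ↥H) :
    ((h : G)⁻¹ • ((1 : G) : G ⧸ H)) = ((1 : G) : G ⧸ H) := by
  rw [inv_smul_eq_iff, MulAction.Quotient.smul_coe, QuotientGroup.eq]
  simp

theorem kap_one {H : Subgroup G} (h : ↥H) : kap H ((1 : G) : G ⧸ H) (h : G) = h := by
  ext
  rw [coe_kap, inv_smul_one, sec_one]
  simp

/-! ### Degree zero -/

/-- The invariants of an induced module. -/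
def indInvEquiv (H : Subgroup G) :
    ↥(indRep H ρ).invariants ≃ₗ[k] ↥(Representation.invariants (ρ.comp H.subtype)) where
  toFun F := ⟨(F : G ⧸ H → M) ((1 : G) : G ⧸ H), fun h => by
    have := congrFun (F.2 (h : G)) ((1 : G) : G ⧸ H)
    rw [indRep_apply, inv_smul_one] at this
    exact this⟩
  map_add' _ _ := rfl
  map_smul' _ _ := rfl
  invFun m := ⟨fun x => ρ (sec H x) m, fun g => funext fun x => by
    rw [indRep_apply, ← Module.End.mul_apply, ← map_mul]
    have e : g * sec H (g⁻¹ • x) = sec H x * (kap H x g : G) := by rw [coe_kap]; group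
    rw [e, map_mul, Module.End.mul_apply]
    exact congrArg (ρ (sec H x)) (m.2 (kap H x g))⟩
  left_inv F := Subtype.ext <| funext fun x => by
    show ρ (sec H x) ((F : G ⧸ H → M) _) = (F : G ⧸ H → M) x
    conv_rhs => rw [← F.2 (sec H x), indRep_apply, sec_inv_smul]
  right_inv m := Subtype.ext <| by
    show ρ (sec H ((1 : G) : G ⧸ H)) (m : M) = m
    rw [sec_one, map_one]
    rfl

/-! ### Translations -/

section Translate

variable {V V' : Subgroup G} {τ : G} (hτ : ∀ v, v ∈ V' ↔ τ⁻¹ * v * τ ∈ V)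

/-- Right translation between coset spaces of conjugate subgroups. -/
def rtQ : G ⧸ V' → G ⧸ V :=
  Quotient.lift (fun x => ((x * τ : G) : G ⧸ V)) fun x y hxy => by
    refine QuotientGroup.eq.2 ?_
    rw [mul_inv_rev, show τ⁻¹ * x⁻¹ * (y * τ) = τ⁻¹ * (x⁻¹ * y) * τ by group]
    exact (hτ _).1 (QuotientGroup.leftRel_apply.1 hxy)

theorem rtQ_mk (x : G) : rtQ hτ (x : G ⧸ V') = ((x * τ : G) : G ⧸ V) := rfl

theorem rtQ_smul (g : G) (x : G ⧸ V') : rtQ hτ (g • x) = g • rtQ hτ x := by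
  induction x using QuotientGroup.induction_on with | _ a => ?_
  rw [MulAction.Quotient.smul_coe, rtQ_mk, rtQ_mk, MulAction.Quotient.smul_coe, smul_eq_mul,
    smul_eq_mul, mul_assoc]

theorem rtQ_bijective : Function.Bijective (rtQ hτ) := by
  have hτ' : ∀ v, v ∈ V ↔ τ⁻¹⁻¹ * v * τ⁻¹ ∈ V' := fun v => by
    rw [hτ, show τ⁻¹ * (τ⁻¹⁻¹ * v * τ⁻¹) * τ = v by group]
  refine Function.bijective_iff_has_inverse.2 ⟨rtQ hτ', fun x => ?_, fun x => ?_⟩ <;>
    induction x using QuotientGroup.induction_on <;> simp [rtQ_mk]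

/-- The map of induced modules given by a right translation. -/
def rtMap : (G ⧸ V → M) →ₗ[k] (G ⧸ V' → M) := LinearMap.funLeft k M (rtQ hτ)

theorem rtMap_equivariant (ρ : Representation k G M) (g : G) (F : G ⧸ V → M) :
    rtMap (k := k) hτ (indRep V ρ g F) = indRep V' ρ g (rtMap (k := k) hτ F) := funext fun x => by
  show ρ g (F (g⁻¹ • rtQ hτ x)) = ρ g (F (rtQ hτ (g⁻¹ • x)))
  rw [rtQ_smul]

/-- Conjugation between conjugate subgroups. -/
def cjHom : ↥V' →* ↥V :=
  MonoidHom.mk' (fun v => ⟨τ⁻¹ * (v : G) * τ, (hτ _).1 v.2⟩) fun a b => Subtype.ext (by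
    show τ⁻¹ * ((a : G) * b) * τ = τ⁻¹ * a * τ * (τ⁻¹ * b * τ)
    group)

theorem coe_cjHom (v : ↥V') : (cjHom hτ v : G) = τ⁻¹ * (v : G) * τ := rfl

theorem compat_cjHom (L : Lv G) :
    Compat (L.comap V.subtype) (L.comap V'.subtype) (cjHom hτ) := by
  rintro U ⟨W, hW, hWU⟩
  obtain ⟨W', hW', hW'W, hn⟩ := L.exists_normal hW
  refine ⟨W', hW', fun v hv => hWU ?_⟩
  show τ⁻¹ * (v : G) * τ ∈ W
  exact hW'W (by simpa using hn.conj_mem _ hv τ⁻¹)

variable (ρ) in
theorem cj_equiv :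
    Equiv' (cjHom hτ) (ρ.comp V.subtype) (ρ.comp V'.subtype) (ρ τ) := fun v m => by
  show ρ τ (ρ (cjHom hτ v : G) m) = ρ (v : G) (ρ τ m)
  rw [coe_cjHom, ← Module.End.mul_apply, ← map_mul, ← Module.End.mul_apply, ← map_mul]
  congr 2
  group

/-- Shapiro turns a translation into a conjugation. -/
theorem sh_rtMap {L : Lv G} (B : H2 L (indRep V ρ)) :
    sh V' ρ L (H2push L (indRep V ρ) (indRep V' ρ) (rtMap hτ) (rtMap_equivariant hτ ρ) B) =
      H2map (compat_cjHom hτ L) (cj_equiv ρ hτ) (sh V ρ L B) := by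
  obtain ⟨⟨f, hf⟩, rfl⟩ := mk2_surjective B
  obtain ⟨y, hy, hye⟩ := mem_B2.1 (conjR_sub_mem_B2 hf τ)
  simp only [sh, H2push_mk2, H2map_mk2]
  refine mk2_eq_mk2.2 ⟨fun v => -y (v : G) (τ : G ⧸ V), ?_, ?_⟩
  · exact (hy.precomp (compat_comap L V'.subtype)).comp fun F => -F (τ : G ⧸ V)
  · ext ⟨u, v⟩
    have hfix : ∀ w : ↥V', (w : G)⁻¹ • (τ : G ⧸ V) = (τ : G ⧸ V) := fun w => by
      refine QuotientGroup.eq.2 ?_
      beta_reduce
      rw [smul_eq_mul, show ((w : G)⁻¹ * τ)⁻¹ * τ = τ⁻¹ * (w : G) * τ by group]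
      exact (hτ _).1 w.2
    have e := congrFun (congrFun hye ((u : G), (v : G))) (τ : G ⧸ V)
    simp only [d1_apply, Pi.add_apply, Pi.sub_apply, indRep_apply, pp2_apply, ev1,
      LinearMap.proj_apply, MonoidHom.coe_comp, Function.comp_apply, Subgroup.coe_subtype,
      Subgroup.coe_mul, coe_cjHom, map_neg, hfix] at e ⊢
    rw [show τ⁻¹ • (τ : G ⧸ V) = ((1 : G) : G ⧸ V) by
      rw [MulAction.Quotient.smul_coe, smul_eq_mul, inv_mul_cancel]] at e
    show -ρ (u : G) (y (v : G) _) - -y ((u : G) * v) _ + -y (u : G) _ =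
      f ((u : G), (v : G)) (rtQ hτ ((1 : G) : G ⧸ V')) - _
    rw [rtQ_mk, one_mul]
    linear_combination (norm := abel) -e

end Translate

/-! ### Degree one -/

section DegOne

variable (L : Lv G) (H K : Subgroup G) (ρ : Representation k G M)

/-- The homomorphisms on `K` commuting with the conjugation by `H`. -/
def eqHom : Submodule k (↥K → M) where
  carrier := {φ | φ ∈ Z1 (L.comap K.subtype) (Representation.trivial k ↥K M) ∧
    ∀ (h : G) (a b : ↥K), h ∈ H → (b : G) = h * (a : G) * h⁻¹ → φ b = ρ h (φ a)}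
  add_mem' := fun {φ ψ} hφ hψ => ⟨add_mem hφ.1 hψ.1, fun h a b hh e => by
    rw [Pi.add_apply, Pi.add_apply, hφ.2 h a b hh e, hψ.2 h a b hh e, map_add]⟩
  zero_mem' := ⟨zero_mem _, fun h a b hh e => by simp⟩
  smul_mem' := fun c φ hφ => ⟨Submodule.smul_mem _ c hφ.1, fun h a b hh e => by
    rw [Pi.smul_apply, Pi.smul_apply, hφ.2 h a b hh e, map_smul]⟩

variable {L H K ρ} [hKn : K.Normal] (hKH : K ≤ H) (hρ : ∀ g ∈ K, ρ g = 1)
include hρ hKH

omit hKn in
theorem restrict_mem_eqHom {f : G → G ⧸ H → M} (hf : f ∈ Z1 L (indRep H ρ)) :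
    (fun a : ↥K => f (a : G) ((1 : G) : G ⧸ H)) ∈ eqHom L H K ρ := by
  have hm := (mem_Z1.1 hf).2
  have hone : ∀ g ∈ H, g⁻¹ • ((1 : G) : G ⧸ H) = ((1 : G) : G ⧸ H) := fun g hg =>
    inv_smul_one (⟨g, hg⟩ : ↥H)
  refine ⟨mem_Z1.2 ⟨(((mem_Z1.1 hf).1.precomp (compat_comap L K.subtype))).comp fun F => F _,
    fun a b => ?_⟩, fun h a b hh e => ?_⟩
  · rw [Subgroup.coe_mul, hm, Pi.add_apply, indRep_apply, hone _ (hKH a.2), hρ _ a.2]
    rfl
  · have e1 := congrFun (hm h (a : G)) ((1 : G) : G ⧸ H)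
    have e2 := congrFun (hm (b : G) h) ((1 : G) : G ⧸ H)
    rw [show (b : G) * h = h * (a : G) by rw [e]; group, e1, Pi.add_apply, Pi.add_apply,
      indRep_apply, indRep_apply, hone _ hh, hone _ (hKH b.2), hρ _ b.2, Module.End.one_apply,
      add_comm (ρ h _)] at e2
    exact (add_left_cancel e2).symm

variable (L) in
/-- Restriction to `K` on cocycles. -/
def resKZ : ↥(Z1 L (indRep H ρ)) →ₗ[k] ↥(eqHom L H K ρ) :=
  LinearMap.codRestrict _
    { toFun := fun f => fun a : ↥K => (f : G → G ⧸ H → M) (a : G) ((1 : G) : G ⧸ H)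
      map_add' := fun _ _ => rfl
      map_smul' := fun _ _ => rfl }
    fun f => restrict_mem_eqHom hKH hρ f.2

omit hKn in
theorem resKZ_apply (f : ↥(Z1 L (indRep H ρ))) (a : ↥K) :
    (resKZ L hKH hρ f : ↥K → M) a = (f : G → G ⧸ H → M) (a : G) ((1 : G) : G ⧸ H) := rfl

variable [Fintype (↥H ⧸ K.subgroupOf H)] {c : k}
  (hc : c * Fintype.card (↥H ⧸ K.subgroupOf H) = 1)
include hc

omit hKn in
/-- Restriction to the normal subgroup is injective on classes of degree one. -/
theorem exists_of_resKZ_eq_zero (f : ↥(Z1 L (indRep H ρ))) (hf : resKZ L hKH hρ f = 0) :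
    ∃ F, d0 (indRep H ρ) F = (f : G → G ⧸ H → M) := by
  have hm := (mem_Z1.1 f.2).2
  let y : ↥H → M := fun h => (f : G → G ⧸ H → M) (h : G) ((1 : G) : G ⧸ H)
  have hy : ∀ h x : ↥H, y (h * x) = ρ (h : G) (y x) + y h := fun h x => by
    simp only [y, Subgroup.coe_mul, hm, Pi.add_apply, indRep_apply, inv_smul_one]
  have hy0 : ∀ a : ↥H, (a : G) ∈ K → y a = 0 := fun a ha =>
    congrFun (congrArg Subtype.val hf) ⟨(a : G), ha⟩
  let S : M := ∑ x : ↥H ⧸ K.subgroupOf H, y (sec _ x)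
  let m : M := -(c • S)
  have hym : ∀ h : ↥H, y h = ρ (h : G) m - m := fun h => by
    have hstep : ∀ x : ↥H ⧸ K.subgroupOf H, y (sec _ (h • x)) = ρ (h : G) (y (sec _ x)) + y h := by
      intro x
      obtain ⟨u, hu, e⟩ := exists_sec_smul (K.subgroupOf H) h x
      rw [e, hy, hy, hy0 u hu, map_zero, zero_add]
    have hS : S = ρ (h : G) S + Fintype.card (↥H ⧸ K.subgroupOf H) • y h := by
      conv_lhs => rw [show S = ∑ x, y (sec (K.subgroupOf H) (h • x)) from
        (Fintype.sum_bijective (h • ·) (MulAction.bijective h) _ _ fun x => rfl).symm]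
      rw [Finset.sum_congr rfl fun x _ => hstep x, Finset.sum_add_distrib, ← map_sum,
        Finset.sum_const, Finset.card_univ]
    have hs : c • (Fintype.card (↥H ⧸ K.subgroupOf H) • y h) = y h := by
      rw [← Nat.cast_smul_eq_nsmul k, smul_smul, hc, one_smul]
    have h2 := congrArg (c • ·) hS
    simp only [smul_add, hs] at h2
    simp only [m, map_neg, map_smul]
    linear_combination (norm := abel) -h2
  refine ⟨fun x => ρ (sec H x) m - (f : G → G ⧸ H → M) (sec H x) x,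
    funext fun g => funext fun x => ?_⟩
  set a := sec H x with ha
  set b := sec H (g⁻¹ • x) with hb
  have e1 : a * (kap H x g : G) = g * b := by rw [coe_kap, ← ha, ← hb]; group
  have c1 := congrFun (hm a (kap H x g : G)) x
  rw [e1, hm, Pi.add_apply, Pi.add_apply, indRep_apply, indRep_apply, ha, sec_inv_smul,
    show (f : G → G ⧸ H → M) (kap H x g : G) ((1 : G) : G ⧸ H) = y (kap H x g) from rfl, hym,
    map_sub, ← Module.End.mul_apply, ← map_mul, ← ha, e1, map_mul, Module.End.mul_apply] at c1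
  show ρ g (ρ b m - _) - (ρ a m - _) = _
  rw [map_sub]
  linear_combination (norm := abel) -c1

/-- Every equivariant homomorphism of the normal subgroup is the restriction of a class. -/
theorem resKZ_surjective (hK : K ∈ L) : Function.Surjective (resKZ L hKH hρ) := by
  rintro ⟨φ, hφ, hφeq⟩
  obtain ⟨hφc, hφm⟩ := mem_Z1.1 hφ
  simp only [Representation.trivial_apply] at hφm
  let kk : ↥H ⧸ (K.subgroupOf H) → ↥H → ↥K := fun x h =>
      ⟨((kap (K.subgroupOf H) x h : ↥(K.subgroupOf H)) : ↥H), (kap (K.subgroupOf H) x h).2⟩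
  have hkk : ∀ x h h', kk x (h * h') = kk x h * kk (h⁻¹ • x) h' := fun x h h' =>
    Subtype.ext (congrArg (fun z : ↥(K.subgroupOf H) => ((z : ↥H) : G))
        (kap_mul (K.subgroupOf H) x h h'))
  let y : ↥H → M := fun h => c • ∑ x, ρ ((sec (K.subgroupOf H) x : ↥H) : G) (φ (kk x h))
  have hy : ∀ h h' : ↥H, y (h * h') = ρ (h : G) (y h') + y h := fun h h' => by
    simp only [y, map_smul, ← smul_add, map_sum, hkk, hφm, map_add, Finset.sum_add_distrib]
    congr 2
    refine Fintype.sum_bijective (h⁻¹ • ·) (MulAction.bijective h⁻¹) _ _ fun x => ?_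
    rw [← Module.End.mul_apply, ← map_mul]
    have e : (h : G) * ((sec (K.subgroupOf H) (h⁻¹ • x) : ↥H) : G) =
        ((sec (K.subgroupOf H) x : ↥H) : G) * (kk x h : G) := by
      have := congrArg Subtype.val (show h * sec (K.subgroupOf H) (h⁻¹ • x) =
          sec (K.subgroupOf H) x * (kap (K.subgroupOf H) x h : ↥H) by
        rw [coe_kap]; group)
      exact this
    rw [e, map_mul, hρ _ (kk x h).2, mul_one]
  have hy0 : ∀ (h : ↥H) (a : ↥K), (h : G) = a → y h = φ a := fun h a e => by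
    have hn : (K.subgroupOf H).Normal := hKn.subgroupOf H
    have hx : ∀ x : ↥H ⧸ (K.subgroupOf H), ρ ((sec (K.subgroupOf H) x : ↥H) : G) (φ (kk x h))
        = φ a := fun x => by
      have hfix : h⁻¹ • x = x :=
        smul_eq_of_mem_normal (K.subgroupOf H) hn le_rfl (inv_mem (show h ∈ (K.subgroupOf H) from by
          rw [Subgroup.mem_subgroupOf, e]; exact a.2)) x
      refine (hφeq _ (kk x h) a (sec (K.subgroupOf H) x).2 ?_).symm
      show (a : G) = _ * (((kap (K.subgroupOf H) x h : ↥(K.subgroupOf H)) : ↥H) : G) * _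
      rw [coe_kap, hfix, Subgroup.coe_mul, Subgroup.coe_mul, Subgroup.coe_inv, e]
      group
    simp only [y, hx, Finset.sum_const, Finset.card_univ]
    rw [← Nat.cast_smul_eq_nsmul k, smul_smul, hc, one_smul]
  let z : G → G ⧸ H → M := fun g x => ρ (sec H x) (y (kap H x g))
  obtain ⟨W, ⟨W', hW', hW'W⟩, hWφ⟩ := hφc
  obtain ⟨N, hN, hNW, hNn⟩ := L.exists_normal (L.inf_mem hW' hK)
  have hNH : N ≤ H := hNW.trans (inf_le_right.trans hKH)
  have hzN : ∀ g, ∀ s ∈ N, z (g * s) = z g := fun g s hs => funext fun x => by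
    obtain ⟨v, hv, e⟩ := kap_mul_normal H hNn hNH x g hs
    simp only [z, e]
    rw [hy, hy0 v ⟨(v : G), (hNW hv).2⟩ rfl, show φ ⟨(v : G), (hNW hv).2⟩ = 0 from ?_, map_zero,
      zero_add]
    have h1 := hWφ 1 ⟨(v : G), (hNW hv).2⟩ (hW'W (hNW hv).1)
    rw [one_mul] at h1
    rw [h1]
    simpa using hφm 1 1
  have hzm : ∀ g g', z (g * g') = indRep H ρ g (z g') + z g := fun g g' => funext fun x => by
    simp only [z, Pi.add_apply, indRep_apply, kap_mul, hy, map_add, ← Module.End.mul_apply,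
      ← map_mul]
    congr 3
    rw [coe_kap]
    group
  refine ⟨⟨z, mem_Z1.2 ⟨⟨N, hN, hzN⟩, hzm⟩⟩, Subtype.ext (funext fun a => ?_)⟩
  show ρ (sec H _) (y (kap H _ (a : G))) = φ a
  rw [sec_one, show kap H _ (a : G) = _ from kap_one (⟨(a : G), hKH a.2⟩ : ↥H), hy0 _ a rfl,
    map_one]
  rfl

/-- Classes of degree one are the equivariant homomorphisms. -/
theorem exists_H1_equiv (hK : K ∈ L) :
    Nonempty (↥(H1c L (indRep H ρ)) ≃ₗ[k] ↥(eqHom L H K ρ)) := by
  let R := descend (cl1 L (indRep H ρ)) cl1_surjective (resKZ L hKH hρ) fun f hf => by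
    obtain ⟨F, hF⟩ := cl1_eq_zero.1 (LinearMap.mem_ker.1 hf)
    refine LinearMap.mem_ker.2 (Subtype.ext (funext fun a => ?_))
    rw [resKZ_apply, ← hF, d0_apply, Pi.sub_apply, indRep_apply,
      show ((a : G))⁻¹ • ((1 : G) : G ⧸ H) = _ from inv_smul_one (⟨(a : G), hKH a.2⟩ : ↥H),
      hρ _ a.2, Module.End.one_apply, sub_self]
    rfl
  refine ⟨LinearEquiv.ofBijective R ⟨(injective_iff_map_eq_zero R).2 fun x hx => ?_, fun φ => ?_⟩⟩
  · obtain ⟨f, rfl⟩ := cl1_surjective x
    rw [descend_apply] at hx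
    exact cl1_eq_zero.2 (exists_of_resKZ_eq_zero hKH hρ hc f hx)
  · obtain ⟨f, hf⟩ := resKZ_surjective hKH hρ hc hK φ
    exact ⟨cl1 L _ f, (descend_apply _ _ _ _ f).trans hf⟩

end DegOne

/-! ### Degree two -/

section DegTwo

variable (L : Lv G) {H K : Subgroup G} [hKn : K.Normal] (hKH : K ≤ H) (ρ : Representation k G M)

/-- Right translation by an element normalising `K`. -/
theorem conj_iff (h : G) : ∀ v, v ∈ K ↔ h⁻¹ * v * h ∈ K := fun v => by
  constructor
  · exact fun hv => by simpa using hKn.conj_mem v hv h⁻¹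
  · intro hv
    simpa [mul_assoc] using hKn.conj_mem _ hv h

/-- The action of an element on the classes of degree two. -/
def transl (h : G) : H2 L (indRep K ρ) →ₗ[k] H2 L (indRep K ρ) :=
  H2push L (indRep K ρ) (indRep K ρ) (rtMap (conj_iff h)) (rtMap_equivariant _ ρ)

/-- The classes fixed by `H`. -/
def fixedH2 (H : Subgroup G) : Submodule k (H2 L (indRep K ρ)) :=
  ⨅ h ∈ H, LinearMap.ker (transl L ρ h - 1)

theorem mem_fixedH2 {a : H2 L (indRep K ρ)} :
    a ∈ fixedH2 L ρ H ↔ ∀ h ∈ H, transl L ρ h a = a := by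
  simp [fixedH2, Submodule.mem_iInf, sub_eq_zero]

variable [Fintype (G ⧸ K)] [Fintype (↥H ⧸ K.subgroupOf H)] {c : k}
  (hc : c * Fintype.card (↥H ⧸ K.subgroupOf H) = 1)

/-- The inclusion of induced modules. -/
def pullMap : (G ⧸ H → M) →ₗ[k] (G ⧸ K → M) :=
  LinearMap.funLeft k M (Subgroup.quotientMapOfLE hKH)

omit hKn [Fintype (G ⧸ K)] [Fintype (↥H ⧸ K.subgroupOf H)] in
theorem pullMap_equivariant (g : G) (F : G ⧸ H → M) :
    pullMap (k := k) hKH (indRep H ρ g F) = indRep K ρ g (pullMap (k := k) hKH F) :=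
  funext fun x => by
    show ρ g (F (g⁻¹ • Subgroup.quotientMapOfLE hKH x)) =
        ρ g (F (Subgroup.quotientMapOfLE hKH (g⁻¹ • x)))
    rw [quotientMapOfLE_smul]

omit hKn in
theorem fibSum_mk (F : G ⧸ K → M) (g : G) :
    fibSum (k := k) hKH F (g : G ⧸ H) = ∑ x : ↥H ⧸ K.subgroupOf H, F (g • subPt x) := by
  have h1 := congrFun (fibSum_equivariant (k := k) (Representation.trivial k G M) hKH g⁻¹ F)
    ((1 : G) : G ⧸ H)
  rw [fibSum_one, indRep_apply, inv_inv, MulAction.Quotient.smul_coe, smul_eq_mul, mul_one] at h1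
  rw [show (Representation.trivial k G M g⁻¹) (fibSum (k := k) hKH F (g : G ⧸ H)) =
    fibSum (k := k) hKH F (g : G ⧸ H) from rfl] at h1
  rw [← h1]
  refine Finset.sum_congr rfl fun x _ => ?_
  show F (g⁻¹⁻¹ • subPt x) = _
  rw [inv_inv]

theorem pull_fibSum (F : G ⧸ K → M) :
    pullMap (k := k) hKH (fibSum (k := k) hKH F) = ∑ x : ↥H ⧸ K.subgroupOf H,
      rtMap (k := k) (conj_iff (K := K) ((sec _ x : ↥H) : G)) F := funext fun z => by
  induction z using QuotientGroup.induction_on with | _ g => ?_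
  show fibSum (k := k) hKH F (g : G ⧸ H) = _
  rw [fibSum_mk hKH, Finset.sum_apply]
  refine Finset.sum_congr rfl fun x _ => congrArg F ?_
  conv_lhs => rw [← mk_sec (K.subgroupOf H) x, subPt_mk, MulAction.Quotient.smul_coe, smul_eq_mul]
  exact (rtQ_mk _ g).symm

omit hKn in
theorem fibSum_pull (F : G ⧸ H → M) :
    fibSum (k := k) hKH (pullMap (k := k) hKH F) = Fintype.card (↥H ⧸ K.subgroupOf H) • F :=
  funext fun z => by
  induction z using QuotientGroup.induction_on with | _ g => ?_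
  rw [fibSum_mk hKH, Pi.smul_apply, ← Finset.card_univ, ← Finset.sum_const]
  refine Finset.sum_congr rfl fun x _ => ?_
  show F (Subgroup.quotientMapOfLE hKH (g • subPt x)) = F (g : G ⧸ H)
  induction x using QuotientGroup.induction_on with | _ h => ?_
  refine congrArg F (QuotientGroup.eq.2 ?_)
  show (g * (h : G))⁻¹ * g ∈ H
  simp

include hc hKH in
/-- Classes of degree two are the fixed classes of `K`. -/
theorem exists_H2_equiv :
    Nonempty (H2 L (indRep H ρ) ≃ₗ[k] ↥(fixedH2 (K := K) L ρ H)) := by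
  set ι := H2push L (indRep H ρ) (indRep K ρ) (pullMap hKH) (pullMap_equivariant hKH ρ)
  set fs := H2push L (indRep K ρ) (indRep H ρ) (fibSum (k := k) hKH) (fibSum_equivariant ρ hKH)
  have h1 : ∀ a, fs (ι a) = Fintype.card (↥H ⧸ K.subgroupOf H) • a := fun a => by
    obtain ⟨x, rfl⟩ := mk2_surjective a
    simp only [fs, ι, H2push_mk2, ← map_nsmul]
    exact congrArg _ (Subtype.ext (funext fun gg => fibSum_pull hKH _))
  have h2 : ∀ a, ι (fs a) = ∑ x : ↥H ⧸ K.subgroupOf H, transl L ρ ((sec _ x : ↥H) : G) a :=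
    fun a => by
    obtain ⟨x, rfl⟩ := mk2_surjective a
    simp only [fs, ι, transl, H2push_mk2, ← map_sum]
    refine congrArg _ (Subtype.ext (funext fun gg => ?_))
    rw [AddSubmonoidClass.coe_finsetSum, Finset.sum_apply]
    exact pull_fibSum hKH _
  have h3 : ∀ a, ι a ∈ fixedH2 (K := K) L ρ H := fun a => (mem_fixedH2 L ρ).2 fun h hh => by
    simp only [transl, ι, H2push_comp]
    refine H2push_eq_of_eq _ _ (LinearMap.ext fun F => funext fun z => ?_) a
    induction z using QuotientGroup.induction_on with | _ g => ?_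
    show F (Subgroup.quotientMapOfLE hKH (rtQ (conj_iff h) (g : G ⧸ K))) = _
    rw [rtQ_mk]
    refine congrArg F (QuotientGroup.eq.2 ?_)
    show (g * h)⁻¹ * g ∈ H
    simpa using hh
  refine ⟨LinearEquiv.ofBijective (ι.codRestrict _ h3)
      ⟨(injective_iff_map_eq_zero _).2 fun a ha => ?_,
    fun a => ⟨c • fs a, Subtype.ext ?_⟩⟩⟩
  · have h0 : ι a = 0 := congrArg Subtype.val ha
    have h4 := congrArg (c • ·) (h1 a)
    simp only [h0, map_zero, smul_zero] at h4
    rw [h4, ← Nat.cast_smul_eq_nsmul k, smul_smul, hc, one_smul]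
  · show ι (c • fs (a : H2 L (indRep K ρ))) = _
    rw [map_smul, h2, Finset.sum_congr rfl fun x _ => (mem_fixedH2 L ρ).1 a.2 _ (sec _ x).2,
      Finset.sum_const, Finset.card_univ, ← Nat.cast_smul_eq_nsmul k, smul_smul, hc, one_smul]

end DegTwo

end Fermat.Agent.TW.Euler
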