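import Fermat.Agent.CFT.Bridge.Units
import Fermat.Agent.PT.OrdMap
import Fermat.Agent.TW.Euler.Shapiro

/-!
# Homomorphisms of a normal level of `G_T` and `T`-units, as modules over the Galois group

When the class number is killed at the level, Kummer theory identifies homomorphisms of a normal
level with `T`-units modulo `p`-th powers, equivariantly. Used for degree one of the Euler
characteristic formula.
-/

noncomputable section

namespace Fermat.Agent.TW.Euler

open Fermat.Agent.PT Fermat.Agent.PT.Lv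

local notation "Qb" => AlgebraicClosure ℚ

variable {p : ℕ} [Fact p.Prime] (T : Finset Nat.Primes) (K : Subgroup Gam) [hKn : K.Normal]

theorem smul_mem_fixU {g : Gam} {x : Qbˣ} (hx : x ∈ fixU K) : g • x ∈ fixU K := fun h => by
  have hm : g⁻¹ * (h : Gam) * g ∈ K := by simpa using hKn.conj_mem _ h.2 g⁻¹
  have := hx ⟨_, hm⟩
  conv_rhs => rw [← this]
  rw [← mul_smul, ← mul_smul]
  congr 1
  group

omit hKn in
theorem nq_eq_one_of_mem_eT {x : Qbˣ} (hx : x ∈ eT K (placesOver K T)) {r : Nat.Primes} (hr : r ∉ T)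
    (g : Gam) : nq (r : ℕ) g (x : Qb) = 1 := by
  rw [← nP_mk r g (H := K) (x := (x : Qb)) fun h hh => congrArg Units.val (hx.1 ⟨h, hh⟩)]
  exact hx.2 _ hr

theorem smul_mem_eT {g : Gam} {x : Qbˣ} (hx : x ∈ eT K (placesOver K T)) :
    g • x ∈ eT K (placesOver K T) :=
  ⟨smul_mem_fixU K hx.1, fun v hv => by
    rw [nP, nq_smul]
    exact nq_eq_one_of_mem_eT T K hx hv _⟩

/-- The action on the `T`-units of a normal level. -/
def unitRep : Representation ℤ Gam (Additive ↥(eT K (placesOver K T))) where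
  toFun g := (AddMonoidHom.mk' (fun x => Additive.ofMul
    (⟨g • ((Additive.toMul x : eT K (placesOver K T)) : Qbˣ),
      smul_mem_eT T K (Additive.toMul x).2⟩ : eT K (placesOver K T)))
    fun _x _y => congrArg Additive.ofMul (Subtype.ext (smul_mul' g _ _))).toIntLinearMap
  map_one' := LinearMap.ext fun _x => Additive.toMul.injective (Subtype.ext (one_smul _ _))
  map_mul' g h := LinearMap.ext fun _x => Additive.toMul.injective (Subtype.ext (mul_smul g h _))

/-- The twisted conjugation on homomorphisms of a normal level. -/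
def homRep : Representation (ZMod p) Gam ↥(Z1 (LSH T K) (triv (ZMod p) ↥K)) where
  toFun g :=
    ((((cyc p).ω g : (ZMod p)ˣ) : ZMod p) • pp1 (cjHom (conj_iff (K := K) g)) LinearMap.id).restrict
      fun f hf => Submodule.smul_mem _ _
        (pp1_mem_Z1 (compat_cjHom _ (LS T)) (φ := LinearMap.id) (fun _ _ => rfl) hf)
  map_one' := LinearMap.ext fun f => Subtype.ext <| funext fun a => by
    show (((cyc p).ω 1 : (ZMod p)ˣ) : ZMod p) * (f : ↥K → ZMod p) (cjHom _ a) = (f : ↥K → ZMod p) a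
    rw [map_one, Units.val_one, one_mul]
    refine congrArg _ (Subtype.ext ?_)
    simp [coe_cjHom]
  map_mul' g h := LinearMap.ext fun f => Subtype.ext <| funext fun a => by
    show (((cyc p).ω (g * h) : (ZMod p)ˣ) : ZMod p) * (f : ↥K → ZMod p) (cjHom _ a) =
      (((cyc p).ω g : (ZMod p)ˣ) : ZMod p) * ((((cyc p).ω h : (ZMod p)ˣ) : ZMod p) *
        (f : ↥K → ZMod p) (cjHom _ (cjHom _ a)))
    rw [map_mul, Units.val_mul, mul_assoc]
    congr 3

theorem homRep_apply (g : Gam) (f : ↥(Z1 (LSH T K) (triv (ZMod p) ↥K))) (a : ↥K) :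
    (homRep T K g f : ↥K → ZMod p) a =
      (((cyc p).ω g : (ZMod p)ˣ) : ZMod p) *
        (f : ↥K → ZMod p) (cjHom (conj_iff (K := K) g) a) := rfl

variable {T K}

omit hKn in
theorem finite_nP_ne_one (hK : K ∈ LG) {x : Qbˣ} (hx : x ∈ fixU K) :
    {v : Plc K | nP v (x : Qb) ≠ 1}.Finite := by
  have := CFT.Bridge.numberField_fixedField hK
  obtain ⟨y, hy⟩ := (fixUEquiv K).surjective ⟨x, hx⟩
  have e : ((y : ↥(IntermediateField.fixedField K)) : Qb) = (x : Qb) :=
    congrArg (fun z : fixU K => ((z : Qbˣ) : Qb)) hy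
  refine ((CFT.finite_ord_ne_zero y).preimage (CFT.Bridge.prm_injective hK).injOn).subset
    fun v hv h => hv ?_
  rw [← e]
  exact (CFT.Bridge.nP_eq_one_iff v y).2 h

variable (hodd : p ≠ 2) (hpT : pP p ∈ T) (hK : K ∈ LS T) (hμ : (cyc p).MuFix K)
include hodd hpT hK hμ

omit hodd hKn in
theorem kum_mem_LSH {r : ↥(Cyc.rootU p K)} (hr : (r : Qbˣ) ^ p ∈ eT K (placesOver K T)) :
    (cyc p).kum K r ∈ Z1 (LSH T K) (triv (ZMod p) ↥K) := by
  have h1 := kum_mem_Z1_triv hμ r
  refine ⟨con1_LS_of_ord_zero hK hpT (Z1_le_preS h1) fun q hq g => ?_, h1.2⟩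
  have h2 := isOrdAt_kum hK hq r g
  rwa [lv_eq (k := 0) (by rw [zpow_zero]; exact nq_eq_one_of_mem_eT T K hr hq g),
    Int.cast_zero] at h2

omit hpT hKn in
/-- Every homomorphism of a normal level of `G_T` is given by a `T`-unit. -/
theorem exists_unit_root (hfull : SFull K (placesOver K T))
    (f : ↥(Z1 (LSH T K) (triv (ZMod p) ↥K))) :
    ∃ r : ↥(Cyc.rootU p K), (r : Qbˣ) ^ p ∈ eT K (placesOver K T) ∧
      (f : ↥K → ZMod p) = (cyc p).kum K r := by
  classical
  obtain ⟨hfc, hfd⟩ := f.2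
  obtain ⟨r, hr⟩ := exists_root_hom (C := cyc p) hμ (f := (f : ↥K → ZMod p))
    ⟨con1_LG_of_LS hfc, hfd⟩
  have hr' : (f : ↥K → ZMod p) = (cyc p).kum K r := funext hr
  have hKG := LS_le_LG hK
  set x : Qbˣ := (r : Qbˣ) ^ p with hx
  have hxf : x ∈ fixU K := fun g => r.2 g
  have hdvd : ∀ (q : Nat.Primes), q ∉ T → ∀ g, (p : ℤ) ∣ lv (q : ℕ) g x := fun q hq g => by
    have h1 := isOrdAt_kum hK hq r g
    have h2 := isOrdAt_of_LS hK hfc hq g
    rw [hr'] at h2
    exact (ZMod.intCast_zmod_eq_zero_iff_dvd _ _).1 (IsOrdAt.unique hK hodd hq h1 h2)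
  choose! m hm using hdvd
  choose! cv hcv using fun (v : Plc K) (hv : v ∉ placesOver K T) => hfull v hv
  set F := ((finite_nP_ne_one hKG hxf).toFinset.filter fun v => v.1 ∉ T) with hF
  set z : Qbˣ := ∏ v ∈ F, cv v ^ m v.1 v.2.rep with hz
  have hzf : z ∈ fixU K := prod_mem fun v hv =>
    zpow_mem (hcv v (Finset.mem_filter.1 hv).2).1 _
  have hrz : (r : Qbˣ) * z ∈ Cyc.rootU p K := mul_mem r.2 fun g => by rw [smul_pow', hzf g]
  refine ⟨⟨_, hrz⟩, ⟨fun g => hrz g, fun v hv => ?_⟩, ?_⟩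
  · have hv' : v.1 ∉ T := hv
    let ev : Qbˣ →* ℝ :=
      { toFun := fun y => nP v (y : Qb)
        map_one' := nq_one _
        map_mul' := fun a b => nq_mul _ _ _ }
    show ev (((r : Qbˣ) * z) ^ p) = 1
    have hevx : ev x = ((v.1 : ℕ) : ℝ) ^ ((p : ℤ) * m v.1 v.2.rep) := by
      show nq (v.1 : ℕ) v.2.rep (x : Qb) = _
      rw [nq_eq_zpow_lv hK hv' hxf, hm v.1 hv']
    have hevz : ev z = ev (cv v) ^ m v.1 v.2.rep := by
      rw [hz, map_prod]
      by_cases hvF : v ∈ F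
      · rw [Finset.prod_eq_single v (fun w hw hne => ?_) (fun h => absurd hvF h), map_zpow]
        rw [map_zpow,
          show ev (cv w) = 1 from (hcv w (Finset.mem_filter.1 hw).2).2.2 v hv (Ne.symm hne),
          one_zpow]
      · have h1 : ev x = 1 := by
          by_contra h
          exact hvF (Finset.mem_filter.2 ⟨(Set.Finite.mem_toFinset _).2 h, hv'⟩)
        have hm0 : m v.1 v.2.rep = 0 := by
          rw [hevx, zpow_eq_one_iff_right₀
              (by positivity) (by exact_mod_cast v.1.2.one_lt.ne')] at h1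
          exact (mul_eq_zero.1 h1).resolve_left (by exact_mod_cast (Fact.out : p.Prime).ne_zero)
        rw [hm0, zpow_zero]
        refine Finset.prod_eq_one fun w hw => ?_
        rw [map_zpow, show ev (cv w) = 1 from (hcv w (Finset.mem_filter.1 hw).2).2.2 v hv
          (fun e => hvF (e ▸ hw)), one_zpow]
    rw [mul_pow, map_mul, map_pow ev z, ← hx, hevx, hevz,
      show ev (cv v) = ((v.1 : ℕ) : ℝ)⁻¹ from (hcv v hv').2.1, inv_zpow', ← zpow_natCast,
      ← zpow_mul, ← zpow_add₀ (by exact_mod_cast v.1.2.ne_zero)]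
    rw [show (p : ℤ) * m v.1 v.2.rep + -m v.1 v.2.rep * p = 0 by ring, zpow_zero]
  · rw [hr']
    funext g
    show (cyc p).kum K (r : Qbˣ) g = (cyc p).kum K ((r : Qbˣ) * z) g
    rw [Cyc.kum_mul (C := cyc p) r.2 (fun g => by rw [smul_pow', hzf g]),
      kum_eq_zero_of_fixU (C := cyc p) hzf, Pi.zero_apply, add_zero]

/-- Kummer theory for the `T`-units, equivariantly. -/
theorem exists_kumE (hfull : SFull K (placesOver K T)) :
    ∃ Φ : Additive ↥(eT K (placesOver K T)) →+ ↥(Z1 (LSH T K) (triv (ZMod p) ↥K)),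
      Function.Surjective Φ ∧ (∀ x, Φ x = 0 ↔ ∃ y, p • y = x) ∧
        ∀ g x, Φ (unitRep T K g x) = homRep T K g (Φ x) := by
  set E := eT K (placesOver K T)
  have hp : p.Prime := Fact.out
  choose ρ hρ using fun x : Additive ↥E =>
    exists_rootU_of_fixU (p := p) (H := K) (Additive.toMul x).2.1
  have hmem : ∀ x, (cyc p).kum K (ρ x) ∈ Z1 (LSH T K) (triv (ZMod p) ↥K) := fun x =>
    kum_mem_LSH hpT hK hμ (by rw [hρ]; exact (Additive.toMul x).2)
  have hind : ∀ x (r : Qbˣ), r ∈ Cyc.rootU p K →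
      r ^ p = ((Additive.toMul x : E) : Qbˣ) → (cyc p).kum K (ρ x) = (cyc p).kum K r :=
    fun x r hr e => kum_congr hμ (ρ x).2 hr ((hρ x).trans e.symm)
  let Φ : Additive ↥E →+ ↥(Z1 (LSH T K) (triv (ZMod p) ↥K)) :=
    AddMonoidHom.mk' (fun x => ⟨_, hmem x⟩) fun x y => Subtype.ext <| by
      rw [Submodule.coe_add]
      show (cyc p).kum K (ρ (x + y)) = (cyc p).kum K (ρ x) + (cyc p).kum K (ρ y)
      rw [hind (x + y) _ (mul_mem (ρ x).2 (ρ y).2) (by rw [mul_pow, hρ, hρ]; rfl)]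
      exact funext fun g => Cyc.kum_mul (C := cyc p) (ρ x).2 (ρ y).2 g
  refine ⟨Φ, fun f => ?_, fun x => ⟨fun h => ?_, ?_⟩, fun g x => Subtype.ext (funext fun a => ?_)⟩
  · obtain ⟨r, hr, hf⟩ := exists_unit_root hodd hK hμ hfull f
    exact ⟨Additive.ofMul ⟨_, hr⟩, Subtype.ext ((hind _ _ r.2 rfl).trans hf.symm)⟩
  · have h0 : ∀ a, (cyc p).kum K (ρ x) a = 0 := congrFun (congrArg Subtype.val h)
    have hfix : ((ρ x : Qbˣ)) ∈ E :=
        ⟨fun a => (Cyc.kum_eq_zero_iff (ρ x).2 a).1 (h0 a), fun v hv => by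
      refine (pow_eq_one_iff_of_nonneg (nq_nonneg _ _) hp.ne_zero).1 ?_
      rw [← nq_pow, ← Units.val_pow_eq_pow_val, hρ]
      exact (Additive.toMul x).2.2 v hv⟩
    exact ⟨Additive.ofMul ⟨_, hfix⟩, Additive.toMul.injective (Subtype.ext (hρ x))⟩
  · rintro ⟨y, rfl⟩
    rw [map_nsmul, ← Nat.cast_smul_eq_nsmul (ZMod p), ZMod.natCast_self, zero_smul]
  · show (cyc p).kum K (ρ (unitRep T K g x)) a = _
    rw [homRep_apply]
    show _ = _ * (cyc p).kum K (ρ x) _
    have hg : g • (ρ x : Qbˣ) ∈ Cyc.rootU p K := by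
      show ∀ h : ↥K, (h : Gam) • (g • (ρ x : Qbˣ)) ^ p = (g • (ρ x : Qbˣ)) ^ p
      rw [← smul_pow']
      exact smul_mem_fixU K (fun h => (ρ x).2 h)
    rw [hind _ _ hg (by rw [← smul_pow', hρ]; rfl)]
    apply (cyc p).mu_injective
    rw [Cyc.mu_kum hg, ← Cyc.smul_mu, Cyc.mu_kum (ρ x).2, smul_div', ← mul_smul, coe_cjHom]
    congr 1
    rw [← mul_smul, show g * (g⁻¹ * (a : Gam) * g) = (a : Gam) * g by group]

/-- A normal level of `G_T` has finitely many homomorphisms to `ZMod p`. -/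
theorem finite_homs (hfull : SFull K (placesOver K T)) (GI : GlobalInputs p) :
    Finite ↥(Z1 (LSH T K) (triv (ZMod p) ↥K)) := by
  obtain ⟨Φ, hs, hker, -⟩ := exists_kumE hodd hpT hK hμ hfull
  have hfi := (GI.hq_eT (LS_le_LG hK) hμ (finite_placesOver (LS_le_LG hK) T)).1.1
  have hk : Φ.ker = (mulHom p (Additive ↥(eT K (placesOver K T)))).range :=
    AddSubgroup.ext fun x => hker x
  rw [← hk] at hfi
  have : Φ.ker.FiniteIndex := ⟨hfi⟩
  exact Finite.of_equiv _ (QuotientAddGroup.quotientKerEquivOfSurjective Φ hs).toEquiv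

end Fermat.Agent.TW.Euler
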