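import Mathlib.LinearAlgebra.Dimension.Torsion.Finite
import Fermat.Prelude.Def_GaloisRep_ComplexConjugation
import Fermat.Agent.CFT.Bridge.Units

/-!
# The rank of the `T`-units of a fixed field

Dirichlet's theorem: the rank of the `T`-units of the fixed field of an open subgroup is the
number of infinite places plus the number of places over `T` minus one. Used to compute the
characters of unit lattices.
-/

noncomputable section

namespace Fermat.Agent.TW.Euler

open Fermat.Agent.PT Module NumberField IsDedekindDomain

local notation "Qb" => AlgebraicClosure ℚ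

theorem finrank_of_surjective_int {A B : Type*} [AddCommGroup A] [AddCommGroup B]
    [Module.Finite ℤ A] (q : A →ₗ[ℤ] B) (hq : Function.Surjective q) :
    finrank ℤ A = finrank ℤ B + finrank ℤ (LinearMap.ker q) := by
  rw [← (q.quotKerEquivOfSurjective hq).finrank_eq, Submodule.finrank_quotient_add_finrank]

/-- The `S`-units are finitely generated, of rank the unit rank plus the number of primes. -/
theorem finrank_sU {F : Type} [Field F] [NumberField F]
    (S : Finset (HeightOneSpectrum (𝓞 F))) :
    Module.Finite ℤ (Additive (CFT.sU (S : Set (HeightOneSpectrum (𝓞 F))))) ∧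
      finrank ℤ (Additive (CFT.sU (S : Set (HeightOneSpectrum (𝓞 F))))) =
        Units.rank F + S.card := by
  classical
  induction S using Finset.induction with
  | empty =>
    rw [Finset.coe_empty, Finset.card_empty, add_zero]
    let i : (𝓞 F)ˣ →* Fˣ := Units.map (algebraMap (𝓞 F) F : 𝓞 F →* F)
    have hi : Function.Injective i := Units.map_injective RingOfIntegers.coe_injective
    let e : Additive (𝓞 F)ˣ ≃+ Additive (CFT.sU (∅ : Set (HeightOneSpectrum (𝓞 F)))) :=
      MulEquiv.toAdditive ((MonoidHom.ofInjective hi).trans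
        (MulEquiv.subgroupCongr (Subgroup.ext fun x => CFT.mem_sU_empty_iff.symm)))
    exact ⟨Module.Finite.equiv e.toIntLinearEquiv,
      e.toIntLinearEquiv.finrank_eq.symm.trans (Units.finrank_eq (K := F))⟩
  | insert v S hv ih =>
    set B := CFT.sU ((insert v S : Finset _) : Set (HeightOneSpectrum (𝓞 F)))
    let q₀ : Additive B →+ ℤ := AddMonoidHom.mk'
      (fun x => CFT.ord v ((Additive.toMul x : B) : Fˣ)) fun x y => CFT.ord_mul v _ _
    let q := q₀.toIntLinearMap
    obtain ⟨π, hπ, hπ'⟩ := CFT.exists_ord_pos v
    have hπB : π ∈ B := fun u hu => hπ' u fun e => hu (by simp [e])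
    let eK : Additive (CFT.sU (S : Set (HeightOneSpectrum (𝓞 F)))) ≃+ LinearMap.ker q :=
      { toFun := fun x => ⟨Additive.ofMul ⟨((Additive.toMul x : CFT.sU _) : Fˣ),
          CFT.sU_mono (Finset.coe_subset.2 (Finset.subset_insert v S)) (Additive.toMul x).2⟩,
          (Additive.toMul x).2 v (by simpa using hv)⟩
        invFun := fun x => Additive.ofMul ⟨((Additive.toMul x.1 : B) : Fˣ), fun u hu => by
          by_cases h : u = v
          · subst h
            exact x.2
          · exact (Additive.toMul x.1).2 u (by simpa [h] using hu)⟩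
        left_inv := fun x => rfl
        right_inv := fun x => rfl
        map_add' := fun x y => rfl }
    obtain ⟨ihf, ihr⟩ := ih
    have hkf : Module.Finite ℤ (LinearMap.ker q) := Module.Finite.equiv eK.toIntLinearEquiv
    have hf : Module.Finite ℤ (Additive B) := Module.finite_def.2
      (Submodule.fg_of_fg_map_of_fg_inf_ker q (IsNoetherian.noetherian _)
        (by rw [inf_of_le_right le_top]; exact Module.Finite.iff_fg.1 hkf))
    refine ⟨hf, ?_⟩
    rw [finrank_of_surjective_int q.rangeRestrict q.surjective_rangeRestrict,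
      LinearMap.ker_rangeRestrict, ← eK.toIntLinearEquiv.finrank_eq, ihr,
      Finset.card_insert_of_notMem hv]
    have hq1 : finrank ℤ (LinearMap.range q) = 1 := by
      refine le_antisymm ((Submodule.finrank_le _).trans (finrank_self ℤ).le) ?_
      rw [Nat.one_le_iff_ne_zero, Ne, Submodule.finrank_eq_zero]
      intro h
      have : q (Additive.ofMul ⟨π, hπB⟩) ∈ (⊥ : Submodule ℤ ℤ) := h ▸ LinearMap.mem_range_self q _
      rw [Submodule.mem_bot] at this
      exact hπ.ne' this
    rw [hq1]
    ring

/-! ### Infinite places -/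

variable (V : Subgroup Gam)

/-- `g` and `g'` give the same infinite place of the fixed field of `V`. -/
def InfSame (g g' : Gam) : Prop := ∃ h ∈ V, g' = g * h ∨ g' = complexConjugation * g * h

/-- The relation of giving the same infinite place. -/
def infSetoid : Setoid Gam where
  r := InfSame V
  iseqv := by
    refine ⟨fun g => ⟨1, V.one_mem, Or.inl (mul_one g).symm⟩, ?_, ?_⟩
    · rintro g g' ⟨h, hh, rfl | rfl⟩
      · exact ⟨h⁻¹, V.inv_mem hh, Or.inl (mul_inv_cancel_right g h).symm⟩
      · refine ⟨h⁻¹, V.inv_mem hh, Or.inr ?_⟩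
        simp only [← mul_assoc, complexConjugation_mul_self, one_mul, mul_inv_cancel_right]
    · rintro g g' g'' ⟨h, hh, rfl | rfl⟩ ⟨k, hk, rfl | rfl⟩
      · exact ⟨h * k, V.mul_mem hh hk, Or.inl (mul_assoc _ _ _)⟩
      · exact ⟨h * k, V.mul_mem hh hk, Or.inr (by simp [mul_assoc])⟩
      · exact ⟨h * k, V.mul_mem hh hk, Or.inr (by simp [mul_assoc])⟩
      · refine ⟨h * k, V.mul_mem hh hk, Or.inl ?_⟩
        simp only [← mul_assoc, complexConjugation_mul_self, one_mul]

/-- The infinite places of the fixed field of `V`. -/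
def InfPl : Type := Quotient (infSetoid V)

/-- The infinite place of an element. -/
def InfPl.mk (g : Gam) : InfPl V := Quotient.mk (infSetoid V) g

theorem InfPl.mk_eq {g g' : Gam} : InfPl.mk V g = InfPl.mk V g' ↔ InfSame V g g' := Quotient.eq

theorem InfPl.mk_surjective : Function.Surjective (InfPl.mk V) := Quotient.mk_surjective

variable {V}

theorem finite_infPl (hV : V ∈ LG) : Finite (InfPl V) := by
  have := LG.finiteIndex hV
  have : Finite (Gam ⧸ V) := Subgroup.finite_quotient_of_finiteIndex
  refine Finite.of_surjective (fun y : Gam ⧸ V => InfPl.mk V y.out) fun w => ?_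
  obtain ⟨g, rfl⟩ := InfPl.mk_surjective V w
  refine ⟨(g : Gam ⧸ V), (InfPl.mk_eq V).2 ⟨(g : Gam ⧸ V).out⁻¹ * g,
    QuotientGroup.eq.1 (g : Gam ⧸ V).out_eq, Or.inl (by group)⟩⟩

/-- The infinite places of the fixed field are the orbits of complex conjugation on the cosets. -/
theorem card_infPl (hV : V ∈ LG) [NumberField ↥(IntermediateField.fixedField V)] :
    Nat.card (InfPl V) = Nat.card (InfinitePlace ↥(IntermediateField.fixedField V)) := by
  set F := IntermediateField.fixedField V
  let emb : Gam → (F →+* ℂ) := fun g =>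
    complexEmbedding.toRingHom.comp ((g : Qb ≃ₐ[ℚ] Qb).toAlgHom.comp F.val).toRingHom
  have hemb : ∀ g g', emb g = emb g' ↔ g⁻¹ * g' ∈ V := fun g g' => by
    constructor
    · intro h
      rw [← fixingSubgroup_fixedField_of_mem hV, IntermediateField.mem_fixingSubgroup_iff]
      intro x hx
      have h1 := RingHom.congr_fun h ⟨x, hx⟩
      have h2 : g x = g' x := complexEmbedding.toRingHom.injective h1
      show g⁻¹ (g' x) = x
      rw [← h2]
      exact AlgEquiv.symm_apply_apply g x
    · intro h
      refine RingHom.ext fun x => congrArg complexEmbedding ?_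
      show g (x : Qb) = g' (x : Qb)
      have hx := (mem_fixedField_iff (H := V)).1 x.2 _ h
      rw [AlgEquiv.mul_apply] at hx
      conv_lhs => rw [← hx]
      exact AlgEquiv.apply_symm_apply g _
  have hsurj : Function.Surjective emb := by
    have hf := LG.finiteIndex hV
    have : Finite (Gam ⧸ V) := Subgroup.finite_quotient_of_finiteIndex
    let e : Gam ⧸ V → (F →+* ℂ) := Quotient.lift emb fun a b hab =>
      (hemb a b).2 (QuotientGroup.leftRel_apply.1 hab)
    have hinj : Function.Injective e := fun x y => by
      induction x using QuotientGroup.induction_on with | _ a => ?_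
      induction y using QuotientGroup.induction_on with | _ b => ?_
      exact fun h => QuotientGroup.eq.2 ((hemb a b).1 h)
    have hcard : Nat.card (F →+* ℂ) = Nat.card (Gam ⧸ V) := by
      rw [← Subgroup.index_eq_card, ← PT.finrank_fixedField (F := ℚ) (Ω := Qb) hV,
        Nat.card_congr (RingHom.equivRatAlgHom ↥F ℂ), Nat.card_eq_fintype_card, AlgHom.card]
    intro φ
    obtain ⟨x, hx⟩ := ((hinj.bijective_of_nat_card_le hcard.le).2 φ)
    induction x using QuotientGroup.induction_on with | _ a => ?_
    exact ⟨a, hx⟩
  have hconj : ∀ g, ComplexEmbedding.conjugate (emb g) = emb (complexConjugation * g) := fun g =>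
    RingHom.ext fun x => (complexEmbedding_complexConjugation (g (x : Qb))).symm
  have hmk : ∀ g g', InfinitePlace.mk (emb g) = InfinitePlace.mk (emb g') ↔ InfSame V g g' := by
    intro g g'
    rw [InfinitePlace.mk_eq_iff, hconj, hemb, hemb]
    constructor
    · rintro (h | h)
      · exact ⟨_, h, Or.inl (by group)⟩
      · exact ⟨_, h, Or.inr (by group)⟩
    · rintro ⟨h, hh, rfl | rfl⟩
      · exact Or.inl (by simpa using hh)
      · exact Or.inr (by simpa [mul_assoc] using hh)
  refine Nat.card_congr (Equiv.ofBijective (Quotient.lift (fun g => InfinitePlace.mk (emb g))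
    fun a b h => (hmk a b).2 h) ⟨?_, fun w => ?_⟩)
  · intro x y
    induction x using Quotient.inductionOn with | _ a => ?_
    induction y using Quotient.inductionOn with | _ b => ?_
    exact fun h => Quotient.sound ((hmk a b).1 h)
  · obtain ⟨g, hg⟩ := hsurj w.embedding
    exact ⟨InfPl.mk V g, (congrArg InfinitePlace.mk hg).trans (InfinitePlace.mk_embedding w)⟩

/-- The rank of the `T`-units of a fixed field. -/
theorem finrank_eT (hV : V ∈ LG) (T : Finset Nat.Primes) :
    Module.Finite ℤ (Additive (eT V (placesOver V T))) ∧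
      finrank ℤ (Additive (eT V (placesOver V T))) + 1 =
        Nat.card (InfPl V) + (placesOver V T).ncard := by
  classical
  have := CFT.Bridge.numberField_fixedField hV
  set P := CFT.Bridge.prm (H := V) '' placesOver V T
  let i : CFT.sU P →* eT V (placesOver V T) :=
    MonoidHom.mk' (fun x =>
        ⟨((fixUEquiv V (x : (↥(IntermediateField.fixedField V))ˣ) : fixU V) : Qbˣ),
      (CFT.Bridge.mem_eT_iff hV _ _).2 x.2⟩) fun a b => Subtype.ext (by simp)
  have hi : Function.Bijective i := by
    refine ⟨fun a b h => Subtype.ext ((fixUEquiv V).injective (Subtype.ext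
      (congrArg (fun z : eT V (placesOver V T) => (z : Qbˣ)) h))), fun y => ?_⟩
    obtain ⟨x, hx⟩ := (fixUEquiv V).surjective ⟨(y : Qbˣ), (PT.mem_eT.1 y.2).1⟩
    have hx' : ((fixUEquiv V x : fixU V) : Qbˣ) = (y : Qbˣ) := congrArg Subtype.val hx
    exact ⟨⟨x, (CFT.Bridge.mem_eT_iff hV _ x).1 (by rw [hx']; exact y.2)⟩, Subtype.ext hx'⟩
  let e : Additive (CFT.sU P) ≃+ Additive (eT V (placesOver V T)) :=
    MulEquiv.toAdditive (MulEquiv.ofBijective i hi)
  have hPf : P.Finite := (finite_placesOver hV T).image _
  have h := finrank_sU hPf.toFinset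
  rw [Set.Finite.coe_toFinset, ← Set.ncard_eq_toFinset_card _ hPf,
    Set.ncard_image_of_injective _ (CFT.Bridge.prm_injective hV)] at h
  obtain ⟨hfin, hr⟩ := h
  refine ⟨Module.Finite.equiv e.toIntLinearEquiv, ?_⟩
  rw [← e.toIntLinearEquiv.finrank_eq, hr, card_infPl hV, Nat.card_eq_fintype_card, Units.rank]
  have : 0 < Fintype.card (InfinitePlace ↥(IntermediateField.fixedField V)) := Fintype.card_pos
  omega

end Fermat.Agent.TW.Euler
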