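import Mathlib.LinearAlgebra.Dual.Basis
import Fermat.Agent.TW.Euler.Kummer
import Fermat.Agent.TW.Euler.Perm
import Fermat.Agent.TW.Euler.UnitRank

/-!
# Equivariant homomorphisms from the twisted dual: degrees zero and one, and complex conjugation

Expresses `H⁰` and `H¹` of an induced module, and the part where complex conjugation is `-1`,
through maps from the twisted dual into roots of unity, homomorphisms of a normal level and the
infinite places. Used for the Euler characteristic formula.
-/

noncomputable section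

namespace Fermat.Agent.TW.Euler

open Fermat.Agent.PT Fermat.Agent.PT.Lv Module

variable {p : ℕ} [Fact p.Prime]

/-- An involution in odd characteristic splits a space into its two eigenspaces. -/
theorem isCompl_ker_add_sub_of_involution {F V : Type*} [Field F] [AddCommGroup V] [Module F V]
    {σ : V →ₗ[F] V} (h2 : (2 : F) ≠ 0) (hσ : ∀ v, σ (σ v) = v) :
    IsCompl (LinearMap.ker (σ + 1)) (LinearMap.ker (σ - 1)) := by
  constructor
  · refine Submodule.disjoint_def.2 fun v ha hb => ?_
    rw [LinearMap.mem_ker, LinearMap.add_apply, Module.End.one_apply] at ha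
    rw [LinearMap.mem_ker, LinearMap.sub_apply, Module.End.one_apply, sub_eq_zero] at hb
    rw [hb, ← two_smul F, smul_eq_zero] at ha
    exact ha.resolve_left h2
  · rw [codisjoint_iff, eq_top_iff]
    intro v _
    refine Submodule.mem_sup.2 ⟨(2 : F)⁻¹ • (v - σ v), ?_, (2 : F)⁻¹ • (v + σ v), ?_, ?_⟩
    · rw [LinearMap.mem_ker, LinearMap.add_apply, Module.End.one_apply, map_smul, map_sub, hσ,
        ← smul_add]
      simp
    · rw [LinearMap.mem_ker, LinearMap.sub_apply, Module.End.one_apply, map_smul, map_add, hσ,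
        ← smul_sub]
      simp [add_comm]
    · rw [← smul_add, show v - σ v + (v + σ v) = (2 : F) • v by rw [two_smul]; abel,
        smul_smul, inv_mul_cancel₀ h2, one_smul]

/-! ### Representations of `H ⧸ K` -/

section Descent

variable (H K : Subgroup Gam) [hKn : K.Normal] {k : Type*} [CommRing k] {V : Type*} [AddCommGroup V]
  [Module k V]

/-- A representation trivial on `K`, as a representation of `H ⧸ K`. -/
def dRep (ρ : Representation k Gam V) (hρ : ∀ g ∈ K, ρ g = 1) :
    Representation k (↥H ⧸ K.subgroupOf H) V :=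
  QuotientGroup.lift _ (ρ.comp H.subtype) fun _h hh => hρ _ hh

end Descent

/-- Equivariant homomorphisms from a representation, additively. -/
def homAdd {D : Type} [Group D] [Fintype D] (hD : (Fintype.card D : ZMod p) ≠ 0) {S : Type}
    [AddCommGroup S] [Module (ZMod p) S] [Finite S] (σ : Representation (ZMod p) D S) :
    AddFun p D where
  toFun ρ := finrank (ZMod p) (Representation.linHom σ ρ).invariants
  map_exact := fun {A B C} _ _ _ _ _ _ _ _ _ α β γ i q hi hq hinj hex hsurj => by
    have := finite_hom p S A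
    have := finite_hom p S B
    have := finite_hom p S C
    let i' := push0 (α := Representation.linHom σ α) (β := Representation.linHom σ β)
      (LinearMap.compRight (ZMod p) (M := S) i) fun g φ => LinearMap.ext fun s => by simp [hi]
    let q' := push0 (α := Representation.linHom σ β) (β := Representation.linHom σ γ)
      (LinearMap.compRight (ZMod p) (M := S) q) fun g φ => LinearMap.ext fun s => by simp [hq]
    have h1 : Function.Injective i' := fun φ ψ h => Subtype.ext (LinearMap.ext fun s =>
      hinj (LinearMap.congr_fun (congrArg Subtype.val h) s))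
    have h2 : LinearMap.range i' = LinearMap.ker q' := by
      ext φ
      constructor
      · rintro ⟨ψ, rfl⟩
        exact Subtype.ext (LinearMap.ext fun s =>
          LinearMap.mem_ker.1 (hex.le ⟨(ψ : S →ₗ[ZMod p] A) s, rfl⟩))
      · intro hφ
        have hmem : ∀ s, (φ : S →ₗ[ZMod p] B) s ∈ LinearMap.range i := fun s => hex.ge
          (LinearMap.mem_ker.2 (LinearMap.congr_fun (congrArg Subtype.val hφ) s))
        let e := LinearEquiv.ofInjective i hinj
        let ψ : S →ₗ[ZMod p] A := e.symm.toLinearMap ∘ₗ (φ : S →ₗ[ZMod p] B).codRestrict _ hmem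
        have he : ∀ s, i (ψ s) = (φ : S →ₗ[ZMod p] B) s := fun s =>
          (LinearEquiv.ofInjective_apply i (e.symm _)).symm.trans
            (congrArg Subtype.val (e.apply_symm_apply _))
        refine ⟨⟨ψ, fun g => LinearMap.ext fun s => hinj ?_⟩, Subtype.ext (LinearMap.ext he)⟩
        show i (α g (ψ (σ g⁻¹ s))) = i (ψ s)
        rw [hi, he, he]
        exact LinearMap.congr_fun (φ.2 g) s
    have h3 : Function.Surjective q' := fun φ => by
      obtain ⟨s, hs⟩ := q.exists_rightInverse_of_surjective (LinearMap.range_eq_top.2 hsurj)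
      let ψ : S →ₗ[ZMod p] B := s ∘ₗ (φ : S →ₗ[ZMod p] C)
      refine ⟨⟨(Fintype.card D : ZMod p)⁻¹ • ∑ g, Representation.linHom σ β g ψ, fun g => ?_⟩,
        Subtype.ext ?_⟩
      · rw [map_smul, map_sum]
        congr 1
        refine Fintype.sum_bijective (g * ·) (Group.mulLeft_bijective g) _ _ fun x => ?_
        rw [map_mul, Module.End.mul_apply]
      · refine LinearMap.ext fun v => ?_
        show q (((Fintype.card D : ZMod p)⁻¹ • ∑ g, Representation.linHom σ β g ψ) v) = _
        simp only [LinearMap.smul_apply, LinearMap.sum_apply, map_smul, map_sum,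
          Representation.linHom_apply, LinearMap.comp_apply, ψ, hq]
        have : ∀ g, γ g (q (s ((φ : S →ₗ[ZMod p] C) (σ g⁻¹ v)))) = (φ : S →ₗ[ZMod p] C) v :=
          fun g => by
            rw [show q (s ((φ : S →ₗ[ZMod p] C) (σ g⁻¹ v))) = (φ : S →ₗ[ZMod p] C) (σ g⁻¹ v) from
              LinearMap.congr_fun hs _]
            exact LinearMap.congr_fun (φ.2 g) v
        rw [Finset.sum_congr rfl fun g _ => this g, Finset.sum_const, Finset.card_univ,
          ← Nat.cast_smul_eq_nsmul (ZMod p), smul_smul, inv_mul_cancel₀ hD, one_smul]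
    have r1 := LinearMap.finrank_range_add_finrank_ker q'
    have r2 := LinearMap.finrank_range_of_inj h1
    rw [LinearMap.range_eq_top.2 h3, finrank_top, ← h2, r2] at r1
    omega

section HomD

variable {M : Type} [AddCommGroup M] [Module (ZMod p) M] [Finite M]
  (π : Representation (ZMod p) Gam M) (H : Subgroup Gam) {V : Type} [AddCommGroup V]
  [Module (ZMod p) V]

/-- Maps from the twisted dual commuting with `H`. -/
def homD (ρ : Representation (ZMod p) Gam V) :
    Submodule (ZMod p) ((M →ₗ[ZMod p] ZMod p) →ₗ[ZMod p] V) :=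
  Representation.invariants ((Representation.linHom (dualR (muG p) π) ρ).comp H.subtype)

variable {π H}

omit [Finite M] in
theorem mem_homD {ρ : Representation (ZMod p) Gam V} {Ψ : (M →ₗ[ZMod p] ZMod p) →ₗ[ZMod p] V} :
    Ψ ∈ homD π H ρ ↔ ∀ h ∈ H, ∀ l, Ψ (dualR (muG p) π h l) = ρ h (Ψ l) := by
  constructor
  · intro hΨ h hh l
    have := LinearMap.congr_fun (hΨ ⟨h, hh⟩) (dualR (muG p) π h l)
    show _ = _
    rw [← this]
    show ρ h (Ψ (dualR (muG p) π h⁻¹ (dualR (muG p) π h l))) = _
    rw [← Module.End.mul_apply (dualR (muG p) π h⁻¹), ← map_mul, inv_mul_cancel, map_one,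
      Module.End.one_apply]
  · intro hΨ h
    refine LinearMap.ext fun l => ?_
    show ρ (h : Gam) (Ψ (dualR (muG p) π (h : Gam)⁻¹ l)) = Ψ l
    rw [← hΨ _ h.2, ← Module.End.mul_apply, ← map_mul, mul_inv_cancel, map_one,
      Module.End.one_apply]

variable {K : Subgroup Gam} [K.Normal]

omit [K.Normal] [Finite M] in
theorem dualR_eq_one (hπ : ∀ g ∈ K, π g = 1) (hμ : (cyc p).MuFix K) :
    ∀ g ∈ K, dualR (muG p) π g = 1 := fun g hg => LinearMap.ext fun l => LinearMap.ext fun m => by
  rw [dualR_apply, muG_eq_one hμ g hg, hπ _ (inv_mem hg)]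
  rfl

theorem homAdd_dRep [Fintype (↥H ⧸ K.subgroupOf H)]
    (hD : (Fintype.card (↥H ⧸ K.subgroupOf H) : ZMod p) ≠ 0) (hπ : ∀ g ∈ K, π g = 1)
    (hμ : (cyc p).MuFix K) (ρ : Representation (ZMod p) Gam V) (hρ : ∀ g ∈ K, ρ g = 1) :
    haveI := finite_hom p M (ZMod p)
    (homAdd hD (dRep H K (dualR (muG p) π) (dualR_eq_one hπ hμ))).toFun (dRep H K ρ hρ) =
      finrank (ZMod p) (homD π H ρ) := by
  refine congrArg (fun S : Submodule (ZMod p) _ => (finrank (ZMod p) S : ℤ))
    (Submodule.ext fun Ψ => ?_)
  constructor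
  · intro h x
    exact h (x : ↥H ⧸ K.subgroupOf H)
  · intro h d
    induction d using QuotientGroup.induction_on with | _ x => ?_
    exact h x

/-! ### Degrees zero and one -/

omit [Finite M] in
theorem dual_apply_eq {ι : Type*} [Fintype ι] (b : Basis ι (ZMod p) M)
    (Ψ : (M →ₗ[ZMod p] ZMod p) →ₗ[ZMod p] V) (l : M →ₗ[ZMod p] ZMod p) :
    ∑ j, l (b j) • Ψ (b.coord j) = Ψ l := by
  conv_rhs => rw [← b.sum_dual_apply_smul_coord l]
  simp only [map_sum, map_smul]

omit [Finite M] in
theorem ext_dual {ι : Type*} (b : Basis ι (ZMod p) M) {m m' : M}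
    (h : ∀ l : M →ₗ[ZMod p] ZMod p, l m = l m') : m = m' :=
  b.repr.injective (Finsupp.ext fun j => h (b.coord j))

/-- Degree zero: the invariants are the maps into `μ_p`. -/
theorem finrank_indRep_invariants :
    finrank (ZMod p) (indRep H π).invariants = finrank (ZMod p) (homD π H (muG p)) := by
  rw [(indInvEquiv (ρ := π) H).finrank_eq]
  let b := Module.finBasis (ZMod p) M
  let f : ↥(Representation.invariants (π.comp H.subtype)) →ₗ[ZMod p] ↥(homD π H (muG p)) :=
    LinearMap.codRestrict _ (Dual.eval (ZMod p) M ∘ₗ Submodule.subtype _) fun m =>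
      mem_homD.2 fun h hh l => by
        show dualR (muG p) π h l (m : M) = muG p h (l (m : M))
        rw [dualR_apply, show π h⁻¹ (m : M) = m from m.2 ⟨h⁻¹, inv_mem hh⟩]
  refine (LinearEquiv.ofBijective f
      ⟨fun m m' e => Subtype.ext (ext_dual b fun l => ?_), fun Ψ => ?_⟩).finrank_eq
  · exact LinearMap.congr_fun (congrArg Subtype.val e) l
  · have hev : ∀ l, l (∑ j, Ψ.1 (b.coord j) • b j) = Ψ.1 l := fun l => by
      rw [map_sum, ← dual_apply_eq b Ψ.1 l]
      exact Finset.sum_congr rfl fun j _ => by rw [map_smul, smul_eq_mul, smul_eq_mul, mul_comm]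
    refine ⟨⟨∑ j, Ψ.1 (b.coord j) • b j, fun h => ext_dual b fun l => ?_⟩,
      Subtype.ext (LinearMap.ext hev)⟩
    have h1 := mem_homD.1 Ψ.2 (h : Gam)⁻¹ (inv_mem h.2) l
    rw [← hev, ← hev, dualR_apply, inv_inv] at h1
    exact (MulAction.injective ((cyc p).ω (h : Gam)⁻¹)
      (show ((cyc p).ω (h : Gam)⁻¹ : ZMod p) * _ = ((cyc p).ω (h : Gam)⁻¹ : ZMod p) * _ from by
        rw [← Cyc.rep_apply, ← Cyc.rep_apply]; exact h1))

variable {T : Finset Nat.Primes} (hμ : (cyc p).MuFix K)
include hμ

omit [Finite M] hμ in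
theorem apply_cjHom_eq {φ : ↥K → M} (hφ : φ ∈ eqHom (LS T) H K π) {h : Gam} (hh : h ∈ H) (a : ↥K) :
    φ (cjHom (conj_iff (K := K) h) a) = π h⁻¹ (φ a) :=
  hφ.2 h⁻¹ a _ (inv_mem hh) (by rw [coe_cjHom, inv_inv])

omit hμ in
/-- Degree one: the equivariant homomorphisms of `K` are the maps into its homomorphisms. -/
theorem finrank_eqHom :
    finrank (ZMod p) (eqHom (LS T) H K π) = finrank (ZMod p) (homD π H (homRep (p := p) T K)) := by
  let b := Module.finBasis (ZMod p) M
  let F : (↥K → M) →ₗ[ZMod p] (M →ₗ[ZMod p] ZMod p) →ₗ[ZMod p] (↥K → ZMod p) :=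
    LinearMap.mk₂ (ZMod p) (fun φ l a => l (φ a))
      (fun φ φ' l => funext fun a => map_add l _ _) (fun c φ l => funext fun a => map_smul l _ _)
      (fun φ l l' => rfl) (fun c φ l => rfl)
  have hmem : ∀ φ ∈ eqHom (LS T) H K π, ∀ l, F φ l ∈ Z1 (LSH T K) (triv (ZMod p) ↥K) :=
    fun φ hφ l => pp1_mem_Z1 (f := MonoidHom.id ↥K) (compat_id fun _ h => h) (φ := l)
      (fun _ _ => rfl) hφ.1
  let f : ↥(eqHom (LS T) H K π) →ₗ[ZMod p] ↥(homD π H (homRep (p := p) T K)) :=
    { toFun := fun φ => ⟨(F φ.1).codRestrict _ (hmem _ φ.2), mem_homD.2 fun h hh l =>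
        Subtype.ext (funext fun a => by
          show dualR (muG p) π h l (φ.1 a) = _ * l (φ.1 (cjHom (conj_iff (K := K) h) a))
          rw [dualR_apply, apply_cjHom_eq φ.2 hh]
          exact Cyc.rep_apply (C := cyc p) h _)⟩
      map_add' := fun φ φ' => Subtype.ext (LinearMap.ext fun l => Subtype.ext (funext fun a =>
        map_add l _ _))
      map_smul' := fun c φ => Subtype.ext (LinearMap.ext fun l => Subtype.ext (funext fun a =>
        map_smul l _ _)) }
  refine (LinearEquiv.ofBijective f ⟨fun φ φ' e => Subtype.ext (funext fun a => ext_dual b fun l =>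
    ?_), fun Ψ => ?_⟩).finrank_eq
  · exact congrFun (congrArg Subtype.val (LinearMap.congr_fun (congrArg Subtype.val e) l)) a
  · let φ : ↥K → M := fun a => ∑ j, (Ψ.1 (b.coord j) : ↥K → ZMod p) a • b j
    have hev : ∀ (l : M →ₗ[ZMod p] ZMod p) a, l (φ a) = (Ψ.1 l : ↥K → ZMod p) a := fun l a => by
      simp only [φ, map_sum, map_smul, smul_eq_mul]
      conv_rhs => rw [← dual_apply_eq b Ψ.1 l]
      simp only [AddSubmonoidClass.coe_finsetSum, SetLike.val_smul, Finset.sum_apply,
        Pi.smul_apply, smul_eq_mul]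
      exact Finset.sum_congr rfl fun j _ => mul_comm _ _
    have hφ : φ ∈ eqHom (LS T) H K π := by
      refine ⟨?_, fun h a a' hh ha => ext_dual b fun l => ?_⟩
      · have e : φ = ∑ j, fun a => (Ψ.1 (b.coord j) : ↥K → ZMod p) a • b j :=
          funext fun a => by simp [φ, Finset.sum_apply]
        rw [e]
        exact Submodule.sum_mem _ fun j _ => pp1_mem_Z1 (f := MonoidHom.id ↥K)
          (compat_id fun _ h => h) (φ := LinearMap.toSpanSingleton (ZMod p) M (b j))
          (fun _ _ => rfl) (Ψ.1 (b.coord j)).2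
      · have hc : cjHom (conj_iff (K := K) h⁻¹) a = a' :=
            Subtype.ext (by rw [coe_cjHom, ha, inv_inv])
        have h1 := congrFun (congrArg Subtype.val (mem_homD.1 Ψ.2 h⁻¹ (inv_mem hh) l)) a
        rw [homRep_apply, hc, ← hev, ← hev, dualR_apply, inv_inv] at h1
        rw [muG, Cyc.rep_apply] at h1
        exact (mul_left_cancel₀ (Units.ne_zero _) h1).symm
    exact ⟨⟨φ, hφ⟩, Subtype.ext (LinearMap.ext fun l => Subtype.ext (funext fun a => hev l a))⟩

end HomD

/-! ### The places at infinity -/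

section Infinite

/-- The cyclotomic character of complex conjugation is `-1`. -/
theorem omega_complexConjugation : ((cyc p).ω complexConjugation : ZMod p) = -1 := by
  have : NeZero p := ⟨(Fact.out : p.Prime).ne_zero⟩
  have hp := (Fact.out : p.Prime).one_lt
  have hζ : complexConjugation • (cyc p).ζ = (cyc p).ζ⁻¹ := by
    refine Units.ext ?_
    apply complexEmbedding.injective
    show complexEmbedding (complexConjugation ((cyc p).ζ : AlgebraicClosure ℚ)) = _
    rw [complexEmbedding_complexConjugation, Units.val_inv_eq_inv_val, map_inv₀]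
    exact (Complex.inv_eq_conj (Complex.norm_eq_one_of_pow_eq_one (n := p)
      (ζ := complexEmbedding ((cyc p).ζ : AlgebraicClosure ℚ)) (by rw [← map_pow,
        ← Units.val_pow_eq_pow_val, (cyc p).prim.pow_eq_one, Units.val_one, map_one])
      (Fact.out : p.Prime).ne_zero)).symm
  apply (cyc p).mu_injective
  rw [(cyc p).mu_neg]
  have h1 : (cyc p).mu 1 = (cyc p).ζ := by rw [Cyc.mu, ZMod.val_one, pow_one]
  rw [h1, ← hζ, (cyc p).act]
  rfl

variable (k : Type*) [CommRing k] (K : Subgroup Gam) [hKn : K.Normal]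

/-- Right translation of infinite places. -/
def infMul (g : Gam) : InfPl K → InfPl K :=
  Quotient.map (· * g) fun x y => by
    rintro ⟨h, hh, rfl | rfl⟩
    · exact ⟨g⁻¹ * h * g, by simpa using hKn.conj_mem h hh g⁻¹, Or.inl (by group)⟩
    · exact ⟨g⁻¹ * h * g, by simpa using hKn.conj_mem h hh g⁻¹, Or.inr (by group)⟩

theorem infMul_mk (x g : Gam) : infMul K g (InfPl.mk K x) = InfPl.mk K (x * g) := rfl

/-- The permutation module of the infinite places. -/
def infRep : Representation k Gam (InfPl K → k) where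
  toFun g := LinearMap.funLeft k k (infMul K g)
  map_one' := LinearMap.ext fun F => funext fun w => by
    obtain ⟨x, rfl⟩ := InfPl.mk_surjective K w
    show F (infMul K 1 (InfPl.mk K x)) = F (InfPl.mk K x)
    rw [infMul_mk, mul_one]
  map_mul' g h := LinearMap.ext fun F => funext fun w => by
    obtain ⟨x, rfl⟩ := InfPl.mk_surjective K w
    show F (infMul K (g * h) (InfPl.mk K x)) = F (infMul K h (infMul K g (InfPl.mk K x)))
    simp only [infMul_mk, mul_assoc]

theorem infRep_apply (g : Gam) (F : InfPl K → k) (x : Gam) :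
    infRep k K g F (InfPl.mk K x) = F (InfPl.mk K (x * g)) := rfl

theorem infRep_eq_one : ∀ g ∈ K, infRep k K g = 1 := fun g hg =>
  LinearMap.ext fun F => funext fun w => by
    obtain ⟨x, rfl⟩ := InfPl.mk_surjective K w
    exact congrArg F ((InfPl.mk_eq K).2 ⟨g, hg, Or.inl rfl⟩).symm

variable {k K} {M : Type} [AddCommGroup M] [Module (ZMod p) M] [Finite M]
  {π : Representation (ZMod p) Gam M} {H : Subgroup Gam}

/-- The infinite places account for the part of the induced module where conjugation is `-1`. -/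
theorem finrank_homD_infRep (hodd : p ≠ 2) (hK : K ∈ LG) (hμ : (cyc p).MuFix K) (hKH : K ≤ H)
    (hπ : ∀ g ∈ K, π g = 1) :
    (finrank (ZMod p) (homD π H (infRep (ZMod p) K)) : ℤ) =
      (finrank (ZMod p) (Gam ⧸ H → M) : ℤ) -
        finrank (ZMod p) (LinearMap.ker (indRep H π complexConjugation - 1)) := by
  set c := complexConjugation
  set ω : Gam → ZMod p := fun g => ((cyc p).ω g : ZMod p) with hω
  have hωm : ∀ g g', ω (g * g') = ω g * ω g' := fun g g' => by simp [hω]
  have hωK : ∀ g ∈ K, ω g = 1 := fun g hg => by simp [hω, hμ g hg]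
  have hωc : ω c = -1 := omega_complexConjugation
  have := LG.finiteIndex hK
  have := Subgroup.finiteIndex_of_le hKH
  have : Finite (Gam ⧸ H) := Subgroup.finite_quotient_of_finiteIndex
  have := finite_infPl hK
  have := finite_hom p M (ZMod p)
  -- the two eigenspaces of conjugation
  set σ := indRep H π c
  have hσ : ∀ F, σ (σ F) = F := fun F => by
    rw [← Module.End.mul_apply, ← map_mul, complexConjugation_mul_self, map_one,
        Module.End.one_apply]
  have h2 : (2 : ZMod p) ≠ 0 := fun h => hodd ((Nat.prime_dvd_prime_iff_eq Fact.out Nat.prime_two).1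
    ((ZMod.natCast_eq_zero_iff 2 p).1 (by exact_mod_cast h)))
  have hcompl := isCompl_ker_add_sub_of_involution h2 hσ
  have hdim := Submodule.finrank_add_eq_of_isCompl hcompl
  suffices finrank (ZMod p) (LinearMap.ker (σ + 1)) =
      finrank (ZMod p) (homD π H (infRep (ZMod p) K)) by
    rw [← this, ← hdim]; push_cast; ring
  let b := Module.finBasis (ZMod p) M
  have hwd : ∀ (Z : ↥(LinearMap.ker (σ + 1))) (g g' : Gam), InfSame K g g' →
      ω g' • π g'⁻¹ ((Z : Gam ⧸ H → M) (g' : Gam ⧸ H)) =
        ω g • π g⁻¹ ((Z : Gam ⧸ H → M) (g : Gam ⧸ H)) := by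
    intro Z g g' hgg'
    have hone : ∀ a, ∀ h ∈ K,
        ω (a * h) • π (a * h)⁻¹ ((Z : Gam ⧸ H → M) ((a * h : Gam) : Gam ⧸ H)) =
        ω a • π a⁻¹ ((Z : Gam ⧸ H → M) (a : Gam ⧸ H)) := fun a h hh => by
      rw [hωm, hωK h hh, mul_one, mul_inv_rev, map_mul, hπ _ (inv_mem hh), one_mul]
      exact congrArg (fun y => ω a • π a⁻¹ ((Z : Gam ⧸ H → M) y))
        (QuotientGroup.eq.2 (by simpa using inv_mem (hKH hh)))
    obtain ⟨h, hh, rfl | rfl⟩ := hgg'
    · exact hone g h hh
    · rw [hone (c * g) h hh, hωm, hωc, mul_inv_rev, map_mul, Module.End.mul_apply]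
      have h1 := congrFun (LinearMap.mem_ker.1 Z.2) (g : Gam ⧸ H)
      rw [LinearMap.add_apply, Module.End.one_apply, Pi.add_apply, Pi.zero_apply, indRep_apply,
        complexConjugation_inv, MulAction.Quotient.smul_coe, smul_eq_mul, add_eq_zero_iff_eq_neg]
        at h1
      rw [complexConjugation_inv, h1, map_neg, smul_neg, neg_mul, one_mul, neg_smul, neg_neg]
  let f : ↥(LinearMap.ker (σ + 1)) →ₗ[ZMod p] ↥(homD π H (infRep (ZMod p) K)) :=
    { toFun := fun Z => ⟨
        { toFun := fun l => Quotient.lift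
            (fun g : Gam => l (ω g • π g⁻¹ ((Z : Gam ⧸ H → M) (g : Gam ⧸ H))))
            fun a a' h => congrArg l (hwd Z a a' h).symm
          map_add' := fun l l' => funext fun w => by
            induction w using Quotient.inductionOn with | _ g => rfl
          map_smul' := fun r l => funext fun w => by
            induction w using Quotient.inductionOn with | _ g => rfl },
        mem_homD.2 fun h hh l => funext fun w => by
          induction w using Quotient.inductionOn with | _ g => ?_
          show dualR (muG p) π h l (ω g • π g⁻¹ _) =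
            l (ω (g * h) • π (g * h)⁻¹ ((Z : Gam ⧸ H → M) ((g * h : Gam) : Gam ⧸ H)))
          rw [dualR_apply, show ((g * h : Gam) : Gam ⧸ H) = (g : Gam ⧸ H) from
            QuotientGroup.eq.2 (by simpa using inv_mem hh), hωm, mul_inv_rev, map_mul,
            Module.End.mul_apply, muG, Cyc.rep_apply]
          simp only [map_smul, smul_eq_mul, hω]
          ring⟩
      map_add' := fun Z Z' => Subtype.ext (LinearMap.ext fun l => funext fun w => by
        induction w using Quotient.inductionOn with | _ g => ?_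
        show l (ω g • π g⁻¹ ((Z : Gam ⧸ H → M) _ + (Z' : Gam ⧸ H → M) _)) = _ + _
        rw [map_add, smul_add, map_add]
        rfl)
      map_smul' := fun r Z => Subtype.ext (LinearMap.ext fun l => funext fun w => by
        induction w using Quotient.inductionOn with | _ g => ?_
        show l (ω g • π g⁻¹ (r • (Z : Gam ⧸ H → M) _)) = r • _
        rw [map_smul (π g⁻¹), smul_comm, map_smul l]
        rfl) }
  refine (LinearEquiv.ofBijective f ⟨(injective_iff_map_eq_zero f).2 fun Z hZ =>
    Subtype.ext (funext fun x => ?_), fun Ψ => ?_⟩).finrank_eq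
  · induction x using QuotientGroup.induction_on with | _ g => ?_
    have h1 : ω g • π g⁻¹ ((Z : Gam ⧸ H → M) (g : Gam ⧸ H)) = 0 := ext_dual b fun l => by
      rw [map_zero]
      exact congrFun (LinearMap.congr_fun (congrArg Subtype.val hZ) l) (InfPl.mk K g)
    rw [smul_eq_zero] at h1
    have h3 := congrArg (π g) (h1.resolve_left (Units.ne_zero _))
    rw [map_zero, ← Module.End.mul_apply, ← map_mul, mul_inv_cancel, map_one] at h3
    exact h3
  · let F : Gam → M := fun g => ∑ j, Ψ.1 (b.coord j) (InfPl.mk K g) • b j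
    have hev : ∀ (l : M →ₗ[ZMod p] ZMod p) g, l (F g) = Ψ.1 l (InfPl.mk K g) := fun l g => by
      simp only [F, map_sum, map_smul, smul_eq_mul]
      conv_rhs => rw [← dual_apply_eq b Ψ.1 l]
      simp only [Finset.sum_apply, Pi.smul_apply, smul_eq_mul]
      exact Finset.sum_congr rfl fun j _ => mul_comm _ _
    have hFh : ∀ g, ∀ h ∈ H, F (g * h) = ω h • π h⁻¹ (F g) := fun g h hh => ext_dual b fun l => by
      have h1 := congrFun (mem_homD.1 Ψ.2 h hh l) (InfPl.mk K g)
      rw [infRep_apply, ← hev, ← hev, dualR_apply, muG, Cyc.rep_apply] at h1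
      rw [map_smul, smul_eq_mul]
      exact h1.symm
    have hFc : ∀ g, F (c * g) = F g := fun g => ext_dual b fun l => by
      rw [hev, hev, show InfPl.mk K g = InfPl.mk K (c * g) from
        (InfPl.mk_eq K).2 ⟨1, K.one_mem, Or.inr (mul_one _).symm⟩]
    -- `G g := ω g⁻¹ • π g (F g)` only depends on the coset
    let Z₀ : Gam ⧸ H → M := Quotient.lift (fun g : Gam => ω g⁻¹ • π g (F g)) fun a a' h => by
      obtain ⟨h', hh', rfl⟩ : ∃ h' ∈ H, a' = a * h' :=
        ⟨a⁻¹ * a', QuotientGroup.leftRel_apply.1 h, by group⟩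
      rw [hFh a h' hh', map_mul, Module.End.mul_apply, map_smul, map_smul,
        ← Module.End.mul_apply (π h'), ← map_mul, mul_inv_cancel, map_one, Module.End.one_apply,
        smul_smul]
      congr 1
      rw [mul_inv_rev, hωm, mul_comm (ω h'⁻¹), mul_assoc, ← hωm,
        inv_mul_cancel, show ω 1 = 1 by simp [hω], mul_one]
    have hZ : Z₀ ∈ LinearMap.ker (σ + 1) := LinearMap.mem_ker.2 (funext fun x => by
      induction x using QuotientGroup.induction_on with | _ g => ?_
      show π c (Z₀ (c⁻¹ • (g : Gam ⧸ H))) + Z₀ (g : Gam ⧸ H) = 0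
      rw [complexConjugation_inv, MulAction.Quotient.smul_coe, smul_eq_mul]
      show π c (ω (c * g)⁻¹ • π (c * g) (F (c * g))) + ω g⁻¹ • π g (F g) = 0
      rw [hFc, map_smul, ← Module.End.mul_apply (π c), ← map_mul, ← mul_assoc,
        complexConjugation_mul_self, one_mul, mul_inv_rev, hωm, complexConjugation_inv, hωc,
        mul_neg, mul_one, neg_smul, neg_add_cancel])
    refine ⟨⟨Z₀, hZ⟩, Subtype.ext (LinearMap.ext fun l => funext fun w => ?_)⟩
    induction w using Quotient.inductionOn with | _ g => ?_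
    show l (ω g • π g⁻¹ (ω g⁻¹ • π g (F g))) = Ψ.1 l (InfPl.mk K g)
    rw [map_smul (π g⁻¹), ← Module.End.mul_apply, ← map_mul, inv_mul_cancel, map_one,
      Module.End.one_apply, smul_smul, ← hωm, mul_inv_cancel, show ω 1 = 1 by simp [hω], one_smul,
      hev]

end Infinite

end Fermat.Agent.TW.Euler
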